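import Mathlib
import Fermat.Prelude.Def_CuspForm_Newforms
import Fermat.Prelude.Def_GaloisRep_Residual

set_option autoImplicit false

/-!
# The input at `p` for forms new at `p`

`ToricLine p` is the proposition that a weight two eigenform of level `p N`, `p ∤ N`, whose system
does not occur at level `N` residually has a line at `p` preserved by inertia, with inertia acting
trivially on the quotient. It is a definition only; `BadRed/AtP/ToricLineMain` proves it for odd `p`.
-/

open CongruenceSubgroup

namespace FermatAgent.Descent3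

local notation "Qb" => AlgebraicClosure ℚ

/-- Residual representations of forms new at `p` with `p` exactly dividing the level are ordinary
at `p`, with unramified quotient. -/
def ToricLine (p : ℕ) : Prop :=
  ∀ (N : ℕ) [NeZero N], ¬ p ∣ N → ∀ g : CuspForm (Gamma0 (p * N)) 2, g.IsNormalizedEigenform →
    ¬ CuspForm.GoodEigensystemOccursAt g N →
    ∀ (k : Type) [Field k] [CharP k p] (φ : integralClosure ℤ ℂ →+* k) (ρ : ResidualGaloisRep k),
      ρ.IsAttachedTo g φ → ρ.IsAbsolutelyIrreducible →
      ∀ A : ValuationSubring Qb, A.LiesOverPrime p →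
        ∃ L : Submodule k ρ.V, L ≠ ⊥ ∧ L ≠ ⊤ ∧
          (∀ σ ∈ A.inertiaSubgroupIn ℚ, ∀ x ∈ L, ρ.ρ σ x ∈ L) ∧
          (∀ σ ∈ A.inertiaSubgroupIn ℚ, ∀ x, ρ.ρ σ x - x ∈ L)

end FermatAgent.Descent3
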