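import Mathlib
import Fermat.Agent.ModCurve.Group.Conjugacy

set_option autoImplicit false

/-!
# Conjugating elements of trace `±1, ±2` by integral matrices of determinant `ℓ`

If `α` is upper triangular of determinant `ℓ` prime to `N` and `δ α = α γ` with `γ, δ ∈ Γ₀(N)`,
then for `ℓ ≡ 1 (mod N)` an elliptic `δ` is `Γ₀(N)`-conjugate to `γ`, and for parabolic `γ` a
`D`-th power of `δ` is `Γ₀(N)`-conjugate to an `A`-th power of `γ` where `A * D = ℓ`.
-/

open ModularGroup CongruenceSubgroup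
open scoped MatrixGroups

namespace FermatAgent.Descent3

/-- The standard element of trace `-1`. -/
def ellipticThree : SL(2, ℤ) := ⟨!![0, -1; 1, -1], by simp [Matrix.det_fin_two_of]⟩

theorem coe_ellipticThree : (ellipticThree : Matrix (Fin 2) (Fin 2) ℤ) = !![0, -1; 1, -1] := rfl

theorem conj_T_entries (g : SL(2, ℤ)) (n : ℤ) :
    (T ^ n * g * (T ^ n)⁻¹) 0 0 = g 0 0 + n * g 1 0 ∧
      (T ^ n * g * (T ^ n)⁻¹) 1 0 = g 1 0 ∧
      (T ^ n * g * (T ^ n)⁻¹) 1 1 = g 1 1 - n * g 1 0 := by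
  rw [← zpow_neg]
  simp [Matrix.SpecialLinearGroup.coe_mul, coe_T_zpow, Matrix.mul_apply, Fin.sum_univ_two,
    Matrix.vecMul, dotProduct]
  ring

theorem conj_S_entries (g : SL(2, ℤ)) :
    (S * g * S⁻¹) 0 0 = g 1 1 ∧ (S * g * S⁻¹) 1 0 = -g 0 1 ∧ (S * g * S⁻¹) 1 1 = g 0 0 := by
  simp [Matrix.SpecialLinearGroup.coe_mul, Matrix.SpecialLinearGroup.coe_inv, coe_S,
    Matrix.adjugate_fin_two, Matrix.mul_apply, Fin.sum_univ_two, Matrix.vecMul, dotProduct]

/-- Being conjugate to `ellipticThree` or to its square. -/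
def IsConjElliptic (g : SL(2, ℤ)) : Prop :=
  ∃ h : SL(2, ℤ), g = h * ellipticThree * h⁻¹ ∨ g = h * ellipticThree ^ 2 * h⁻¹

theorem IsConjElliptic.of_conj {g : SL(2, ℤ)} (k : SL(2, ℤ))
    (h : IsConjElliptic (k * g * k⁻¹)) : IsConjElliptic g := by
  obtain ⟨x, hx⟩ := h
  refine ⟨k⁻¹ * x, hx.imp (fun e => ?_) (fun e => ?_)⟩ <;>
    · rw [mul_inv_rev, inv_inv]
      calc g = k⁻¹ * (k * g * k⁻¹) * k := by simp [mul_assoc]
        _ = _ := by rw [e]; simp only [mul_assoc]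

theorem eq_of_trace_neg_one {g h : SL(2, ℤ)} (ht : g 0 0 + g 1 1 = -1)
    (ht' : h 0 0 + h 1 1 = -1) (h00 : g 0 0 = h 0 0) (h10 : g 1 0 = h 1 0)
    (hne : g 1 0 ≠ 0) : g = h := by
  have h11 : g 1 1 = h 1 1 := by omega
  have d1 := g.2
  have d2 := h.2
  rw [Matrix.det_fin_two] at d1 d2
  have h01 : g 0 1 = h 0 1 := by
    rw [← h00, ← h10, ← h11] at d2
    exact mul_right_cancel₀ hne (by linarith)
  apply Subtype.ext
  ext i j
  fin_cases i <;> fin_cases j <;> simp [h00, h01, h10, h11]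

/-- Every element of trace `-1` is conjugate to `ellipticThree` or to its square. -/
theorem isConjElliptic_of_trace (g : SL(2, ℤ)) (ht : g 0 0 + g 1 1 = -1) :
    IsConjElliptic g := by
  induction hn : (g 1 0).natAbs using Nat.strong_induction_on generalizing g with
  | _ m ih =>
  subst hn
  have d1 := g.2
  rw [Matrix.det_fin_two] at d1
  have hc : g 1 0 ≠ 0 := by
    intro hc
    rw [hc, mul_zero, sub_zero] at d1
    rcases Int.eq_one_or_neg_one_of_mul_eq_one' d1 with ⟨e1, e2⟩ | ⟨e1, e2⟩ <;> omega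
  obtain ⟨n, hn⟩ : ∃ n : ℤ, (2 * (g 0 0 + n * g 1 0) + 1).natAbs ≤ (g 1 0).natAbs := by
    have hr := Int.emod_nonneg (g 0 0) hc
    have hr' := Int.emod_lt_abs (g 0 0) hc
    have hdiv := Int.emod_add_mul_ediv (g 0 0) (g 1 0)
    have habs' := Int.abs_eq_natAbs (g 1 0)
    by_cases hle : 2 * (g 0 0 % g 1 0) + 1 ≤ |g 1 0|
    · refine ⟨-(g 0 0 / g 1 0), ?_⟩
      rw [show g 0 0 + -(g 0 0 / g 1 0) * g 1 0 = g 0 0 % g 1 0 by linarith]
      omega
    · refine ⟨-(g 0 0 / g 1 0) - (g 1 0).sign, ?_⟩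
      have habs : (g 1 0).sign * g 1 0 = |g 1 0| := Int.sign_mul_self_eq_abs _
      rw [show g 0 0 + (-(g 0 0 / g 1 0) - (g 1 0).sign) * g 1 0 = g 0 0 % g 1 0 - |g 1 0| by
        linear_combination (1 : ℤ) * hdiv.symm - habs]
      omega
  obtain ⟨e00, e10, e11⟩ := conj_T_entries g n
  refine IsConjElliptic.of_conj (T ^ n) ?_
  generalize hg' : T ^ n * g * (T ^ n)⁻¹ = g' at e00 e10 e11 ⊢
  have ht' : g' 0 0 + g' 1 1 = -1 := by rw [e00, e11]; linarith
  have d' := g'.2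
  rw [Matrix.det_fin_two] at d'
  by_cases hlt : (g' 0 1).natAbs < (g 1 0).natAbs
  · obtain ⟨f00, f10, f11⟩ := conj_S_entries g'
    refine IsConjElliptic.of_conj S (ih _ hlt _ (by rw [f00, f11]; linarith) ?_)
    rw [f10, Int.natAbs_neg]
  push Not at hlt
  rw [← e00, ← e10] at hn
  rw [← e10] at hlt hc
  have hone : (g' 1 0).natAbs = 1 := by
    have hd : g' 1 1 = -1 - g' 0 0 := by linarith
    have key : 4 * (g' 0 1 * g' 1 0) = -((2 * g' 0 0 + 1) ^ 2 + 3) := by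
      rw [hd] at d'
      linear_combination -4 * d'
    have key' : 4 * ((g' 0 1).natAbs * (g' 1 0).natAbs) = (2 * g' 0 0 + 1).natAbs ^ 2 + 3 := by
      have := congrArg Int.natAbs key
      rw [Int.natAbs_mul, Int.natAbs_mul, Int.natAbs_neg] at this
      rw [show (4 : ℤ).natAbs = 4 from rfl] at this
      rw [this]
      zify
      rw [abs_of_nonneg (by positivity), sq_abs]
    have h0 : 0 < (g' 1 0).natAbs := Int.natAbs_pos.mpr hc
    have := Nat.mul_le_mul_right (g' 1 0).natAbs hlt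
    have := Nat.pow_le_pow_left hn 2
    nlinarith
  obtain ⟨k00, k10, k11⟩ := conj_T_entries g' (-(g' 0 0 * g' 1 0))
  refine IsConjElliptic.of_conj (T ^ (-(g' 0 0 * g' 1 0))) ?_
  generalize T ^ (-(g' 0 0 * g' 1 0)) * g' * (T ^ (-(g' 0 0 * g' 1 0)))⁻¹ = g'' at k00 k10 k11 ⊢
  have ht'' : g'' 0 0 + g'' 1 1 = -1 := by rw [k00, k11]; linarith
  have h00 : g'' 0 0 = 0 := by
    rw [k00]
    rcases Int.natAbs_eq_iff.mp hone with e | e <;> rw [e] <;> simp
  rcases Int.natAbs_eq_iff.mp hone with e | e <;> rw [← k10] at e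
  · exact ⟨1, Or.inl (by
      rw [one_mul, inv_one, mul_one]
      exact eq_of_trace_neg_one ht'' (by simp [coe_ellipticThree]) (by simp [h00, coe_ellipticThree])
        (by rw [e]; rfl) (by rw [e]; simp))⟩
  · refine ⟨T ^ (-1 : ℤ), Or.inr ?_⟩
    obtain ⟨l00, l10, l11⟩ := conj_T_entries (ellipticThree ^ 2) (-1)
    have hsq : ((ellipticThree ^ 2 : SL(2, ℤ)) : Matrix (Fin 2) (Fin 2) ℤ) = !![-1, 1; -1, 0] := by
      rw [sq, Matrix.SpecialLinearGroup.coe_mul, coe_ellipticThree]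
      simp
    rw [hsq] at l00 l10 l11
    refine eq_of_trace_neg_one ht'' ?_ ?_ ?_ (by rw [e]; simp)
    · rw [l00, l11]; simp
    · rw [h00, l00]; simp
    · rw [e, l10]; simp

end FermatAgent.Descent3
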