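import Mathlib

set_option autoImplicit false

/-!
# Torsion killed by three with integral coordinates: the leading term

A finite group `V` killed by `3`, acted on by an inertia group `G` of a valuation ring `O` and
equipped with finitely many integral coordinate functions obeying a group law "linear up to
products". Points with all coordinates in the maximal ideal form a stable subgroup containing
every `σ P - P`; on it the largest coordinate value `π` satisfies `π ^ 2 ∣ 3`, and reducing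
`x / π` gives an additive map intertwining `σ` with multiplication by the residue of `σ π / π`.
-/

open IsLocalRing

namespace FermatAgent.Descent3

variable {L : Type*} [Field L] {G : Type*} [Group G] [MulSemiringAction G L]
  {V : Type*} [AddCommGroup V] [DistribMulAction G V] {ι : Type*}

/-- `G` acts on `O` as inertia does: it preserves `O` and is trivial on the residue field. -/
def ActsAsInertia (O : ValuationSubring L) (G : Type*) [Group G] [MulSemiringAction G L] : Prop :=
  ∀ (σ : G) (z : L), z ∈ O → σ • z - z ∈ O.nonunits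

/-- Integral coordinates with a group law which is linear up to products of coordinates. -/
structure IntegralCoords (O : ValuationSubring L) (G : Type*) [Group G] [MulSemiringAction G L]
    (V : Type*) [AddCommGroup V] [DistribMulAction G V] (ι : Type*) [Fintype ι] where
  coord : ι → V → L
  integral : ∀ i P, coord i P ∈ O
  coord_zero : ∀ i, coord i 0 = 0
  equivariant : ∀ (σ : G) i P, coord i (σ • P) = σ • coord i P
  separates : ∀ P, (∀ i, coord i P = 0) → P = 0
  coeff : ι → ι → ι → L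
  coeff_mem : ∀ i j l, coeff i j l ∈ O
  add_law : ∀ i P Q, coord i (P + Q) =
    coord i P + coord i Q + ∑ j, ∑ l, coeff i j l * (coord j P * coord l Q)

theorem smul_div (σ : G) (a b : L) : σ • (a / b) = σ • a / σ • b :=
  map_div₀ (MulSemiringAction.toRingHom G L σ) a b

namespace IntegralCoords

variable [Fintype ι] {O : ValuationSubring L} (X : IntegralCoords O G V ι)

omit [Fintype ι] in
theorem sum_mem_nonunits {s : Finset ι} {f : ι → L} (h : ∀ j ∈ s, f j ∈ O.nonunits) :
    ∑ j ∈ s, f j ∈ O.nonunits :=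
  sum_mem h

theorem mul_mem_nonunits {a b : L} (ha : a ∈ O) (hb : b ∈ O.nonunits) : a * b ∈ O.nonunits := by
  rw [show a * b = ((⟨a, ha⟩ * ⟨b, O.nonunits_subset hb⟩ : O) : L) from rfl,
    ValuationSubring.coe_mem_nonunits_iff]
  exact Ideal.mul_mem_left _ _ ((ValuationSubring.coe_mem_nonunits_iff (a := ⟨b, O.nonunits_subset hb⟩)).mp hb)

theorem add_coord_mem_nonunits {P Q : V} (hP : ∀ i, X.coord i P ∈ O.nonunits)
    (hQ : ∀ i, X.coord i Q ∈ O.nonunits) (i : ι) : X.coord i (P + Q) ∈ O.nonunits := by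
  rw [X.add_law]
  refine add_mem (add_mem (hP i) (hQ i)) (sum_mem_nonunits fun j _ => sum_mem_nonunits fun l _ => ?_)
  exact mul_mem_nonunits (X.coeff_mem i j l)
    (mul_mem_nonunits (X.integral j P) (hQ l))

variable (h3 : ∀ P : V, P + P + P = 0)

/-- The points reducing to zero. -/
def formalPart : AddSubgroup V where
  carrier := {P | ∀ i, X.coord i P ∈ O.nonunits}
  zero_mem' i := by rw [X.coord_zero]; exact zero_mem _
  add_mem' hP hQ i := X.add_coord_mem_nonunits hP hQ i
  neg_mem' {P} hP i := by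
    rw [show -P = P + P by rw [neg_eq_iff_add_eq_zero, ← add_assoc, h3]]
    exact X.add_coord_mem_nonunits hP hP i

theorem smul_sub_mem_formalPart (hG : ActsAsInertia O G) (σ : G) (P : V) :
    σ • P - P ∈ X.formalPart h3 := fun i => by
  have h1 := X.add_law i (σ • P) (-P)
  have h2 := X.add_law i P (-P)
  rw [add_neg_cancel, X.coord_zero] at h2
  have hexp : X.coord i (σ • P - P) = (σ • X.coord i P - X.coord i P) +
      ∑ j, ∑ l, X.coeff i j l * ((σ • X.coord j P - X.coord j P) * X.coord l (-P)) := by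
    rw [sub_eq_add_neg (σ • P) P, h1, X.equivariant]
    simp only [sub_mul, mul_sub, Finset.sum_sub_distrib]
    rw [show ∀ a b c d : L, a + b + c = (a - d) + (c - (-d - b)) by intros; ring]
    congr 1
    refine congrArg₂ (· - ·) (Finset.sum_congr rfl fun j _ => Finset.sum_congr rfl fun l _ => ?_) ?_
    · rw [X.equivariant]
    · linear_combination h2
  rw [hexp]
  refine add_mem (hG σ _ (X.integral i P)) (sum_mem_nonunits fun j _ => sum_mem_nonunits fun l _ => ?_)
  refine mul_mem_nonunits (X.coeff_mem i j l) ?_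
  rw [mul_comm]
  exact mul_mem_nonunits (X.integral l (-P)) (hG σ _ (X.integral j P))

theorem smul_mem_formalPart (hG : ActsAsInertia O G) (σ : G) {P : V}
    (hP : P ∈ X.formalPart h3) : σ • P ∈ X.formalPart h3 := by
  simpa using add_mem (X.smul_sub_mem_formalPart h3 hG σ P) hP

/-- The largest coordinate value on a nontrivial subgroup of the formal part. -/
theorem exists_maximal (W : AddSubgroup V) [Finite W] (hW : W ≠ ⊥) :
    ∃ (i₀ : ι) (P₀ : V), P₀ ∈ W ∧ X.coord i₀ P₀ ≠ 0 ∧
      ∀ i, ∀ P ∈ W, X.coord i P / X.coord i₀ P₀ ∈ O := by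
  classical
  have : Fintype W := Fintype.ofFinite W
  obtain ⟨P, hP, hP0⟩ : ∃ P ∈ W, P ≠ 0 := by
    by_contra h
    exact hW (eq_bot_iff.mpr fun P hP => by_contra fun hP0 => h ⟨P, hP, hP0⟩)
  obtain ⟨i, hi⟩ : ∃ i, X.coord i P ≠ 0 := by
    by_contra h
    push Not at h
    exact hP0 (X.separates P h)
  obtain ⟨⟨i₀, P₀⟩, -, hmax⟩ := (Finset.univ : Finset (ι × W)).exists_max_image
    (fun q => O.valuation (X.coord q.1 q.2)) ⟨(i, ⟨P, hP⟩), Finset.mem_univ _⟩
  have hne : X.coord i₀ P₀ ≠ 0 := by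
    intro h0
    have := hmax (i, ⟨P, hP⟩) (Finset.mem_univ _)
    simp only [h0, map_zero, le_zero_iff, map_eq_zero] at this
    exact hi this
  refine ⟨i₀, P₀, P₀.2, hne, fun j Q hQ => ?_⟩
  rw [← O.valuation_le_one_iff, map_div₀]
  exact div_le_one_of_le₀ (hmax (j, ⟨Q, hQ⟩) (Finset.mem_univ _)) zero_le

variable {W : AddSubgroup V} {i₀ : ι} {P₀ : V}

theorem nondegenerate_mem_nonunits (hW : W ≤ X.formalPart h3) (hP₀ : P₀ ∈ W) :
    X.coord i₀ P₀ ∈ O.nonunits :=
  hW hP₀ i₀

/-- Modulo the maximal ideal, `x / π` is additive. -/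
theorem div_add_sub_mem_nonunits (hW : W ≤ X.formalPart h3) (_hP₀ : P₀ ∈ W)
    (_hne : X.coord i₀ P₀ ≠ 0) (hmax : ∀ i, ∀ P ∈ W, X.coord i P / X.coord i₀ P₀ ∈ O)
    (i : ι) {P Q : V} (hP : P ∈ W) (hQ : Q ∈ W) :
    X.coord i (P + Q) / X.coord i₀ P₀ -
      (X.coord i P / X.coord i₀ P₀ + X.coord i Q / X.coord i₀ P₀) ∈ O.nonunits := by
  set π := X.coord i₀ P₀ with hπ
  have hexp : X.coord i (P + Q) / π - (X.coord i P / π + X.coord i Q / π) =
      ∑ j, ∑ l, X.coeff i j l * ((X.coord j P / π) * X.coord l Q) := by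
    rw [X.add_law, add_div, add_div, add_sub_cancel_left, Finset.sum_div]
    refine Finset.sum_congr rfl fun j _ => ?_
    rw [Finset.sum_div]
    exact Finset.sum_congr rfl fun l _ => by ring
  rw [hexp]
  exact sum_mem_nonunits fun j _ => sum_mem_nonunits fun l _ =>
    mul_mem_nonunits (X.coeff_mem i j l) (mul_mem_nonunits (hmax j P hP) (hW hQ l))

include h3 in
/-- The bound: `3 / π ^ 2` is integral. -/
theorem three_div_sq_mem (hW : W ≤ X.formalPart h3) (hP₀ : P₀ ∈ W)
    (hne : X.coord i₀ P₀ ≠ 0) (hmax : ∀ i, ∀ P ∈ W, X.coord i P / X.coord i₀ P₀ ∈ O) :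
    (3 : L) / X.coord i₀ P₀ ^ 2 ∈ O := by
  set π := X.coord i₀ P₀ with hπ
  set u : ι → L := fun j => X.coord j P₀ / π with hu
  have hu' : ∀ j, X.coord j P₀ = π * u j := fun j => by rw [hu]; field_simp
  set S : ι → L := fun j => ∑ a, ∑ b, X.coeff j a b * (u a * u b) with hS
  have h2 : ∀ j, X.coord j (P₀ + P₀) = 2 * (π * u j) + π ^ 2 * S j := fun j => by
    rw [X.add_law, show S j = ∑ a, ∑ b, X.coeff j a b * (u a * u b) from rfl]
    simp only [hu', Finset.mul_sum]
    rw [← two_mul]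
    congr 1
    exact Finset.sum_congr rfl fun a _ => Finset.sum_congr rfl fun b _ => by ring
  set R : L := ∑ a, ∑ b, X.coeff i₀ a b * (S a * u b) with hR
  have hid : (3 : L) * π + 3 * π ^ 2 * S i₀ + π ^ 3 * R = 0 := by
    have h := X.add_law i₀ (P₀ + P₀) P₀
    rw [h3, X.coord_zero] at h
    have hsum : ∑ j, ∑ l, X.coeff i₀ j l * (X.coord j (P₀ + P₀) * X.coord l P₀) =
        2 * π ^ 2 * S i₀ + π ^ 3 * R := by
      rw [show S i₀ = ∑ a, ∑ b, X.coeff i₀ a b * (u a * u b) from rfl, hR]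
      simp only [h2, hu', Finset.mul_sum, ← Finset.sum_add_distrib]
      exact Finset.sum_congr rfl fun a _ => Finset.sum_congr rfl fun b _ => by ring
    have hu1 : u i₀ = 1 := div_self hne
    rw [hsum, h2, hu' i₀, hu1] at h
    linear_combination -h
  have hSmem : ∀ j, S j ∈ O := fun j => sum_mem fun a _ => sum_mem fun b _ =>
    mul_mem (X.coeff_mem j a b) (mul_mem (hmax a P₀ hP₀) (hmax b P₀ hP₀))
  have hRmem : R ∈ O := sum_mem fun a _ => sum_mem fun b _ =>
    mul_mem (X.coeff_mem i₀ a b) (mul_mem (hSmem a) (hmax b P₀ hP₀))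
  have hunit : O.valuation (1 + π * S i₀) = 1 := by
    rw [Valuation.map_add_eq_of_lt_left, map_one]
    rw [map_one, ← ValuationSubring.mem_nonunits_iff, mul_comm]
    exact mul_mem_nonunits (hSmem i₀) (hW hP₀ i₀)
  have h3eq : (3 : L) / π ^ 2 * (1 + π * S i₀) = -R := by
    field_simp
    apply mul_left_cancel₀ hne
    linear_combination hid
  have hv := congrArg O.valuation h3eq
  rw [map_mul, hunit, mul_one] at hv
  rw [← O.valuation_le_one_iff, hv, O.valuation_le_one_iff]
  exact neg_mem hRmem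

/-- The leading term: an additive map to the residue field, nonzero, intertwining `σ` with the
residue of `σ π / π`. -/
theorem exists_leading (hG : ActsAsInertia O G) (hW : W ≤ X.formalPart h3)
    (hWG : ∀ (σ : G), ∀ P ∈ W, σ • P ∈ W) (hP₀ : P₀ ∈ W)
    (hne : X.coord i₀ P₀ ≠ 0) (hmax : ∀ i, ∀ P ∈ W, X.coord i P / X.coord i₀ P₀ ∈ O) :
    ∃ (ℓ : W →+ ResidueField O) (χ : G → ResidueField O),
      ℓ ⟨P₀, hP₀⟩ = 1 ∧
      (∀ P : W, ∃ h : X.coord i₀ P / X.coord i₀ P₀ ∈ O, ℓ P = residue O ⟨_, h⟩) ∧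
      (∀ σ, ∃ h : σ • X.coord i₀ P₀ / X.coord i₀ P₀ ∈ O,
        χ σ = residue O ⟨_, h⟩) ∧
      ∀ (σ : G) (P : W), ℓ ⟨σ • (P : V), hWG σ P P.2⟩ = χ σ * ℓ P := by
  set π := X.coord i₀ P₀ with hπ
  let ℓ : W →+ ResidueField O :=
    AddMonoidHom.mk' (fun P => residue O ⟨X.coord i₀ P / π, hmax i₀ P P.2⟩) fun P Q => by
      rw [← map_add, ← sub_eq_zero, ← map_sub, residue_eq_zero_iff,
        ← ValuationSubring.coe_mem_nonunits_iff]
      exact X.div_add_sub_mem_nonunits h3 hW hP₀ hne hmax i₀ P.2 Q.2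
  have hmem : ∀ σ : G, σ • π / π ∈ O := fun σ => by
    rw [hπ, ← X.equivariant]
    exact hmax i₀ _ (hWG σ P₀ hP₀)
  refine ⟨ℓ, fun σ => residue O ⟨σ • π / π, hmem σ⟩, ?_,
    fun P => ⟨hmax i₀ P P.2, rfl⟩, fun σ => ⟨hmem σ, rfl⟩, fun σ P => ?_⟩
  · change residue O ⟨π / π, _⟩ = 1
    rw [← map_one (residue O)]
    exact congrArg (residue O) (Subtype.ext (div_self hne))
  · change residue O ⟨X.coord i₀ (σ • (P : V)) / π, _⟩ =
      residue O ⟨σ • π / π, hmem σ⟩ * residue O ⟨X.coord i₀ P / π, _⟩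
    rw [← map_mul, ← sub_eq_zero, ← map_sub, residue_eq_zero_iff,
      ← ValuationSubring.coe_mem_nonunits_iff]
    change X.coord i₀ (σ • (P : V)) / π - σ • π / π * (X.coord i₀ P / π) ∈ O.nonunits
    have hσπ : σ • π ≠ 0 := by rwa [smul_ne_zero_iff_ne]
    rw [X.equivariant, show σ • X.coord i₀ P / π - σ • π / π * (X.coord i₀ P / π) =
      σ • π / π * (σ • (X.coord i₀ P / π) - X.coord i₀ P / π) by
        rw [mul_sub, smul_div]; field_simp]
    exact mul_mem_nonunits (hmem σ) (hG σ _ (hmax i₀ P P.2))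

end IntegralCoords

end FermatAgent.Descent3
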