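import Mathlib
import Fermat.Agent.Descent3.Formal
import Fermat.Agent.GalRep.Flat.Model
import Fermat.Agent.LocalP.Places
import Fermat.Agent.Local.Place

set_option autoImplicit false

/-!
# Integral coordinates from a function model

The basis of a function model over `ℤ_(p)`, normalised to vanish at the origin, gives integral
coordinates at a place over `p`.
-/

noncomputable section

open scoped TensorProduct

namespace FermatAgent.Descent3

local notation "Qb" => AlgebraicClosure ℚ
local notation "GQ" => AlgebraicClosure ℚ ≃ₐ[ℚ] AlgebraicClosure ℚ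
local notation "Rp" => GaloisRep.ratLocalizedAt

open GalRep.Flat

variable {A : ValuationSubring Qb} {p : ℕ}

theorem algebraMap_ratLocalized_mem (hp : p.Prime) (hA : A.LiesOverPrime p) (c : Rp p) :
    algebraMap (Rp p) Qb c ∈ A := by
  rw [← A.valuation_le_one_iff,
    show algebraMap (Rp p) Qb c = algebraMap ℚ Qb (c : ℚ) from rfl, eq_ratCast, Rat.cast_def,
    map_div₀, ← Int.cast_natCast (R := Qb) (c : ℚ).den,
    Local.val_intCast_eq_one hp hA (m := ((c : ℚ).den : ℤ)) (fun h =>
      hp.coprime_iff_not_dvd.mp (Nat.Coprime.symm c.2) (Int.natCast_dvd_natCast.mp h)), div_one]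
  exact Local.val_le_one_of_mem (intCast_mem A _)

theorem mem_of_isIntegral_ratLocalized (hp : p.Prime) (hA : A.LiesOverPrime p) {z : Qb}
    (hz : IsIntegral (Rp p) z) : z ∈ A := by
  obtain ⟨f, hf, hfz⟩ := hz
  let ι : Rp p →+* A := (algebraMap (Rp p) Qb).codRestrict A (algebraMap_ratLocalized_mem hp hA)
  have hA' : IsIntegral A z := ⟨f.map ι, hf.map ι, by
    rw [Polynomial.eval₂_map]
    exact hfz⟩
  obtain ⟨y, hy⟩ := IsIntegrallyClosed.isIntegral_iff.mp hA'
  exact hy ▸ y.2

theorem actsAsInertia (A : ValuationSubring Qb) : ActsAsInertia A (A.inertiaSubgroupIn ℚ) :=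
  fun σ _ hz => (LocalP.mem_inertia_iff_sub_mem.mp σ.2).2 _ hz

/-- A function model gives integral coordinates at every place over `p`, for every action of
inertia which agrees with that of the model. -/
theorem exists_integralCoords (hp : p.Prime) (hA : A.LiesOverPrime p) {M : Type} [AddCommGroup M]
    [Finite M] {act : GQ → M → M} (G : FunctionModel p M act)
    [DistribMulAction (A.inertiaSubgroupIn ℚ) M]
    (hact : ∀ (σ : A.inertiaSubgroupIn ℚ) (v : M), σ • v = act σ v) :
    ∃ (ι : Type) (_ : Fintype ι), Nonempty (IntegralCoords A (A.inertiaSubgroupIn ℚ) M ι) := by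
  classical
  let b := G.basis
  set ι := Module.Free.ChooseBasisIndex (Rp p) G.A
  set e : ι → Qb := fun i => (b i : M → Qb) 0
  have hmul : ∀ i, ∃ c : ι → ι → Rp p, ∀ x y,
      (b i : M → Qb) (x + y) =
        ∑ j, ∑ l, algebraMap (Rp p) Qb (c j l) * ((b j : M → Qb) x * (b l : M → Qb) y) := by
    intro i
    obtain ⟨t, ht⟩ := G.add_mem _ (b i).2
    refine ⟨fun j l => (b.tensorProduct b).repr t (j, l), fun x y => ?_⟩
    have h1 : prodTensor G.A.val G.A.val t (x, y) = (b i : M → Qb) (x + y) := congrFun ht (x, y)
    have h2 := (b.tensorProduct b).sum_repr t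
    rw [← h1]
    conv_lhs => rw [← h2]
    rw [map_sum, Finset.sum_apply, Fintype.sum_prod_type]
    refine Finset.sum_congr rfl fun j _ => Finset.sum_congr rfl fun l _ => ?_
    rw [map_smul, Pi.smul_apply, Algebra.smul_def, Module.Basis.tensorProduct_apply',
      prodTensor_tmul]
    rfl
  choose c hc using hmul
  have hfix : ∀ (σ : GQ) i, σ (e i) = e i := fun σ i => by
    rw [← G.equivariant _ (b i).2, G.act_zero]
  refine ⟨ι, inferInstance, ⟨{
    coord := fun i P => (b i : M → Qb) P - e i
    integral := fun i P => sub_mem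
      (mem_of_isIntegral_ratLocalized hp hA (G.isIntegral_apply (b i).2 P))
      (mem_of_isIntegral_ratLocalized hp hA (G.isIntegral_apply (b i).2 0))
    coord_zero := fun i => sub_self _
    equivariant := fun σ i P => by
      show _ - _ = (σ : GQ) _
      rw [hact, map_sub, hfix, G.equivariant _ (b i).2]
    separates := fun P hP => G.separates P 0 fun f hf => by
      have h := congrArg (fun u : G.A => (u : M → Qb)) (b.sum_repr ⟨f, hf⟩)
      simp only [AddSubmonoidClass.coe_finsetSum, SetLike.val_smul] at h
      rw [← congrFun h P, ← congrFun h 0]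
      simp only [Finset.sum_apply, Pi.smul_apply]
      exact Finset.sum_congr rfl fun i _ => congrArg _ (sub_eq_zero.mp (hP i))
    coeff := fun i j l => algebraMap (Rp p) Qb (c i j l)
    coeff_mem := fun i j l => algebraMap_ratLocalized_mem hp hA _
    add_law := fun i P Q => ?_ }⟩⟩
  have h0 := hc i 0 0
  have hP := hc i P 0
  have hQ := hc i 0 Q
  rw [add_zero] at h0 hP
  rw [zero_add] at hQ
  simp only [sub_mul, mul_sub, Finset.sum_sub_distrib]
  rw [← hc i P Q, ← hP, ← hQ, ← h0]
  ring

end FermatAgent.Descent3
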