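import Mathlib
import Fermat.Agent.ExtVanish.InertiaLift
import Fermat.Agent.TW.ValueGroup
import Fermat.Agent.Local.Place

set_option autoImplicit false

/-!
# Elements fixed by inertia have integral valuation
-/

noncomputable section

open scoped NumberField IntermediateField

namespace FermatAgent.Descent3

attribute [local instance] RT.isGalois_algClosureRat

local notation "Qb" => AlgebraicClosure ℚ
local notation "GQ" => AlgebraicClosure ℚ ≃ₐ[ℚ] AlgebraicClosure ℚ
local notation "ZB" => integralClosure ℤ (AlgebraicClosure ℚ)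

variable {A : ValuationSubring Qb} {p : ℕ}

/-- The number field generated by an element fixed by inertia is unramified at the place. -/
theorem ramificationIdx_eq_one_of_fixed (hp : p.Prime) (hA : A.LiesOverPrime p)
    (L : IntermediateField ℚ Qb) [FiniteDimensional ℚ L] [IsGalois ℚ L] [NumberField L] (z : L)
    (hfix : ∀ σ ∈ A.inertiaSubgroupIn ℚ, σ (z : Qb) = z) (Q : Ideal (𝓞 L)) [Q.IsMaximal]
    (hQ : ∀ x : 𝓞 L, x ∈ Q ↔ ((x : L) : Qb) ∈ A.nonunits) :
    (Q.under (𝓞 ℚ⟮z⟯)).ramificationIdx ℤ = 1 := by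
  classical
  set F := ℚ⟮z⟯
  have : NumberField F := NumberField.of_module_finite ℚ F
  have : IsGalois F L := IsGalois.tower_top_intermediateField F
  set P := Q.under (𝓞 F)
  have hpQ : (p : 𝓞 L) ∈ Q := (hQ _).mpr (by simpa [ValuationSubring.LiesOverPrime] using hA)
  have hQ0 : Q ≠ ⊥ := fun h => by
    rw [h, Ideal.mem_bot] at hpQ
    exact hp.ne_zero (by exact_mod_cast hpQ)
  have hPmax : P.IsMaximal := Ideal.IsMaximal.under (𝓞 F) Q
  have : Q.LiesOver P := ⟨rfl⟩
  have hspan : (Ideal.span {(p : ℤ)}).IsMaximal :=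
    PrincipalIdealRing.isMaximal_of_irreducible (Nat.prime_iff_prime_int.mp hp).irreducible
  have hQlies : Q.LiesOver (Ideal.span {(p : ℤ)}) := ⟨hspan.eq_of_le
    (Ideal.IsPrime.under ℤ Q).ne_top (by
      rw [Ideal.span_singleton_le_iff_mem, Ideal.under, Ideal.mem_comap, map_natCast]
      exact hpQ)⟩
  have : (Ideal.span {(p : ℤ)}).IsPrime := hspan.isPrime
  have : NeZero p := ⟨hp.ne_zero⟩
  have : Finite (ℤ ⧸ Ideal.span {(p : ℤ)}) :=
    Finite.of_equiv _ (Int.quotientSpanNatEquivZMod p).symm.toEquiv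
  have : Finite ((Ideal.span {(p : ℤ)}).ResidueField) :=
    Finite.of_surjective _ (Ideal.bijective_algebraMap_quotient_residueField _).2
  have hP0 : P ≠ ⊥ := Ideal.IsIntegral.comap_ne_bot (𝓞 F) hQ0
  have : Finite (𝓞 F ⧸ P) := Ideal.finiteQuotientOfFreeOfNeBot P hP0
  have : Finite P.ResidueField :=
    Finite.of_surjective _ (Ideal.bijective_algebraMap_quotient_residueField P).2
  have cardL := Ideal.card_inertia_eq_ramificationIdxIn (G := L ≃ₐ[ℚ] L) (Ideal.span {(p : ℤ)}) Q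
  rw [Ideal.ramificationIdxIn_eq_ramificationIdx (Ideal.span {(p : ℤ)}) Q (L ≃ₐ[ℚ] L)] at cardL
  have cardF := Ideal.card_inertia_eq_ramificationIdxIn (G := L ≃ₐ[F] L) P Q
  rw [Ideal.ramificationIdxIn_eq_ramificationIdx P Q (L ≃ₐ[F] L)] at cardF
  have hfixL : ∀ σ ∈ Q.inertia (L ≃ₐ[ℚ] L), σ z = z := by
    intro σ hσ
    obtain ⟨τ, hτ, hτx⟩ := ExtVanish.exists_inertia_lift_at L.val hp hA Q hQ σ hσ
    exact Subtype.ext ((hτx z).symm.trans (hfix τ hτ))
  have hσF : ∀ σ ∈ Q.inertia (L ≃ₐ[ℚ] L), ∀ x : F, σ (x : L) = x := by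
    intro σ hσ x
    exact IntermediateField.adjoin_simple_le_iff.mpr
      (show z ∈ IntermediateField.fixedField (Subgroup.zpowers σ) from fun ⟨g, hg⟩ => by
        obtain ⟨n, rfl⟩ := Subgroup.mem_zpowers_iff.mp hg
        exact hfixL _ (zpow_mem hσ n)) x.2 ⟨σ, Subgroup.mem_zpowers σ⟩
  let res : Q.inertia (L ≃ₐ[F] L) → Q.inertia (L ≃ₐ[ℚ] L) := fun σ =>
    ⟨(σ : L ≃ₐ[F] L).restrictScalars ℚ, fun x => σ.2 x⟩
  have hres : Function.Bijective res := by
    refine ⟨fun σ τ h => Subtype.ext (AlgEquiv.ext fun x => ?_), fun σ => ?_⟩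
    · exact DFunLike.congr_fun (congrArg Subtype.val h) x
    · exact ⟨⟨{ (σ : L ≃ₐ[ℚ] L) with commutes' := fun x => hσF σ σ.2 x }, fun x => σ.2 x⟩,
        Subtype.ext (AlgEquiv.ext fun x => rfl)⟩
  have hcard : Nat.card (Q.inertia (L ≃ₐ[F] L)) = Nat.card (Q.inertia (L ≃ₐ[ℚ] L)) :=
    Nat.card_eq_of_bijective res hres
  have htower := Ideal.ramificationIdx_tower (R := ℤ) (S := 𝓞 F) P Q
  rw [← cardF, ← cardL, hcard] at htower
  have hpos : 0 < Nat.card (Q.inertia (L ≃ₐ[ℚ] L)) := Nat.card_pos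
  exact (mul_eq_right₀ hpos.ne').mp htower.symm

/-- An element fixed by the inertia group of a place over `p` has valuation a power of that of
`p`. -/
theorem exists_val_eq_zpow_of_fixed (hp : p.Prime) (hA : A.LiesOverPrime p) {z : Qb} (hz : z ≠ 0)
    (hfix : ∀ σ ∈ A.inertiaSubgroupIn ℚ, σ z = z) :
    ∃ k : ℤ, A.valuation z = A.valuation (p : Qb) ^ k := by
  classical
  have hint : IsIntegral ℚ z :=
    (Algebra.IsAlgebraic.isAlgebraic (R := ℚ) z).isIntegral
  have := IntermediateField.adjoin.finiteDimensional hint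
  set L := IntermediateField.normalClosure ℚ ℚ⟮z⟯ Qb
  have : Normal ℚ L := normalClosure.normal ℚ _ Qb
  have : Algebra.IsSeparable ℚ L := Algebra.IsSeparable.of_integral ℚ L
  have : IsGalois ℚ L := ⟨⟩
  have : NumberField L := NumberField.of_module_finite ℚ L
  set zL : L := ⟨z, IntermediateField.le_normalClosure _ (IntermediateField.mem_adjoin_simple_self ℚ z)⟩
  set F := ℚ⟮zL⟯
  have : NumberField F := NumberField.of_module_finite ℚ F
  let ι : 𝓞 L →+* ZB :=
    (L.val.toRingHom.comp (algebraMap (𝓞 L) L)).codRestrict (integralClosure ℤ Qb).toSubring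
      fun x => (NumberField.RingOfIntegers.isIntegral_coe x).map (L.val.restrictScalars ℤ)
  have hc : (RT.centre A).IsPrime := RT.centre_isPrime A
  set Q := (RT.centre A).comap ι
  have hQmem : ∀ x : 𝓞 L, x ∈ Q ↔ ((x : L) : Qb) ∈ A.nonunits := fun x => by
    rw [Ideal.mem_comap, RT.mem_centre_iff]
    rfl
  have hpA : (p : Qb) ∈ A.nonunits := hA
  have hQ0 : Q ≠ ⊥ := fun h => by
    have : (p : 𝓞 L) ∈ Q := (hQmem _).mpr (by simpa using hpA)
    rw [h, Ideal.mem_bot] at this
    exact hp.ne_zero (by exact_mod_cast this)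
  have : Q.IsPrime := Ideal.comap_isPrime ι _
  have : Q.IsMaximal := this.isMaximal hQ0
  have he := ramificationIdx_eq_one_of_fixed hp hA L zL hfix Q hQmem
  set P := Q.under (𝓞 F)
  have : P.IsMaximal := Ideal.IsMaximal.under (𝓞 F) Q
  have hmem : ∀ x : 𝓞 F, x ∈ P ↔ A.valuation (((x : F) : L) : Qb) < 1 := fun x => by
    rw [Ideal.mem_comap, hQmem, ValuationSubring.mem_nonunits_iff]
    rfl
  have hle : ∀ x : 𝓞 F, A.valuation (((x : F) : L) : Qb) ≤ 1 := fun x => by
    have hi : IsIntegral A (((x : F) : L) : Qb) :=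
      (((NumberField.RingOfIntegers.isIntegral_coe x).map (F.val.restrictScalars ℤ)).map
        (L.val.restrictScalars ℤ)).tower_top
    obtain ⟨y, hy⟩ := IsIntegrallyClosed.isIntegral_iff.mp hi
    rw [A.valuation_le_one_iff]
    exact hy ▸ y.2
  have hpP : (p : 𝓞 F) ∈ P := (hmem _).mpr (by simpa [ValuationSubring.mem_nonunits_iff] using hpA)
  obtain ⟨u, huP, hu⟩ : ∃ u : 𝓞 F, u ∉ P ∧ ∀ y ∈ P, ∃ y', u * y = (p : 𝓞 F) * y' := by
    obtain ⟨J, hJ⟩ := Ideal.dvd_iff_le.mpr ((Ideal.span_singleton_le_iff_mem P).mpr hpP)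
    have hJP : ¬ J ≤ P := fun hJP => by
      obtain ⟨J', rfl⟩ := Ideal.dvd_iff_le.mpr hJP
      have hmap : (Ideal.span {(p : ℤ)}).map (algebraMap ℤ (𝓞 F)) = P * (P * J') := by
        rw [← hJ, Ideal.map_span, Set.image_singleton, map_natCast]
      have hne : (Ideal.span {(p : ℤ)}).map (algebraMap ℤ (𝓞 F)) ≠ ⊥ :=
        Ideal.map_ne_bot_of_ne_bot (by simpa using hp.ne_zero)
      have hlies : P.LiesOver (Ideal.span {(p : ℤ)}) :=
        ⟨(PrincipalIdealRing.isMaximal_of_irreducible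
          (Nat.prime_iff_prime_int.mp hp).irreducible).eq_of_le
            (Ideal.IsPrime.under ℤ P).ne_top (by
              rw [Ideal.span_singleton_le_iff_mem, Ideal.under, Ideal.mem_comap, map_natCast]
              exact hpP)⟩
      rw [Ideal.IsDedekindDomain.ramificationIdx_eq_normalizedFactors_count
        (Ideal.span {(p : ℤ)}) P hne, hmap] at he
      have hne' : P * (P * J') ≠ ⊥ := hmap ▸ hne
      have hP0 : P ≠ ⊥ := fun h => hne' (by rw [h, Ideal.bot_mul])
      have hirr : Irreducible P := (Ideal.prime_of_isPrime hP0 inferInstance).irreducible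
      rw [UniqueFactorizationMonoid.normalizedFactors_mul hP0 (right_ne_zero_of_mul hne'),
        UniqueFactorizationMonoid.normalizedFactors_mul hP0
          (right_ne_zero_of_mul (right_ne_zero_of_mul hne')),
        UniqueFactorizationMonoid.normalizedFactors_irreducible hirr, normalize_eq] at he
      simp at he
    obtain ⟨u, huJ, huP⟩ := SetLike.not_le_iff_exists.mp hJP
    refine ⟨u, huP, fun y hy => ?_⟩
    obtain ⟨y', hy'⟩ := Ideal.mem_span_singleton'.mp
      (hJ ▸ Ideal.mul_mem_mul hy huJ : y * u ∈ Ideal.span {(p : 𝓞 F)})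
    exact ⟨y', by rw [mul_comm u, ← hy', mul_comm]⟩
  set π := A.valuation (p : Qb)
  have hπ0 : π ≠ 0 := TW.natCast_val_ne_zero A hp
  have hπ1 : π < 1 := hA
  have hu1 : A.valuation (((u : F) : L) : Qb) = 1 :=
    le_antisymm (hle u) (not_lt.mp ((hmem u).not.mp huP))
  set d := (Module.finrank ℚ L).factorial
  have key : ∀ (m : ℕ) (y : 𝓞 F), A.valuation (((y : F) : L) : Qb) ^ d = π ^ m →
      ∃ k : ℤ, A.valuation (((y : F) : L) : Qb) = π ^ k := by
    intro m
    induction m using Nat.strong_induction_on with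
    | _ m ih =>
    intro y hy
    rcases (hle y).eq_or_lt with h1 | hlt
    · exact ⟨0, by rw [h1, zpow_zero]⟩
    obtain ⟨y', hy'⟩ := hu y ((hmem y).mpr hlt)
    have hv : A.valuation (((y : F) : L) : Qb) = π * A.valuation (((y' : F) : L) : Qb) := by
      have := congrArg (fun w : 𝓞 F => A.valuation (((w : F) : L) : Qb)) hy'
      simpa [map_mul, hu1] using this
    have hd0 : 0 < d := Nat.factorial_pos _
    have hdm : d ≤ m := by
      by_contra hlt'
      have h1 : π ^ d < π ^ m := pow_lt_pow_right_of_lt_one₀ (zero_lt_iff.mpr hπ0) hπ1 (not_le.mp hlt')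
      rw [← hy, hv, mul_pow] at h1
      exact h1.not_ge (mul_le_of_le_one_right' (pow_le_one₀ zero_le (hle y')))
    obtain ⟨k, hk⟩ := ih (m - d) (by omega) y' (by
      refine mul_left_cancel₀ (pow_ne_zero d hπ0) ?_
      rw [← mul_pow, ← hv, hy, ← pow_add, Nat.add_sub_cancel' hdm])
    exact ⟨k + 1, by rw [hv, hk, zpow_add₀ hπ0, zpow_one, mul_comm]⟩
  have main : ∀ y : 𝓞 F, y ≠ 0 → ∃ k : ℤ, A.valuation (((y : F) : L) : Qb) = π ^ k := by
    intro y hy
    obtain ⟨m, hm⟩ := TW.exists_val_pow_eq hp hA L (((y : F) : L).2) (by simpa using hy)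
    obtain ⟨n, rfl⟩ : ∃ n : ℕ, m = n := Int.eq_ofNat_of_zero_le (by
      by_contra h
      exact ((pow_le_one₀ zero_le (hle y)).trans_lt
        (one_lt_zpow_of_neg₀ (zero_lt_iff.mpr hπ0) hπ1 (not_le.mp h))).ne hm)
    exact key n y (by rw [hm, zpow_natCast])
  obtain ⟨a, b, hb, hab⟩ := IsFractionRing.div_surjective (A := 𝓞 F)
    (⟨zL, IntermediateField.mem_adjoin_simple_self ℚ zL⟩ : F)
  have hb0 : b ≠ 0 := nonZeroDivisors.ne_zero hb
  have hval : A.valuation z =
      A.valuation (((a : F) : L) : Qb) / A.valuation (((b : F) : L) : Qb) := by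
    rw [← map_div₀]
    exact congrArg A.valuation (congrArg (fun w : F => ((w : L) : Qb)) hab).symm
  have ha0 : a ≠ 0 := fun h => hz ((map_eq_zero A.valuation).mp (by rw [hval, h]; simp))
  obtain ⟨i, hi⟩ := main a ha0
  obtain ⟨j, hj⟩ := main b hb0
  exact ⟨i - j, by rw [hval, hi, hj, zpow_sub₀ hπ0]⟩

end FermatAgent.Descent3
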