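import Mathlib
import Fermat.Agent.Descent3.Coords
import Fermat.Agent.Descent3.FixedValue
import Fermat.Agent.TW.Tame

set_option autoImplicit false

/-!
# The twist by the mod 3 cyclotomic character is neither flat nor ordinary with unramified quotient

`r` is the representation on the 3-torsion of a semistable curve and `twist r = det r • r`. At a
place over 3, inertia either preserves a line with trivial quotient (`IsOrdinaryThree`) or contains
an element acting through a fundamental character of level two (`IsSupersingularThree`). Either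
way every subgroup which is stable under twisted inertia and contains all `σ v - v` is everything;
this excludes a stable line with trivial quotient, and forces a function model to be connected,
with a leading term whose valuation has the wrong value.
-/

noncomputable section

open Matrix IsLocalRing
open scoped Matrix

namespace FermatAgent.Descent3

local notation "Qb" => AlgebraicClosure ℚ
local notation "GQ" => AlgebraicClosure ℚ ≃ₐ[ℚ] AlgebraicClosure ℚ
local notation "V2" => Fin 2 → ZMod 3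
local notation "M2" => Matrix (Fin 2) (Fin 2) (ZMod 3)

/-- Twist by the determinant. -/
def twist (r : GQ →* M2) : GQ →* M2 where
  toFun σ := (r σ).det • r σ
  map_one' := by rw [map_one, det_one, one_smul]
  map_mul' σ τ := by rw [map_mul, det_mul, smul_mul_smul_comm]

theorem twist_apply (r : GQ →* M2) (σ : GQ) : twist r σ = (r σ).det • r σ := rfl

theorem twist_mulVec (r : GQ →* M2) (σ : GQ) (w : V2) :
    twist r σ *ᵥ w = (r σ).det • (r σ *ᵥ w) := smul_mulVec _ _ _

variable (r : GQ →* M2) (A : ValuationSubring Qb)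

/-- Inertia preserves a line and acts trivially on the quotient, not through `SL₂`. -/
def IsOrdinaryThree : Prop :=
  ∃ v : V2, v ≠ 0 ∧ (∀ σ ∈ A.inertiaSubgroupIn ℚ, ∀ w, ∃ c : ZMod 3, r σ *ᵥ w - w = c • v) ∧
    ∃ σ ∈ A.inertiaSubgroupIn ℚ, (r σ).det = -1

/-- Some element of inertia has a fundamental character of level two as an eigenvalue. -/
def IsSupersingularThree : Prop :=
  ∃ σ ∈ A.inertiaSubgroupIn ℚ, ∃ t : Qb, t ≠ 0 ∧ A.valuation t ^ 8 = A.valuation (3 : Qb) ∧
    TW.tameVal A t σ ^ 8 = 1 ∧ TW.tameVal A t σ ^ 4 ≠ 1 ∧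
    TW.tameVal A t σ ^ 2 - ((r σ).trace.val : ResidueField A) * TW.tameVal A t σ +
      ((r σ).det.val : ResidueField A) = 0

/-- Only the origin is fixed by inertia. -/
def NoInertiaFixed : Prop :=
  ∀ u : V2, (∀ σ ∈ A.inertiaSubgroupIn ℚ, r σ *ᵥ u = u) → u = 0

variable {r A}

theorem exists_indep {v : V2} (hv : v ≠ 0) : ∃ w : V2, v 0 * w 1 - v 1 * w 0 ≠ 0 := by
  revert v
  decide

theorem exists_combination {u w : V2} (h : u 0 * w 1 - u 1 * w 0 ≠ 0) (z : V2) :
    ∃ a b : ZMod 3, z = a • u + b • w := by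
  refine ⟨(z 0 * w 1 - z 1 * w 0) / (u 0 * w 1 - u 1 * w 0),
    (u 0 * z 1 - u 1 * z 0) / (u 0 * w 1 - u 1 * w 0), funext fun i => ?_⟩
  simp only [Pi.add_apply, Pi.smul_apply, smul_eq_mul, div_mul_eq_mul_div, ← add_div,
    eq_div_iff h]
  fin_cases i <;> dsimp <;> ring

/-- On the line, the eigenvalue is the determinant. -/
theorem mulVec_line {M : M2} {v : V2} (hv : v ≠ 0)
    (hM : ∀ w : V2, ∃ c : ZMod 3, M *ᵥ w - w = c • v) : M *ᵥ v = M.det • v := by
  obtain ⟨w, hw⟩ := exists_indep hv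
  obtain ⟨c, hc⟩ := hM v
  obtain ⟨e, he⟩ := hM w
  have h0 := congrFun hc 0
  have h1 := congrFun hc 1
  have h2 := congrFun he 0
  have h3 := congrFun he 1
  simp only [Pi.sub_apply, Pi.smul_apply, smul_eq_mul, mulVec, dotProduct, Fin.sum_univ_two]
    at h0 h1 h2 h3
  have hdet : M.det = 1 + c := by
    refine mul_right_cancel₀ hw ?_
    rw [det_fin_two]
    linear_combination (M 1 0 * w 0 + M 1 1 * w 1) * h0 -
      (M 0 0 * w 0 + M 0 1 * w 1) * h1 + ((1 + c) * v 0) * h3 - ((1 + c) * v 1) * h2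
  rw [hdet, add_smul, one_smul, ← hc]
  abel

variable (H : AddSubgroup V2)

theorem eq_top_of_indep {u w : V2} (hu : u ∈ H) (hw : w ∈ H)
    (h : u 0 * w 1 - u 1 * w 0 ≠ 0) : H = ⊤ := by
  refine eq_top_iff.mpr fun z _ => ?_
  obtain ⟨a, b, rfl⟩ := exists_combination h z
  have hsmul : ∀ (c : ZMod 3) {z : V2}, z ∈ H → c • z ∈ H := fun c z hz => by
    rw [← ZMod.natCast_zmod_val c, Nat.cast_smul_eq_nsmul]
    exact nsmul_mem hz _
  exact add_mem (hsmul a hu) (hsmul b hw)

variable (hmove : ∀ σ ∈ A.inertiaSubgroupIn ℚ, ∀ w, twist r σ *ᵥ w - w ∈ H)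
  (hstable : ∀ σ ∈ A.inertiaSubgroupIn ℚ, ∀ w ∈ H, twist r σ *ᵥ w ∈ H)

include hmove hstable in
theorem eq_top_of_ordinary (hnofix : NoInertiaFixed r A) (hord : IsOrdinaryThree r A) :
    H = ⊤ := by
  obtain ⟨v, hv, hline, σ, hσ, hdet⟩ := hord
  obtain ⟨w, hw⟩ := exists_indep hv
  obtain ⟨c, hc⟩ := hline σ hσ w
  set u : V2 := twist r σ *ᵥ w - w
  have hu : u = w - c • v := by
    show twist r σ *ᵥ w - w = _
    rw [twist_mulVec, hdet, eq_add_of_sub_eq hc]
    have h3 : ∀ z : V2, z + z + z = 0 := by decide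
    linear_combination (norm := module) -(h3 w)
  by_contra htop
  have hscal : ∀ τ ∈ A.inertiaSubgroupIn ℚ, r τ *ᵥ u = u := by
    intro τ hτ
    have hmem := hstable τ hτ u (hmove σ hσ w)
    have hdep : u 0 * (twist r τ *ᵥ u) 1 - u 1 * (twist r τ *ᵥ u) 0 = 0 := by
      by_contra h
      exact htop (eq_top_of_indep H (hmove σ hσ w) hmem h)
    obtain ⟨e, he⟩ := hline τ hτ u
    rw [twist_mulVec, eq_add_of_sub_eq he] at hdep
    simp only [hu, Pi.smul_apply, Pi.add_apply, Pi.sub_apply, smul_eq_mul] at hdep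
    have hd0 : (r τ).det ≠ 0 := by
      intro h
      have := congrArg Matrix.det (show r τ * r τ⁻¹ = 1 by rw [← map_mul, mul_inv_cancel, map_one])
      rw [det_mul, h, zero_mul, det_one] at this
      exact zero_ne_one this
    have he0 : e = 0 := by
      have : (r τ).det * e * (v 0 * w 1 - v 1 * w 0) = 0 := by linear_combination -hdep
      simpa [hd0, hw] using this
    rw [he0, zero_smul, sub_eq_zero] at he
    exact he
  have hu0 : u = 0 := hnofix u hscal
  apply hw
  have h0 := congrFun (hu.symm.trans hu0) 0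
  have h1 := congrFun (hu.symm.trans hu0) 1
  simp only [Pi.sub_apply, Pi.smul_apply, smul_eq_mul, Pi.zero_apply] at h0 h1
  linear_combination v 0 * h1 - v 1 * h0

theorem trace_det_of_root {k : Type*} [Field k] (h3 : (3 : k) = 0) {ζ : k} (h8 : ζ ^ 8 = 1)
    (h4 : ζ ^ 4 ≠ 1) {a d : ZMod 3} (hd : d ≠ 0)
    (h : ζ ^ 2 - (a.val : k) * ζ + (d.val : k) = 0) : d = -1 ∧ a ≠ 0 := by
  have hneg : ζ ^ 4 = -1 := by
    have : (ζ ^ 4 - 1) * (ζ ^ 4 + 1) = 0 := by linear_combination h8
    exact eq_neg_of_add_eq_zero_left ((mul_eq_zero.mp this).resolve_left (sub_ne_zero.mpr h4))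
  fin_cases d
  · exact absurd rfl hd
  · exfalso
    fin_cases a
    · refine h4 ?_
      simp [ZMod.val] at h
      linear_combination (ζ ^ 2 - 1) * h
    · refine h4 ?_
      simp [ZMod.val] at h
      have h1 : ζ + 1 = 0 := (pow_eq_zero_iff two_ne_zero).mp
        (by linear_combination h + ζ * h3)
      linear_combination (ζ ^ 2 + 1) * (ζ - 1) * h1
    · refine h4 ?_
      simp [ZMod.val] at h
      have h1 : ζ - 1 = 0 := (pow_eq_zero_iff two_ne_zero).mp (by linear_combination h)
      linear_combination (ζ ^ 2 + 1) * (ζ + 1) * h1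
  · refine ⟨rfl, ?_⟩
    intro ha
    subst ha
    change ζ ^ 2 - ((0 : ℕ) : k) * ζ + ((2 : ℕ) : k) = 0 at h
    rw [Nat.cast_zero, zero_mul, sub_zero, Nat.cast_ofNat] at h
    exact h4 (by linear_combination (ζ ^ 2 + 1) * h - (ζ ^ 2 + 1) * h3)

theorem ss_data (hss : IsSupersingularThree r A) (h3A : A.valuation (3 : Qb) < 1) :
    ∃ σ ∈ A.inertiaSubgroupIn ℚ, (r σ).det = -1 ∧ (r σ).trace ≠ 0 := by
  obtain ⟨σ, hσ, t, -, -, h8, h4, hroot⟩ := hss
  have h3 : (3 : ResidueField A) = 0 := by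
    rw [← map_ofNat (residue A) 3, residue_eq_zero_iff, A.valuation_lt_one_iff]
    exact h3A
  refine ⟨σ, hσ, trace_det_of_root h3 h8 h4 (fun h => ?_) hroot⟩
  have := congrArg Matrix.det (show r σ * r σ⁻¹ = 1 by rw [← map_mul, mul_inv_cancel, map_one])
  rw [det_mul, h, zero_mul, det_one] at this
  exact zero_ne_one this

include hmove in
theorem eq_top_of_supersingular (hss : IsSupersingularThree r A)
    (h3A : A.valuation (3 : Qb) < 1) : H = ⊤ := by
  obtain ⟨σ, hσ, hdet, htr⟩ := ss_data hss h3A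
  refine eq_top_iff.mpr fun z _ => ?_
  have hunit : IsUnit (twist r σ - 1).det := by
    rw [isUnit_iff_ne_zero, twist_apply, hdet]
    rw [det_fin_two] at hdet
    rw [trace_fin_two] at htr
    simp only [det_fin_two, neg_smul, one_smul, Matrix.sub_apply, Matrix.neg_apply,
      Matrix.one_apply_eq, Matrix.one_apply_ne (zero_ne_one' (Fin 2)),
      Matrix.one_apply_ne (one_ne_zero' (Fin 2))]
    intro h
    exact htr (by linear_combination h - hdet)
  have h := hmove σ hσ ((twist r σ - 1)⁻¹ *ᵥ z)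
  rwa [← one_mulVec ((twist r σ - 1)⁻¹ *ᵥ z), mulVec_mulVec, ← mulVec_mulVec, one_mulVec,
    show twist r σ *ᵥ ((twist r σ - 1)⁻¹ *ᵥ z) - (twist r σ - 1)⁻¹ *ᵥ z = z by
      rw [← sub_eq_zero]
      have := mulVec_mulVec z (twist r σ - 1) (twist r σ - 1)⁻¹
      rw [Matrix.mul_nonsing_inv _ hunit, one_mulVec, sub_mulVec, one_mulVec] at this
      rw [this, sub_self]] at h

theorem eq_top_of_moves (hnofix : NoInertiaFixed r A)
    (hcase : IsOrdinaryThree r A ∨ IsSupersingularThree r A) (h3A : A.valuation (3 : Qb) < 1)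
    (H : AddSubgroup V2) (hmove : ∀ σ ∈ A.inertiaSubgroupIn ℚ, ∀ w, twist r σ *ᵥ w - w ∈ H)
    (hstable : ∀ σ ∈ A.inertiaSubgroupIn ℚ, ∀ w ∈ H, twist r σ *ᵥ w ∈ H) : H = ⊤ :=
  hcase.elim (eq_top_of_ordinary H hmove hstable hnofix)
    (fun h => eq_top_of_supersingular H hmove h h3A)

/-- No stable proper subspace with trivial quotient after any extension of scalars. -/
theorem false_of_stable_quotient (hnofix : NoInertiaFixed r A)
    (hcase : IsOrdinaryThree r A ∨ IsSupersingularThree r A) (h3A : A.valuation (3 : Qb) < 1)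
    {k : Type*} [Field k] (ι : ZMod 3 →+* k) (L : Submodule k (Fin 2 → k)) (hL : L ≠ ⊤)
    (hstable : ∀ σ ∈ A.inertiaSubgroupIn ℚ, ∀ x ∈ L, (twist r σ).map ι *ᵥ x ∈ L)
    (hquot : ∀ σ ∈ A.inertiaSubgroupIn ℚ, ∀ x, (twist r σ).map ι *ᵥ x - x ∈ L) : False := by
  let j : V2 →+ (Fin 2 → k) := AddMonoidHom.mk' (fun v i => ι (v i)) fun v w => by
    funext i; simp
  have hj : ∀ (M : M2) (w : V2), j (M *ᵥ w) = M.map ι *ᵥ j w := fun M w =>
    funext fun i => RingHom.map_mulVec ι M w i
  have htop := eq_top_of_moves hnofix hcase h3A (L.toAddSubgroup.comap j)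
    (fun σ hσ w => by
      show j (_ - _) ∈ L
      rw [map_sub, hj]
      exact hquot σ hσ _)
    (fun σ hσ w hw => by
      show j _ ∈ L
      rw [hj]
      exact hstable σ hσ _ hw)
  refine hL (eq_top_iff.mpr fun x _ => ?_)
  rw [pi_eq_sum_univ' x]
  refine sum_mem fun i _ => L.smul_mem _ ?_
  have hmem : Pi.single i 1 ∈ L.toAddSubgroup.comap j := htop ▸ AddSubgroup.mem_top _
  have : j (Pi.single i (1 : ZMod 3)) = Pi.single i (1 : k) := funext fun l => by
    show ι ((Pi.single i (1 : ZMod 3) : V2) l) = _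
    rcases eq_or_ne l i with rfl | hl <;> simp [*]
  exact this ▸ hmem

end FermatAgent.Descent3
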