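import Mathlib
import Fermat.Agent.Local.Integral

set_option autoImplicit false

/-!
# Three collinear points deep in `E₁`

If the abscissae of three collinear points all have valuation `T ^ 2 > 1` and `3` is not a unit,
their parameters `x / y`, of valuation `T⁻¹`, add up to something smaller.
-/

open WeierstrassCurve WeierstrassCurve.Affine

namespace FermatAgent.Descent3

open FermatAgent.Local

variable {K : Type*} [Field K] {A : ValuationSubring K} {W : WeierstrassCurve.Affine K}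

theorem val_y_eq (hW : IntCoeffs A W) {x y : K} (h : W.Equation x y) {T : A.ValueGroup}
    (hT : 1 < T) (hx : A.valuation x = T ^ 2) : A.valuation y = T ^ 3 := by
  have h12 : (1 : A.ValueGroup) < T ^ 2 := one_lt_pow₀ hT two_ne_zero
  have hlt : ∀ {m n : ℕ}, m < n → T ^ m < T ^ n := fun h => pow_lt_pow_right₀ hT h
  have hrhs : A.valuation (x ^ 3 + W.a₂ * x ^ 2 + W.a₄ * x + W.a₆) = T ^ 6 := by
    have hx3 : A.valuation (x ^ 3) = T ^ 6 := by rw [map_pow, hx, ← pow_mul]
    have h2 : A.valuation (W.a₂ * x ^ 2 + W.a₄ * x + W.a₆) < T ^ 6 := by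
      refine A.valuation.map_add_lt (A.valuation.map_add_lt ?_ ?_) ?_
      · rw [map_mul, map_pow, hx, ← pow_mul]
        exact (mul_le_of_le_one_left' (val_le_one_of_mem hW.a₂)).trans_lt (hlt (by norm_num))
      · rw [map_mul, hx]
        exact (mul_le_of_le_one_left' (val_le_one_of_mem hW.a₄)).trans_lt (hlt (by norm_num))
      · exact (val_le_one_of_mem hW.a₆).trans_lt (one_lt_pow₀ hT (by norm_num))
    rw [add_assoc, add_assoc, ← add_assoc (W.a₂ * x ^ 2)]
    exact (A.valuation.map_add_eq_of_lt_left (by rwa [hx3])).trans hx3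
  have hlin : A.valuation (W.a₁ * x + W.a₃) ≤ T ^ 2 := by
    refine (A.valuation.map_add _ _).trans (max_le ?_ ((val_le_one_of_mem hW.a₃).trans h12.le))
    rw [map_mul, hx]
    exact mul_le_of_le_one_left' (val_le_one_of_mem hW.a₁)
  have heq : A.valuation y * A.valuation (y + (W.a₁ * x + W.a₃)) = T ^ 6 := by
    rw [← map_mul, ← hrhs]
    congr 1
    linear_combination (equation_iff_zero W x y).1 h
  have hy : T ^ 2 < A.valuation y := by
    by_contra hy
    push Not at hy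
    have : A.valuation y * A.valuation (y + (W.a₁ * x + W.a₃)) ≤ T ^ 2 * T ^ 2 :=
      mul_le_mul' hy ((A.valuation.map_add _ _).trans (max_le hy hlin))
    rw [heq, ← pow_add] at this
    exact this.not_gt (hlt (by norm_num))
  rw [A.valuation.map_add_eq_of_lt_left (hlin.trans_lt hy), ← sq, show T ^ 6 = (T ^ 3) ^ 2 by
    rw [← pow_mul]] at heq
  exact (pow_left_inj₀ zero_le zero_le two_ne_zero).mp heq

/-- The parameters of three collinear points of equal depth cancel to first order. -/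
theorem val_line_sum_lt (hW : IntCoeffs A W) (h3 : A.valuation (3 : K) < 1) {T : A.ValueGroup}
    (hT : 1 < T) {x₁ x₂ x₃ l ν : K} (hx₁ : A.valuation x₁ = T ^ 2) (hx₂ : A.valuation x₂ = T ^ 2)
    (hx₃ : A.valuation x₃ = T ^ 2) (hy₁ : A.valuation (l * x₁ + ν) = T ^ 3)
    (hy₂ : A.valuation (l * x₂ + ν) = T ^ 3) (hy₃ : A.valuation (l * x₃ + ν) = T ^ 3)
    (e1 : x₁ + x₂ + x₃ = l ^ 2 + W.a₁ * l - W.a₂)
    (e2 : x₁ * x₂ + x₁ * x₃ + x₂ * x₃ = W.a₄ - 2 * l * ν - W.a₁ * ν - W.a₃ * l)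
    (e3 : x₁ * x₂ * x₃ = ν ^ 2 + W.a₃ * ν - W.a₆) :
    A.valuation (x₁ / (l * x₁ + ν) + x₂ / (l * x₂ + ν) + x₃ / (l * x₃ + ν)) < T⁻¹ := by
  have hT0 : T ≠ 0 := (zero_lt_one.trans hT).ne'
  have hlt : ∀ {m n : ℕ}, m < n → T ^ m < T ^ n := fun h => pow_lt_pow_right₀ hT h
  have hone : ∀ m : ℕ, (1 : A.ValueGroup) ≤ T ^ m := fun m => one_le_pow₀ hT.le
  have hpos : ∀ m : ℕ, 0 < T ^ m := fun m => pow_pos (zero_lt_iff.mpr hT0) m
  have h2v : A.valuation (2 : K) ≤ 1 := val_le_one_of_mem (natCast_mem A 2)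
  have hl : A.valuation l ≤ T := by
    by_contra h
    push Not at h
    have h1 : A.valuation (l ^ 2 + W.a₁ * l) = A.valuation l ^ 2 := by
      rw [A.valuation.map_add_eq_of_lt_left, map_pow]
      rw [map_pow, map_mul]
      refine (mul_le_of_le_one_left' (val_le_one_of_mem hW.a₁)).trans_lt ?_
      exact lt_self_pow₀ (hT.trans h) one_lt_two
    have h2 : A.valuation (l ^ 2 + W.a₁ * l) ≤ T ^ 2 := by
      rw [show l ^ 2 + W.a₁ * l = x₁ + x₂ + x₃ + W.a₂ by linear_combination -e1]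
      refine (A.valuation.map_add _ _).trans (max_le ((A.valuation.map_add _ _).trans
        (max_le ((A.valuation.map_add _ _).trans (max_le hx₁.le hx₂.le)) hx₃.le))
        ((val_le_one_of_mem hW.a₂).trans (hone 2)))
    rw [h1] at h2
    exact h2.not_gt (pow_lt_pow_left₀ h zero_le two_ne_zero)
  have hν : A.valuation ν = T ^ 3 := by
    have hp : A.valuation (ν ^ 2 + W.a₃ * ν - W.a₆) = T ^ 6 := by
      rw [← e3, map_mul, map_mul, hx₁, hx₂, hx₃, ← pow_add, ← pow_add]
    have h1 : 1 < A.valuation ν := by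
      by_contra h
      push Not at h
      have : A.valuation (ν ^ 2 + W.a₃ * ν - W.a₆) ≤ 1 := by
        refine (A.valuation.map_sub _ _).trans (max_le ((A.valuation.map_add _ _).trans
          (max_le ?_ ?_)) (val_le_one_of_mem hW.a₆))
        · rw [map_pow]; exact pow_le_one₀ zero_le h
        · rw [map_mul]; exact mul_le_one' (val_le_one_of_mem hW.a₃) h
      rw [hp] at this
      exact this.not_gt (one_lt_pow₀ hT (by norm_num))
    have h2 : A.valuation (W.a₃ * ν - W.a₆) < A.valuation (ν ^ 2) := by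
      rw [map_pow]
      refine (A.valuation.map_sub _ _).trans_lt (max_lt ?_ ((val_le_one_of_mem hW.a₆).trans_lt
        (one_lt_pow₀ h1 two_ne_zero)))
      rw [map_mul]
      exact (mul_le_of_le_one_left' (val_le_one_of_mem hW.a₃)).trans_lt
        (lt_self_pow₀ h1 one_lt_two)
    rw [add_sub_assoc, A.valuation.map_add_eq_of_lt_left h2, map_pow,
      show T ^ 6 = (T ^ 3) ^ 2 by rw [← pow_mul]] at hp
    exact (pow_left_inj₀ zero_le zero_le two_ne_zero).mp hp
  have hne : ∀ {z : K}, A.valuation z = T ^ 3 → z ≠ 0 := fun h hz => by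
    rw [hz, map_zero] at h; exact (hpos 3).ne h
  have hsum : x₁ / (l * x₁ + ν) + x₂ / (l * x₂ + ν) + x₃ / (l * x₃ + ν) =
      (3 * l ^ 2 * (x₁ * x₂ * x₃) + (-3 * l ^ 2 * ν ^ 2 - W.a₁ * l * ν ^ 2 - W.a₂ * ν ^ 2
        - 2 * W.a₃ * l ^ 2 * ν + 2 * W.a₄ * l * ν)) /
      ((l * x₁ + ν) * (l * x₂ + ν) * (l * x₃ + ν)) := by
    rw [div_add_div _ _ (hne hy₁) (hne hy₂), div_add_div _ _ (mul_ne_zero (hne hy₁) (hne hy₂))
      (hne hy₃)]
    congr 1
    linear_combination 2 * l * ν * e2 + ν ^ 2 * e1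
  have hl2 : A.valuation l ^ 2 ≤ T ^ 2 := pow_le_pow_left₀ zero_le hl 2
  have hnum : A.valuation (3 * l ^ 2 * (x₁ * x₂ * x₃) + (-3 * l ^ 2 * ν ^ 2 - W.a₁ * l * ν ^ 2 -
      W.a₂ * ν ^ 2 - 2 * W.a₃ * l ^ 2 * ν + 2 * W.a₄ * l * ν)) < T ^ 8 := by
    refine A.valuation.map_add_lt ?_ (A.valuation.map_add_lt (A.valuation.map_sub_lt
      (A.valuation.map_sub_lt (A.valuation.map_sub_lt ?_ ?_) ?_) ?_) ?_)
    · rw [map_mul, map_mul, map_pow, map_mul, map_mul, hx₁, hx₂, hx₃, ← pow_add, ← pow_add,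
        mul_assoc]
      calc A.valuation 3 * (A.valuation l ^ 2 * T ^ (2 + 2 + 2))
          ≤ A.valuation 3 * (T ^ 2 * T ^ (2 + 2 + 2)) :=
            mul_le_mul' le_rfl (mul_le_mul' hl2 le_rfl)
        _ < 1 * (T ^ 2 * T ^ (2 + 2 + 2)) :=
            mul_lt_mul_of_pos_right h3 (mul_pos (hpos _) (hpos _))
        _ = T ^ 8 := by rw [one_mul, ← pow_add]
    · rw [neg_mul, neg_mul, Valuation.map_neg, map_mul, map_mul, map_pow, map_pow, hν, ← pow_mul,
        mul_assoc]
      calc A.valuation 3 * (A.valuation l ^ 2 * T ^ (3 * 2))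
          ≤ A.valuation 3 * (T ^ 2 * T ^ (3 * 2)) :=
            mul_le_mul' le_rfl (mul_le_mul' hl2 le_rfl)
        _ < 1 * (T ^ 2 * T ^ (3 * 2)) :=
            mul_lt_mul_of_pos_right h3 (mul_pos (hpos _) (hpos _))
        _ = T ^ 8 := by rw [one_mul, ← pow_add]
    · rw [map_mul, map_mul, map_pow, hν, ← pow_mul]
      refine (mul_le_mul' (mul_le_mul' (val_le_one_of_mem hW.a₁) hl) le_rfl).trans_lt ?_
      rw [one_mul, ← pow_succ']
      exact hlt (by norm_num)
    · rw [map_mul, map_pow, hν, ← pow_mul]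
      exact (mul_le_of_le_one_left' (val_le_one_of_mem hW.a₂)).trans_lt (hlt (by norm_num))
    · rw [map_mul, map_mul, map_mul, map_pow, hν]
      refine (mul_le_mul' (mul_le_mul' (mul_le_one' h2v (val_le_one_of_mem hW.a₃)) hl2)
        le_rfl).trans_lt ?_
      rw [one_mul, ← pow_add]
      exact hlt (by norm_num)
    · rw [map_mul, map_mul, map_mul, hν]
      refine (mul_le_mul' (mul_le_mul' (mul_le_one' h2v (val_le_one_of_mem hW.a₄)) hl)
        le_rfl).trans_lt ?_
      rw [one_mul, ← pow_succ']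
      exact hlt (by norm_num)
  rw [hsum, map_div₀, map_mul, map_mul, hy₁, hy₂, hy₃, ← pow_add, ← pow_add,
    div_lt_iff₀ (hpos _), show T ^ (3 + 3 + 3) = T * T ^ 8 by rw [← pow_succ'],
    inv_mul_cancel_left₀ hT0]
  exact hnum

end FermatAgent.Descent3
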