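import Mathlib
import Fermat.Agent.Local.GoodReduction
import Fermat.Agent.Local.Multiplicative
import Fermat.Agent.LocalP.Conditions.RootLemmas

set_option autoImplicit false

/-!
# When all 3-torsion reduces to the origin

For an integral model, semistable at 3, all of whose 3-torsion lies in `E₁` at a place over 3, the
abscissa `x` of every point of order 3 satisfies `v(3 x ^ 4) = 1`.
-/

noncomputable section

open Polynomial WeierstrassCurve WeierstrassCurve.Affine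
open scoped WeierstrassCurve.Affine

namespace FermatAgent.Descent3

open FermatAgent.Local

local notation "Qb" => AlgebraicClosure ℚ

variable {E : WeierstrassCurve ℤ} {A : ValuationSubring Qb}

theorem eval_Ψ₃ (x : Qb) : (qbarCurve E).Ψ₃.eval x = 3 * x ^ 4 + (E.b₂ : Qb) * x ^ 3 +
    3 * (E.b₄ : Qb) * x ^ 2 + 3 * (E.b₆ : Qb) * x + (E.b₈ : Qb) := by
  rw [qbarCurve_eq, WeierstrassCurve.Ψ₃, WeierstrassCurve.map_b₂, WeierstrassCurve.map_b₄,
    WeierstrassCurve.map_b₆, WeierstrassCurve.map_b₈]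
  simp [mul_assoc]

theorem coeff_Ψ₃ (i : ℕ) : (qbarCurve E).Ψ₃.coeff i =
    ((if i = 4 then 3 else if i = 3 then E.b₂ else if i = 2 then 3 * E.b₄
      else if i = 1 then 3 * E.b₆ else if i = 0 then E.b₈ else 0 : ℤ) : Qb) := by
  rw [qbarCurve_eq, WeierstrassCurve.map_Ψ₃, coeff_map, eq_intCast, WeierstrassCurve.Ψ₃]
  congr 1
  simp only [coeff_add, mul_assoc, coeff_C_mul, coeff_X_pow, coeff_X, coeff_C,
    show (3 : ℤ[X]) = C 3 from (C_ofNat 3).symm]
  rcases i with _ | _ | _ | _ | _ | i <;> simp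

theorem three_dvd_of_unit_free (h : (3 : ℤ) ∣ E.b₂) (h8 : (3 : ℤ) ∣ E.b₈) :
    (3 : ℤ) ∣ E.Δ ∧ (3 : ℤ) ∣ E.c₄ := by
  have key : ∀ m : ℤ, (3 : ℤ) ∣ m ↔ (m : ZMod 3) = 0 := fun m =>
    (ZMod.intCast_zmod_eq_zero_iff_dvd m 3).symm
  simp only [key] at h h8 ⊢
  have hrel := congrArg (Int.cast : ℤ → ZMod 3) E.b_relation
  simp only [Int.cast_mul, Int.cast_sub, Int.cast_pow, Int.cast_ofNat, h, h8, mul_zero, zero_mul,
    zero_sub] at hrel
  have h4 : (E.b₄ : ZMod 3) = 0 := by simpa using hrel.symm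
  have h3 : (3 : ZMod 3) = 0 := rfl
  constructor
  · rw [WeierstrassCurve.Δ]
    push_cast
    rw [h, h8, h4]
    linear_combination (-9 * (E.b₆ : ZMod 3) ^ 2) * h3
  · rw [WeierstrassCurve.c₄]
    push_cast
    rw [h, h4]
    ring

variable (hA : A.LiesOverPrime 3) (hss : (3 : ℤ) ∣ E.Δ → ¬ (3 : ℤ) ∣ E.c₄)
  (hroots : ∀ x : Qb, (qbarCurve E).Ψ₃.eval x = 0 → x ∉ A)

include hA hss hroots in
/-- Roots of `Ψ₃` have valuation `v(3) ^ (-1/4)`. -/
theorem val_three_mul_pow_four {x : Qb} (hx : (qbarCurve E).Ψ₃.eval x = 0) :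
    A.valuation (3 : Qb) * A.valuation x ^ 4 = 1 := by
  have h3 : Nat.Prime 3 := Nat.prime_three
  have hle : ∀ i, A.valuation ((qbarCurve E).Ψ₃.coeff i) ≤ 1 := fun i => by
    rw [coeff_Ψ₃]; exact val_le_one_of_mem (intCast_mem A _)
  have hb₂ : (3 : ℤ) ∣ E.b₂ := by
    by_contra h
    obtain ⟨z, hz, hzA⟩ := LocalP.exists_root_mem hle (i := 2) (by
      rw [coeff_Ψ₃]; simpa using val_intCast_eq_one h3 hA h)
    exact hroots z hz hzA
  have hb₈ : A.valuation (E.b₈ : Qb) = 1 := val_intCast_eq_one h3 hA fun h =>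
    hss (three_dvd_of_unit_free hb₂ h).1 (three_dvd_of_unit_free hb₂ h).2
  have hμ : A.valuation (3 : Qb) < 1 := by simpa using val_natCast_lt_one hA
  have hX : 1 < A.valuation x := one_lt_val_of_not_mem (hroots x hx)
  set μ := A.valuation (3 : Qb)
  set X := A.valuation x
  have hμ0 : 0 < μ := zero_lt_iff.mpr ((_root_.map_ne_zero _).mpr (by norm_num))
  have hb : A.valuation ((E.b₂ : Qb) * x ^ 3) ≤ μ * X ^ 3 := by
    obtain ⟨c, hc⟩ := hb₂
    rw [map_mul, map_pow, hc, Int.cast_mul, Int.cast_ofNat, map_mul]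
    exact mul_le_mul' (mul_le_of_le_one_right' (val_le_one_of_mem (intCast_mem A c))) le_rfl
  have h4 : A.valuation (3 * (E.b₄ : Qb) * x ^ 2) ≤ μ * X ^ 2 := by
    rw [map_mul, map_mul, map_pow]
    exact mul_le_mul' (mul_le_of_le_one_right' (val_le_one_of_mem (intCast_mem A _))) le_rfl
  have h6 : A.valuation (3 * (E.b₆ : Qb) * x) ≤ μ * X ^ 1 := by
    rw [map_mul, map_mul, pow_one]
    exact mul_le_mul' (mul_le_of_le_one_right' (val_le_one_of_mem (intCast_mem A _))) le_rfl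
  have hlt : ∀ {i : ℕ}, i < 4 → μ * X ^ i < μ * X ^ 4 := fun h =>
    mul_lt_mul_of_pos_left (pow_lt_pow_right₀ hX h) hμ0
  have hrest : A.valuation ((E.b₂ : Qb) * x ^ 3 + 3 * (E.b₄ : Qb) * x ^ 2 + 3 * (E.b₆ : Qb) * x) <
      μ * X ^ 4 :=
    A.valuation.map_add_lt (A.valuation.map_add_lt (hb.trans_lt (hlt (by norm_num)))
      (h4.trans_lt (hlt (by norm_num)))) (h6.trans_lt (hlt (by norm_num)))
  rw [eval_Ψ₃] at hx
  have hlead : A.valuation (3 * x ^ 4) = μ * X ^ 4 := by rw [map_mul, map_pow]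
  rcases lt_trichotomy (μ * X ^ 4) 1 with h | h | h
  · have := A.valuation.map_add_lt (hlead.trans_lt h) (hrest.trans h)
    rw [show 3 * x ^ 4 + ((E.b₂ : Qb) * x ^ 3 + 3 * (E.b₄ : Qb) * x ^ 2 + 3 * (E.b₆ : Qb) * x) =
      -(E.b₈ : Qb) by linear_combination hx, Valuation.map_neg, hb₈] at this
    exact absurd this (lt_irrefl _)
  · exact h
  · have := A.valuation.map_add_lt hrest (hb₈.trans_lt h)
    rw [show (E.b₂ : Qb) * x ^ 3 + 3 * (E.b₄ : Qb) * x ^ 2 + 3 * (E.b₆ : Qb) * x + (E.b₈ : Qb) =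
      -(3 * x ^ 4) by linear_combination hx, Valuation.map_neg, hlead] at this
    exact absurd this (lt_irrefl _)

end FermatAgent.Descent3
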