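import Mathlib
import Fermat.Agent.Descent3.LineSum
import Fermat.Agent.Descent3.ThreeDivision
import Fermat.Agent.TW.Tame

set_option autoImplicit false

/-!
# The parameter `x / y` on the 3-torsion inside `E₁`

Reduced after scaling, it is additive and turns inertia into multiplication by the tame character.
-/

noncomputable section

open Polynomial WeierstrassCurve WeierstrassCurve.Affine IsLocalRing
open scoped WeierstrassCurve.Affine

namespace FermatAgent.Descent3

open FermatAgent.Local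

local notation "Qb" => AlgebraicClosure ℚ
local notation "GQ" => AlgebraicClosure ℚ ≃ₐ[ℚ] AlgebraicClosure ℚ

/-- The parameter `x / y` of a point, `0` at the origin. -/
def param {K : Type*} [Field K] {W : WeierstrassCurve.Affine K} : W.Point → K
  | .zero => 0
  | .some x y _ => x / y

variable {E : WeierstrassCurve ℤ} {A : ValuationSubring Qb}

theorem param_smul (σ : GQ) (P : (qbarCurve E).Point) : param (σ • P) = σ (param P) := by
  rcases P with _ | ⟨x, y, h⟩
  · exact (map_zero σ).symm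
  · rw [Point.algEquiv_smul_def, Point.map_some]
    exact (map_div₀ σ x y).symm

theorem val_param_add_neg_lt {W : WeierstrassCurve.Affine Qb} (hW : IntCoeffs A W)
    {T : A.ValueGroup} (hT : 1 < T) {x y : Qb} (h : W.Equation x y)
    (hx : A.valuation x = T ^ 2) : A.valuation (x / y + x / W.negY x y) < T⁻¹ := by
  have hy := val_y_eq hW h hT hx
  have hy' := val_y_eq hW ((equation_neg x y).mpr h) hT hx
  have hT0 : T ≠ 0 := (zero_lt_one.trans hT).ne'
  have hne : ∀ {z : Qb}, A.valuation z = T ^ 3 → z ≠ 0 := fun hz h0 => by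
    rw [h0, map_zero] at hz; exact pow_ne_zero 3 hT0 hz.symm
  rw [div_add_div _ _ (hne hy) (hne hy'), show x * W.negY x y + y * x =
    -(x * (W.a₁ * x + W.a₃)) by rw [negY]; ring, map_div₀, map_mul, Valuation.map_neg, map_mul,
    hy, hy', hx, ← pow_add, div_lt_iff₀ (pow_pos (zero_lt_iff.mpr hT0) _),
    show T ^ (3 + 3) = T * T ^ 5 by rw [← pow_succ'], inv_mul_cancel_left₀ hT0]
  have hlin : A.valuation (W.a₁ * x + W.a₃) ≤ T ^ 2 := by
    refine (A.valuation.map_add _ _).trans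
      (max_le ?_ ((val_le_one_of_mem hW.a₃).trans (one_le_pow₀ hT.le)))
    rw [map_mul, hx]
    exact mul_le_of_le_one_left' (val_le_one_of_mem hW.a₁)
  refine (mul_le_mul' le_rfl hlin).trans_lt ?_
  rw [← pow_add]
  exact pow_lt_pow_right₀ hT (by norm_num)

variable (hA : A.LiesOverPrime 3) (hΔ : (qbarCurve E).Δ ≠ 0)
  (hss : (3 : ℤ) ∣ E.Δ → ¬ (3 : ℤ) ∣ E.c₄)
  (hall : ∀ P : (qbarCurve E).Point, 3 • P = 0 → InE1 A (qbarCurve E) P)

include hΔ hall in
theorem root_not_mem {x : Qb} (hx : (qbarCurve E).Ψ₃.eval x = 0) : x ∉ A := by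
  obtain ⟨y, hy⟩ := exists_point_over (qbarCurve E) hΔ x
  refine hall (.some x y hy) ((nsmul_eq_zero_iff hy 3).mpr ?_)
  rw [show ((3 : ℕ) : ℤ) = 3 from rfl]
  simp [WeierstrassCurve.ΨSq, WeierstrassCurve.preΨ, hx,
    show ¬ Even (3 : ℤ) by decide]

include hA hΔ hss hall in
/-- A common depth `T` for all nonzero 3-torsion. -/
theorem exists_depth :
    ∃ T : A.ValueGroup, 1 < T ∧ T⁻¹ ^ 8 = A.valuation (3 : Qb) ∧
      ∀ (x y : Qb) (h : (qbarCurve E).Nonsingular x y), 3 • Point.some x y h = 0 →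
        A.valuation x = T ^ 2 := by
  have hroot : ∀ (x y : Qb) (h : (qbarCurve E).Nonsingular x y), 3 • Point.some x y h = 0 →
      (qbarCurve E).Ψ₃.eval x = 0 := fun x y h h0 => by
    have := (nsmul_eq_zero_iff h 3).mp h0
    rw [show ((3 : ℕ) : ℤ) = 3 from rfl] at this
    simpa [WeierstrassCurve.ΨSq, WeierstrassCurve.preΨ, WeierstrassCurve.preΨ',
      show ¬ Even (3 : ℤ) by decide] using this
  have h3Q : (3 : Qb) ≠ 0 := by norm_num
  obtain ⟨x₀, hx₀⟩ := IsAlgClosed.exists_root (qbarCurve E).Ψ₃ (by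
    rw [degree_eq_natDegree ((qbarCurve E).Ψ₃_ne_zero h3Q), (qbarCurve E).natDegree_Ψ₃ h3Q]
    decide)
  obtain ⟨z, hz⟩ := IsAlgClosed.exists_pow_nat_eq x₀ (show 0 < 2 by norm_num)
  have hval := fun (x : Qb) => val_three_mul_pow_four hA hss (fun _ => root_not_mem hΔ hall) (x := x)
  have h0 := hval x₀ hx₀
  have hX : 1 < A.valuation x₀ := one_lt_val_of_not_mem (root_not_mem hΔ hall hx₀)
  set T := A.valuation z
  have hxT : A.valuation x₀ = T ^ 2 := by rw [← hz, map_pow]
  have hT : 1 < T := (one_lt_pow_iff_of_nonneg zero_le two_ne_zero).mp (hxT ▸ hX)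
  refine ⟨T, hT, ?_, fun x y h h3 => ?_⟩
  · rw [hxT, ← pow_mul] at h0
    rw [inv_pow]
    exact (eq_inv_of_mul_eq_one_left h0).symm
  · have h1 := hval x (hroot x y h h3)
    rw [← hxT]
    refine (pow_left_inj₀ zero_le zero_le (show 4 ≠ 0 by norm_num)).mp ?_
    exact mul_left_cancel₀ ((_root_.map_ne_zero _).mpr h3Q) (h1.trans h0.symm)

variable {T : A.ValueGroup} (hT : 1 < T)
  (hdepth : ∀ (x y : Qb) (h : (qbarCurve E).Nonsingular x y), 3 • Point.some x y h = 0 →
    A.valuation x = T ^ 2)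

include hT hdepth in
theorem val_param {P : (qbarCurve E).Point} (hP : 3 • P = 0) (h0 : P ≠ 0) :
    A.valuation (param P) = T⁻¹ := by
  rcases P with _ | ⟨x, y, h⟩
  · exact absurd rfl h0
  · have hx := hdepth x y h hP
    have hy := val_y_eq (qbarCurve_intCoeffs E A) h.1 hT hx
    have hT0 : T ≠ 0 := (zero_lt_one.trans hT).ne'
    show A.valuation (x / y) = T⁻¹
    rw [map_div₀, hx, hy, pow_succ T 2, div_mul_cancel_left₀ (pow_ne_zero _ hT0)]

include hA hT hdepth in
theorem val_param_add_lt {P Q : (qbarCurve E).Point} (hP : 3 • P = 0) (hQ : 3 • Q = 0) :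
    A.valuation (param (P + Q) - (param P + param Q)) < T⁻¹ := by
  have hT0 : T ≠ 0 := (zero_lt_one.trans hT).ne'
  have hinv : (0 : A.ValueGroup) < T⁻¹ := inv_pos.mpr (zero_lt_iff.mpr hT0)
  have hW := qbarCurve_intCoeffs E A
  rcases P with _ | ⟨x₁, y₁, h₁⟩
  · rw [show (Point.zero : (qbarCurve E).Point) + Q = Q from zero_add Q,
      show param (Point.zero : (qbarCurve E).Point) = 0 from rfl, zero_add, sub_self, map_zero]
    exact hinv
  rcases Q with _ | ⟨x₂, y₂, h₂⟩
  · rw [show (Point.some x₁ y₁ h₁ : (qbarCurve E).Point) + Point.zero = _ from add_zero _,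
      show param (Point.zero : (qbarCurve E).Point) = 0 from rfl, add_zero, sub_self, map_zero]
    exact hinv
  rcases add_line h₁ h₂ with ⟨hsum, rfl, rfl⟩ | ⟨l, ν, x₃, h₃, h₃', hsum, rfl, rfl, e1, e2, e3, -⟩
  · rw [hsum]
    show A.valuation (0 - (x₁ / (qbarCurve E).negY x₁ y₂ + x₁ / y₂)) < T⁻¹
    rw [zero_sub, Valuation.map_neg, add_comm]
    exact val_param_add_neg_lt hW hT h₂.1 (hdepth _ _ h₂ hQ)
  · have hR : 3 • Point.some x₃ _ h₃' = 0 := by rw [← hsum, nsmul_add, hP, hQ, add_zero]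
    have hx₁ := hdepth _ _ h₁ hP
    have hx₂ := hdepth _ _ h₂ hQ
    have hx₃ := hdepth _ _ h₃' hR
    rw [hsum]
    show A.valuation (x₃ / (qbarCurve E).negY x₃ (l * x₃ + ν) -
      (x₁ / (l * x₁ + ν) + x₂ / (l * x₂ + ν))) < T⁻¹
    rw [show x₃ / (qbarCurve E).negY x₃ (l * x₃ + ν) - (x₁ / (l * x₁ + ν) + x₂ / (l * x₂ + ν)) =
      (x₃ / (l * x₃ + ν) + x₃ / (qbarCurve E).negY x₃ (l * x₃ + ν)) -
        (x₁ / (l * x₁ + ν) + x₂ / (l * x₂ + ν) + x₃ / (l * x₃ + ν)) by ring]
    refine A.valuation.map_sub_lt (val_param_add_neg_lt hW hT h₃.1 hx₃) ?_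
    exact val_line_sum_lt hW (by simpa using val_natCast_lt_one hA) hT hx₁ hx₂ hx₃
      (val_y_eq hW h₁.1 hT hx₁) (val_y_eq hW h₂.1 hT hx₂) (val_y_eq hW h₃.1 hT hx₃) e1 e2 e3

end FermatAgent.Descent3
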