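import Mathlib
import Fermat.Agent.Descent3.LocalCase
import Fermat.Agent.Descent3.Parameter
import Fermat.Agent.LocalP.Conditions.Ordinary

set_option autoImplicit false

/-!
# The two local shapes of the 3-torsion of a semistable curve
-/

noncomputable section

open Matrix IsLocalRing
open scoped WeierstrassCurve.Affine

namespace FermatAgent.Descent3

open FermatAgent.Local

local notation "Qb" => AlgebraicClosure ℚ
local notation "GQ" => AlgebraicClosure ℚ ≃ₐ[ℚ] AlgebraicClosure ℚ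
local notation "V2" => Fin 2 → ZMod 3
local notation "M2" => Matrix (Fin 2) (Fin 2) (ZMod 3)

/-- A matrix model of the 3-torsion: coordinates `j` intertwining `r` with the Galois action. -/
structure TorsionCoords (E : WeierstrassCurve ℤ) (r : GQ →* M2) where
  j : V2 →+ (qbarCurve E).Point
  injective : Function.Injective j
  surjective : ∀ P : (qbarCurve E).Point, 3 • P = 0 → ∃ v, j v = P
  equivariant : ∀ σ v, j (r σ *ᵥ v) = σ • j v

variable {E : WeierstrassCurve ℤ} {r : GQ →* M2} {A : ValuationSubring Qb}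

theorem det_ne_zero_apply (r : GQ →* M2) (σ : GQ) : (r σ).det ≠ 0 := fun h => by
  have := congrArg Matrix.det (show r σ * r σ⁻¹ = 1 by rw [← map_mul, mul_inv_cancel, map_one])
  rw [det_mul, h, zero_mul, det_one] at this
  exact zero_ne_one this

theorem eq_smul_of_dependent {u z : V2} (hu : u ≠ 0) (h : u 0 * z 1 - u 1 * z 0 = 0) :
    ∃ c : ZMod 3, z = c • u := by
  revert u z
  decide

theorem inv_mulVec_mulVec (r : GQ →* M2) (σ : GQ) (v : V2) : r σ⁻¹ *ᵥ (r σ *ᵥ v) = v := by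
  rw [mulVec_mulVec, ← map_mul, inv_mul_cancel, map_one, one_mulVec]

theorem mulVec_inv_mulVec (r : GQ →* M2) (σ : GQ) (v : V2) : r σ *ᵥ (r σ⁻¹ *ᵥ v) = v := by
  rw [mulVec_mulVec, ← map_mul, mul_inv_cancel, map_one, one_mulVec]

theorem zmod_three_eq_one {d : ZMod 3} (h₀ : d ≠ 0) (h₁ : d ≠ -1) : d = 1 := by
  revert d
  decide

theorem three_nsmul_j (C : TorsionCoords E r) (v : V2) : 3 • C.j v = 0 := by
  rw [← map_nsmul, show (3 : ℕ) • v = 0 by revert v; decide, map_zero]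

/-- Some 3-torsion stays away from the origin: ordinary. -/
theorem isOrdinaryThree_of_not_inE1 (hΔ : (E.map (Int.castRingHom ℚ)).Δ ≠ 0)
    (hss : (3 : ℤ) ∣ E.Δ → ¬ (3 : ℤ) ∣ E.c₄) (hA : A.LiesOverPrime 3) (C : TorsionCoords E r)
    (hnofix : NoInertiaFixed r A) {z : V2} (hz : ¬ InE1 A (qbarCurve E) (C.j z)) :
    IsOrdinaryThree r A := by
  have : Fact (Nat.Prime 3) := ⟨Nat.prime_three⟩
  let D : AddSubgroup V2 := (e1Subgroup A (qbarCurve E) (qbarCurve_intCoeffs E A)).comap C.j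
  obtain ⟨P, hP0, hP3, hP⟩ :=
    (LocalP.hasFormalTorsion_of_semistable (p := 3) hΔ (by norm_num) hss hA).nontrivial
  obtain ⟨v, rfl⟩ := C.surjective P hP3
  have hv : v ≠ 0 := fun h => hP0 (by rw [h, map_zero])
  have hline : ∀ w ∈ D, ∃ c : ZMod 3, w = c • v := by
    intro w hw
    refine eq_smul_of_dependent hv ?_
    by_contra h
    exact hz (show z ∈ D from eq_top_of_indep D hP hw h ▸ AddSubgroup.mem_top z)
  have hmove : ∀ σ ∈ A.inertiaSubgroupIn ℚ, ∀ w, ∃ c : ZMod 3, r σ *ᵥ w - w = c • v := by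
    intro σ hσ w
    refine hline _ ?_
    show InE1 A (qbarCurve E) (C.j (r σ *ᵥ w - w))
    rw [map_sub, C.equivariant]
    exact LocalP.smul_sub_inE1_of_semistable (p := 3) (n := 1) hΔ (by norm_num) hss hA hσ
      (by rw [pow_one]; exact three_nsmul_j C w)
  refine ⟨v, hv, hmove, ?_⟩
  by_contra hall
  refine hv (hnofix v fun σ hσ => ?_)
  rw [mulVec_line hv (hmove σ hσ),
    zmod_three_eq_one (det_ne_zero_apply r σ) fun h => hall ⟨σ, hσ, h⟩, one_smul]

theorem mul_sq_sub_trace (M : M2) (z : V2) :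
    M *ᵥ (M *ᵥ z) - M.trace • (M *ᵥ z) + M.det • z = 0 := by
  funext i
  fin_cases i <;>
    simp [trace_fin_two, det_fin_two] <;> ring

/-- All 3-torsion reduces to the origin: supersingular. -/
theorem isSupersingularThree_of_inE1 (hΔ : (qbarCurve E).Δ ≠ 0)
    (hss : (3 : ℤ) ∣ E.Δ → ¬ (3 : ℤ) ∣ E.c₄) (hA : A.LiesOverPrime 3) (C : TorsionCoords E r)
    (hall : ∀ v, InE1 A (qbarCurve E) (C.j v)) : IsSupersingularThree r A := by
  classical
  have hall' : ∀ P : (qbarCurve E).Point, 3 • P = 0 → InE1 A (qbarCurve E) P := fun P hP => by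
    obtain ⟨v, rfl⟩ := C.surjective P hP
    exact hall v
  obtain ⟨T, hT, hT8, hdepth⟩ := exists_depth hA hΔ hss hall'
  set par : V2 → Qb := fun v => param (C.j v)
  have hT0 : T⁻¹ ≠ 0 := inv_ne_zero (zero_lt_one.trans hT).ne'
  have hval : ∀ v, v ≠ 0 → A.valuation (par v) = T⁻¹ := fun v hv =>
    val_param hT hdepth (three_nsmul_j C v) fun h => hv (C.injective (h.trans C.j.map_zero.symm))
  set v₀ : V2 := ![1, 0]
  have hv₀ : v₀ ≠ 0 := fun h => one_ne_zero (congrFun h 0)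
  set t := par v₀
  have ht : t ≠ 0 := fun h => hT0 (by rw [← hval v₀ hv₀, show par v₀ = 0 from h, map_zero])
  have hmem : ∀ v, par v / t ∈ A := fun v => by
    rw [← A.valuation_le_one_iff, map_div₀, hval v₀ hv₀]
    rcases eq_or_ne v 0 with rfl | hv
    · rw [show par 0 = 0 by show param (C.j 0) = 0; rw [map_zero]; rfl, map_zero, zero_div]
      exact zero_le
    · rw [hval v hv, div_self hT0]
  let ℓ : V2 →+ ResidueField A :=
    AddMonoidHom.mk' (fun v => residue A ⟨par v / t, hmem v⟩) fun u v => by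
      rw [← map_add, TW.residue_eq_iff]
      show A.valuation (par (u + v) / t - (par u / t + par v / t)) < 1
      rw [← add_div, ← sub_div, map_div₀, hval v₀ hv₀, div_lt_one₀ (zero_lt_iff.mpr hT0)]
      show A.valuation (param (C.j (u + v)) - _) < T⁻¹
      rw [map_add]
      exact val_param_add_lt hA hT hdepth (three_nsmul_j C u) (three_nsmul_j C v)
  have hℓ0 : ∀ v, v ≠ 0 → ℓ v ≠ 0 := fun v hv h => by
    have h1 : A.valuation (par v / t) < 1 :=
      (A.valuation_lt_one_iff ⟨_, hmem v⟩).mp ((residue_eq_zero_iff _).mp h)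
    rw [map_div₀, hval v hv, hval v₀ hv₀, div_self hT0] at h1
    exact lt_irrefl _ h1
  have hℓinj : Function.Injective ℓ := fun u v huv => sub_eq_zero.mp <| by_contra fun h =>
    hℓ0 _ h (by rw [map_sub, huv, sub_self])
  have hℓt : ℓ v₀ = 1 := by
    show residue A ⟨t / t, _⟩ = 1
    rw [← map_one (residue A)]
    exact congrArg (residue A) (Subtype.ext (div_self ht))
  have hℓσ : ∀ σ ∈ A.inertiaSubgroupIn ℚ, ∀ v,
      ℓ (r σ *ᵥ v) = TW.tameVal A t σ * ℓ v := fun σ hσ v => by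
    have hd := mem_decomposition_of_inertia hσ
    rw [TW.tameVal_eq (TW.ratio_mem hd ht)]
    show residue A ⟨par (r σ *ᵥ v) / t, _⟩ = _ * residue A ⟨par v / t, hmem v⟩
    rw [← map_mul, TW.residue_eq_iff]
    show A.valuation (param (C.j (r σ *ᵥ v)) / t - σ t / t * (par v / t)) < 1
    rw [C.equivariant, param_smul, show σ (param (C.j v)) / t - σ t / t * (par v / t) =
      σ t / t * (σ (par v / t) - par v / t) by
        have : σ t ≠ 0 := by simpa using ht
        rw [map_div₀]; field_simp; ring, map_mul, TW.val_ratio_eq_one hd ht, one_mul]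
    exact inertia_val_sub_lt_one hσ (hmem v)
  -- inertia is transitive on the nonzero vectors
  let Ω : Finset V2 := Finset.univ.filter fun v => ∃ σ ∈ A.inertiaSubgroupIn ℚ, r σ *ᵥ v₀ = v
  have hΩ : ∀ v ∈ Ω, v ≠ 0 := fun v hv h => by
    obtain ⟨σ, hσ, hσv⟩ := (Finset.mem_filter.mp hv).2
    refine hv₀ ?_
    rw [← inv_mulVec_mulVec r σ v₀, hσv.trans h, mulVec_zero]
  have hperm : ∀ τ ∈ A.inertiaSubgroupIn ℚ, ∀ v ∈ Ω, r τ *ᵥ v ∈ Ω := fun τ hτ v hv => by
    obtain ⟨σ, hσ, rfl⟩ := (Finset.mem_filter.mp hv).2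
    exact Finset.mem_filter.mpr ⟨Finset.mem_univ _, τ * σ, mul_mem hτ hσ, by
      rw [map_mul, mulVec_mulVec]⟩
  set z := ∏ v ∈ Ω, par v
  have hz : A.valuation z = T⁻¹ ^ Ω.card := by
    rw [map_prod, Finset.prod_congr rfl fun v hv => hval v (hΩ v hv), Finset.prod_const]
  have hz0 : z ≠ 0 := fun h => by
    rw [h, map_zero] at hz; exact pow_ne_zero _ hT0 hz.symm
  obtain ⟨k, hk⟩ := exists_val_eq_zpow_of_fixed Nat.prime_three hA hz0 fun τ hτ => by
    rw [map_prod]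
    refine Finset.prod_bij' (fun v _ => r τ *ᵥ v) (fun v _ => r τ⁻¹ *ᵥ v) (hperm τ hτ)
      (hperm τ⁻¹ (inv_mem hτ)) (fun v _ => inv_mulVec_mulVec r τ v)
      (fun v _ => mulVec_inv_mulVec r τ v) fun v _ => ?_
    show τ (param (C.j v)) = param (C.j (r τ *ᵥ v))
    rw [C.equivariant, param_smul]
  rw [hz, Nat.cast_ofNat, ← hT8, ← zpow_natCast, ← zpow_natCast, ← _root_.zpow_mul] at hk
  have hm := TW.zpow_inj_of_lt_one hT0 (inv_lt_one_of_one_lt₀ hT) hk
  have hv₀Ω : v₀ ∈ Ω := Finset.mem_filter.mpr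
    ⟨Finset.mem_univ _, 1, one_mem _, by rw [map_one, one_mulVec]⟩
  have hsub : Ω ⊆ (Finset.univ.erase 0 : Finset V2) := fun v hv =>
    Finset.mem_erase.mpr ⟨hΩ v hv, Finset.mem_univ v⟩
  have hcard : (Finset.univ.erase 0 : Finset V2).card = 8 := rfl
  have hΩeq : Ω = Finset.univ.erase 0 := by
    refine Finset.eq_of_subset_of_card_le hsub ?_
    have h1 := Finset.card_pos.mpr ⟨v₀, hv₀Ω⟩
    have h2 := Finset.card_le_card hsub
    rw [hcard] at h2 ⊢
    push_cast at hm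
    omega
  have horb : ∀ v : V2, v ≠ 0 → ∃ σ ∈ A.inertiaSubgroupIn ℚ, r σ *ᵥ v₀ = v := fun v hv =>
    (Finset.mem_filter.mp (hΩeq ▸ Finset.mem_erase.mpr ⟨hv, Finset.mem_univ v⟩ : v ∈ Ω)).2
  have hpow : ∀ v : V2, v ≠ 0 → ℓ v ^ 8 = 1 := by
    intro v hv
    obtain ⟨σ, hσ, rfl⟩ := horb v hv
    rw [hℓσ σ hσ, hℓt, mul_one]
    have hprod : ∏ w ∈ (Finset.univ.erase 0 : Finset V2), ℓ (r σ *ᵥ w) =
        ∏ w ∈ (Finset.univ.erase 0 : Finset V2), ℓ w :=
      Finset.prod_bij' (fun w _ => r σ *ᵥ w) (fun w _ => r σ⁻¹ *ᵥ w)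
        (hΩeq ▸ hperm σ hσ) (hΩeq ▸ hperm σ⁻¹ (inv_mem hσ))
        (fun w _ => inv_mulVec_mulVec r σ w)
        (fun w _ => mulVec_inv_mulVec r σ w) fun w _ => rfl
    rw [Finset.prod_congr rfl fun w _ => hℓσ σ hσ w, Finset.prod_mul_distrib, Finset.prod_const,
      hcard] at hprod
    refine (mul_eq_right₀ ?_).mp hprod
    exact Finset.prod_ne_zero_iff.mpr fun w hw => hℓ0 w (Finset.ne_of_mem_erase hw)
  obtain ⟨v, hv, hv4⟩ : ∃ v : V2, v ≠ 0 ∧ ℓ v ^ 4 ≠ 1 := by
    by_contra! h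
    have hle : ((Finset.univ.erase 0 : Finset V2).image ℓ) ⊆
        (Polynomial.nthRoots 4 (1 : ResidueField A)).toFinset := fun x hx => by
      obtain ⟨w, hw, rfl⟩ := Finset.mem_image.mp hx
      rw [Multiset.mem_toFinset, Polynomial.mem_nthRoots (by norm_num)]
      exact h w (Finset.ne_of_mem_erase hw)
    have h1 := (Finset.card_le_card hle).trans
      ((Multiset.toFinset_card_le _).trans (Polynomial.card_nthRoots 4 _))
    rw [Finset.card_image_of_injective _ hℓinj, hcard] at h1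
    omega
  obtain ⟨σ, hσ, rfl⟩ := horb v hv
  have hζ : ℓ (r σ *ᵥ v₀) = TW.tameVal A t σ := by rw [hℓσ σ hσ, hℓt, mul_one]
  refine ⟨σ, hσ, t, ht, ?_, hζ ▸ hpow _ hv, hζ ▸ hv4, ?_⟩
  · rw [hval v₀ hv₀, hT8]
  · have hsm : ∀ (c : ZMod 3) (P : V2), ℓ (c • P) = (c.val : ResidueField A) * ℓ P := fun c P => by
      conv_lhs => rw [← ZMod.natCast_zmod_val c, Nat.cast_smul_eq_nsmul]
      rw [map_nsmul, nsmul_eq_mul]
    have h := congrArg ℓ (mul_sq_sub_trace (r σ) v₀)
    rw [map_add, map_sub, map_zero, hsm, hsm, hℓσ σ hσ, hℓσ σ hσ, hℓt, mul_one, mul_one] at h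
    linear_combination h

theorem isOrdinaryThree_or_supersingular (hΔ : (E.map (Int.castRingHom ℚ)).Δ ≠ 0)
    (hss : (3 : ℤ) ∣ E.Δ → ¬ (3 : ℤ) ∣ E.c₄) (hA : A.LiesOverPrime 3) (C : TorsionCoords E r)
    (hnofix : NoInertiaFixed r A) : IsOrdinaryThree r A ∨ IsSupersingularThree r A := by
  by_cases h : ∀ v, InE1 A (qbarCurve E) (C.j v)
  · exact Or.inr (isSupersingularThree_of_inE1 (LocalP.qbarCurve_Δ_ne_zero hΔ) hss hA C h)
  · obtain ⟨z, hz⟩ := not_forall.mp h
    exact Or.inl (isOrdinaryThree_of_not_inE1 hΔ hss hA C hnofix hz)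

end FermatAgent.Descent3
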