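import Mathlib
import Fermat.Agent.Descent3.Conjugation
import Fermat.Agent.Periods.HeckeHom

set_option autoImplicit false

/-!
# Values of mod 3 homomorphisms on the translates of elliptic and parabolic elements
-/

open ModularGroup CongruenceSubgroup
open scoped MatrixGroups

namespace FermatAgent.Descent3

variable {N : ℕ} {K : Type*} [Field K]

/-- The integral matrix underlying an element of `SL(2, ℤ)`. -/
abbrev matOf (g : SL(2, ℤ)) : Matrix (Fin 2) (Fin 2) ℤ := (g : Matrix (Fin 2) (Fin 2) ℤ)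

theorem matOf_mul (g h : SL(2, ℤ)) : matOf (g * h) = matOf g * matOf h :=
  Matrix.SpecialLinearGroup.coe_mul g h

theorem matOf_zpow_T (n : ℤ) : matOf (T ^ n) = !![1, n; 0, 1] := coe_T_zpow n

theorem inv_conj_one_zero (h g : SL(2, ℤ)) :
    (h * g⁻¹) 1 0 = h 1 0 * g 1 1 - h 1 1 * g 1 0 := by
  simp [Matrix.SpecialLinearGroup.coe_mul, Matrix.SpecialLinearGroup.coe_inv,
    Matrix.adjugate_fin_two, Matrix.mul_apply, Fin.sum_univ_two]
  ring

theorem exists_upper_triangular (M : Matrix (Fin 2) (Fin 2) ℤ) {ℓ : ℕ} (hM : M.det = ℓ)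
    (hℓ : ℓ ≠ 0) :
    ∃ (h : SL(2, ℤ)) (A D : ℕ) (B : ℤ), A * D = ℓ ∧
      M = matOf h * !![(A : ℤ), B; 0, (D : ℤ)] := by
  rw [Matrix.det_fin_two] at hM
  have hne : M 0 0 ≠ 0 ∨ M 1 0 ≠ 0 := by
    by_contra h
    push Not at h
    rw [h.1, h.2] at hM
    simp at hM
    omega
  obtain ⟨x, y, hxy, hx, hy⟩ := Int.exists_gcd_one (m := M 0 0) (n := M 1 0)
    (by rcases hne with h | h
        · exact Int.gcd_pos_of_ne_zero_left _ h
        · exact Int.gcd_pos_of_ne_zero_right _ h)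
  obtain ⟨h, h0, h1⟩ := (Int.isCoprime_iff_gcd_eq_one.mpr hxy).exists_SL2_col 0
  set A := Int.gcd (M 0 0) (M 1 0) with hA
  have hdet := h.2
  rw [Matrix.det_fin_two, h0, h1] at hdet
  set B : ℤ := h 1 1 * M 0 1 - h 0 1 * M 1 1 with hB
  set D' : ℤ := x * M 1 1 - y * M 0 1 with hD'
  have hAD : (A : ℤ) * D' = ℓ := by
    rw [← hM, hD', hx, hy]; ring
  have hD0 : 0 < D' := by
    have hA0 : (0 : ℤ) < A := by
      have : A ≠ 0 := fun h' => by rw [h', Nat.cast_zero, zero_mul] at hAD; omega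
      omega
    have : (0 : ℤ) < ℓ := by omega
    nlinarith
  refine ⟨h, A, D'.toNat, B, ?_, ?_⟩
  · have : ((A * D'.toNat : ℕ) : ℤ) = (ℓ : ℤ) := by
      rw [Nat.cast_mul, Int.toNat_of_nonneg hD0.le, hAD]
    exact_mod_cast this
  · rw [Int.toNat_of_nonneg hD0.le]
    ext i j
    fin_cases i <;> fin_cases j <;>
      simp [Matrix.mul_apply, Fin.sum_univ_two, h0, h1, hB, hD']
    · linear_combination hx
    · linear_combination -(M 0 1) * hdet
    · linear_combination hy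
    · linear_combination -(M 1 1) * hdet

theorem triangular_mul_T_zpow (A D : ℕ) (B k : ℤ) :
    !![(A : ℤ), B; 0, (D : ℤ)] * matOf (T ^ ((D : ℤ) * k)) =
      matOf (T ^ ((A : ℤ) * k)) * !![(A : ℤ), B; 0, (D : ℤ)] := by
  rw [matOf_zpow_T, matOf_zpow_T]
  ext i j
  fin_cases i <;> fin_cases j <;> simp [Matrix.mul_apply, Fin.sum_univ_two]
  ring

theorem matOf_mul_pow {α : Matrix (Fin 2) (Fin 2) ℤ} {δ P : SL(2, ℤ)}
    (h : matOf δ * α = α * matOf P) : ∀ e : ℕ, matOf (δ ^ e) * α = α * matOf (P ^ e) := by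
  intro e
  induction e with
  | zero => simp [matOf]
  | succ e ih =>
    rw [pow_succ, pow_succ, matOf_mul, matOf_mul, mul_assoc, h, ← mul_assoc, ih, mul_assoc]

section Signs

variable (ψ : Additive (Gamma0 N) →+ K)

theorem apply_eq_zero_of_pow_eq_one {γ : Gamma0 N} {e : ℕ} (he : (e : K) ≠ 0)
    (h : γ ^ e = 1) : ψ (Additive.ofMul γ) = 0 := by
  have h' := congrArg (fun x => ψ (Additive.ofMul x)) h
  simp only [ofMul_pow, map_nsmul, ofMul_one, map_zero, nsmul_eq_mul] at h'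
  exact (mul_eq_zero.mp h').resolve_left he

theorem apply_neg_one [CharP K 3] : ψ (Additive.ofMul
    (⟨-1, Gamma0_mem.mpr (by simp)⟩ : Gamma0 N)) = 0 := by
  refine apply_eq_zero_of_pow_eq_one ψ (e := 2) ?_ (Subtype.ext (by simp))
  exact_mod_cast fun h => absurd ((CharP.cast_eq_zero_iff K 3 2).mp (by exact_mod_cast h)) (by norm_num)

theorem apply_eq_of_eq_or_neg [CharP K 3] {γ γ' : Gamma0 N}
    (h : (γ : SL(2, ℤ)) = γ' ∨ (γ : SL(2, ℤ)) = -(γ' : SL(2, ℤ))) :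
    ψ (Additive.ofMul γ) = ψ (Additive.ofMul γ') := by
  rcases h with h | h
  · rw [Subtype.ext h]
  · have : γ = ⟨-1, Gamma0_mem.mpr (by simp)⟩ * γ' := Subtype.ext (by simp [h])
    rw [this, ofMul_mul, map_add, apply_neg_one, zero_add]

theorem apply_conj (c γ : Gamma0 N) :
    ψ (Additive.ofMul (c * γ * c⁻¹)) = ψ (Additive.ofMul γ) := by
  simp [ofMul_mul]

end Signs

variable [CharP K 3] (ψ : Additive (Gamma0 N) →+ K) {ℓ : ℕ} {α : Matrix (Fin 2) (Fin 2) ℤ}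

theorem cast_ne_zero_of_prime (hℓ : ℓ.Prime) (h3 : ℓ ≠ 3) : (ℓ : K) ≠ 0 := fun h =>
  h3 (((Nat.prime_dvd_prime_iff_eq Nat.prime_three hℓ).mp ((CharP.cast_eq_zero_iff K 3 ℓ).mp h)).symm)

/-- Parabolic translates. -/
theorem apply_move_parabolic (hℓ : ℓ.Prime) (hℓN : ¬ ℓ ∣ N) (hα : α 1 0 = 0) (hdet : α.det = ℓ)
    {g : SL(2, ℤ)} {n : ℤ} {P δ : Gamma0 N}
    (hP : (P : SL(2, ℤ)) = g * T ^ n * g⁻¹ ∨ (P : SL(2, ℤ)) = -(g * T ^ n * g⁻¹))
    (hcond : (ℓ : ZMod N) = 1 ∨ IsUnit ((g 1 0 : ℤ) : ZMod N))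
    (hδ : matOf δ * α = α * matOf P) :
    ∃ A D : ℕ, A * D = ℓ ∧ (D : K) * ψ (Additive.ofMul δ) = (A : K) * ψ (Additive.ofMul P) := by
  obtain ⟨h, A, D, B, hAD, hfac⟩ := exists_upper_triangular (α * matOf g) (ℓ := ℓ)
    (by rw [Matrix.det_mul, hdet]; simp [matOf]) hℓ.ne_zero
  refine ⟨A, D, hAD, ?_⟩
  have e0 : α 1 1 * g 1 0 = h 1 0 * A := by
    have := congrFun (congrFun hfac 1) 0
    simpa [Matrix.mul_apply, Fin.sum_univ_two, hα] using this
  have e1 : α 1 1 * g 1 1 = h 1 0 * B + h 1 1 * D := by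
    have := congrFun (congrFun hfac 1) 1
    simpa [Matrix.mul_apply, Fin.sum_univ_two, hα] using this
  have hαdet : α 0 0 * α 1 1 = ℓ := by
    rw [← hdet, Matrix.det_fin_two, hα]; ring
  have hℓu : IsUnit (ℓ : ZMod N) := (ZMod.isUnit_iff_coprime ℓ N).mpr
    ((Nat.Prime.coprime_iff_not_dvd hℓ).mpr hℓN)
  have hADu : IsUnit ((A : ZMod N) * (D : ZMod N)) := by rwa [← Nat.cast_mul, hAD]
  have hAu : IsUnit (A : ZMod N) := isUnit_of_mul_isUnit_left hADu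
  have hDu : IsUnit (D : ZMod N) := isUnit_of_mul_isUnit_right hADu
  have hαu : IsUnit ((α 1 1 : ℤ) : ZMod N) := by
    refine isUnit_of_mul_isUnit_right (x := ((α 0 0 : ℤ) : ZMod N)) ?_
    rwa [← Int.cast_mul, hαdet, Int.cast_natCast]
  have E0 := congrArg (Int.cast : ℤ → ZMod N) e0
  have E1 := congrArg (Int.cast : ℤ → ZMod N) e1
  push_cast at E0 E1
  obtain ⟨j, hj⟩ : ∃ j : ℤ, ((h 1 0 : ℤ) : ZMod N) * ((g 1 1 : ℤ) : ZMod N) -
      (((h 1 1 : ℤ) : ZMod N) - (j : ZMod N) * ((h 1 0 : ℤ) : ZMod N)) *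
        ((g 1 0 : ℤ) : ZMod N) = 0 := by
    rcases hcond with hℓ1 | hg
    · have hA1 : (A : ZMod N) = 1 ∧ (D : ZMod N) = 1 := by
        rcases (Nat.dvd_prime hℓ).mp ⟨D, hAD.symm⟩ with hA | hA
        · subst hA
          rw [one_mul] at hAD
          exact ⟨Nat.cast_one, hAD ▸ hℓ1⟩
        · subst hA
          exact ⟨hℓ1, by rw [(Nat.mul_eq_left hℓ.ne_zero).mp hAD, Nat.cast_one]⟩
      obtain ⟨hA1, hD1⟩ := hA1
      rw [hA1, mul_one] at E0
      rw [hD1, mul_one] at E1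
      refine ⟨-B, hαu.mul_left_cancel ?_⟩
      push_cast
      linear_combination ((h 1 0 : ℤ) : ZMod N) * E1 -
        (((h 1 0 : ℤ) : ZMod N) * (B : ZMod N) + ((h 1 1 : ℤ) : ZMod N)) * E0
    · have hh : IsUnit ((h 1 0 : ℤ) : ZMod N) :=
        isUnit_of_mul_isUnit_left (y := (A : ZMod N)) (by rw [← E0]; exact hαu.mul hg)
      obtain ⟨u, hu⟩ := (hh.mul hg)
      obtain ⟨j, hj⟩ := ZMod.intCast_surjective (-(↑u⁻¹ : ZMod N) *
        (((h 1 0 : ℤ) : ZMod N) * ((g 1 1 : ℤ) : ZMod N) -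
          ((h 1 1 : ℤ) : ZMod N) * ((g 1 0 : ℤ) : ZMod N)))
      refine ⟨j, ?_⟩
      have : (j : ZMod N) * (u : ZMod N) = -(((h 1 0 : ℤ) : ZMod N) * ((g 1 1 : ℤ) : ZMod N) -
          ((h 1 1 : ℤ) : ZMod N) * ((g 1 0 : ℤ) : ZMod N)) := by
        rw [hj, mul_comm, ← mul_assoc, mul_neg, Units.mul_inv, neg_mul, one_mul]
      rw [hu] at this
      linear_combination this
  let c : Gamma0 N := ⟨h * T ^ (-j) * g⁻¹, Gamma0_mem.mpr (by
    rw [inv_conj_one_zero]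
    have e : (h * T ^ (-j)) 1 0 = h 1 0 ∧ (h * T ^ (-j)) 1 1 = h 1 1 - j * h 1 0 := by
      simp [Matrix.SpecialLinearGroup.coe_mul, coe_T_zpow, Matrix.mul_apply, Fin.sum_univ_two]
      ring
    rw [e.1, e.2]
    push_cast
    exact hj)⟩
  obtain ⟨s, hs, hPs⟩ : ∃ s : SL(2, ℤ), (s = 1 ∨ s = -1) ∧ (P : SL(2, ℤ)) = s * (g * T ^ n * g⁻¹) := by
    rcases hP with e | e
    · exact ⟨1, Or.inl rfl, by rw [one_mul]; exact e⟩
    · exact ⟨-1, Or.inr rfl, by rw [neg_one_mul]; exact e⟩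
  have hsc : ∀ x : SL(2, ℤ), Commute s x := fun x => by
    rcases hs with rfl | rfl
    · exact Commute.one_left x
    · exact Commute.neg_one_left x
  have hPpow : ∀ e : ℕ, (P : SL(2, ℤ)) ^ e = s ^ e * (g * T ^ (n * e) * g⁻¹) := fun e => by
    rw [hPs, (hsc _).mul_pow, conj_pow, zpow_mul, zpow_natCast]
  have hsgn : ∀ e : ℕ, s ^ e = 1 ∨ s ^ e = -1 := fun e => by
    rcases hs with rfl | rfl
    · exact Or.inl (one_pow e)
    · exact neg_one_pow_eq_or _ e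
  -- the conjugation identity
  have hkey : matOf (h * T ^ ((A : ℤ) * n) * h⁻¹) * α = α * matOf (g * T ^ ((D : ℤ) * n) * g⁻¹) := by
    have hg : matOf g * matOf g⁻¹ = 1 := by rw [← matOf_mul, mul_inv_cancel]; simp [matOf]
    calc matOf (h * T ^ ((A : ℤ) * n) * h⁻¹) * α
        = matOf (h * T ^ ((A : ℤ) * n) * h⁻¹) * ((α * matOf g) * matOf g⁻¹) := by
          rw [mul_assoc α, hg, mul_one]
      _ = matOf (h * T ^ ((A : ℤ) * n) * h⁻¹ * h) * !![(A : ℤ), B; 0, (D : ℤ)] * matOf g⁻¹ := by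
          rw [hfac, matOf_mul _ h]; simp only [mul_assoc]
      _ = matOf h * (!![(A : ℤ), B; 0, (D : ℤ)] * matOf (T ^ ((D : ℤ) * n))) * matOf g⁻¹ := by
          rw [inv_mul_cancel_right, matOf_mul, mul_assoc (matOf h), ← triangular_mul_T_zpow]
      _ = α * matOf (g * T ^ ((D : ℤ) * n) * g⁻¹) := by
          rw [← mul_assoc (matOf h), ← hfac, matOf_mul, matOf_mul]; simp only [mul_assoc]
  have hδD : ((δ ^ D : Gamma0 N) : SL(2, ℤ)) = s ^ D * (h * T ^ ((A : ℤ) * n) * h⁻¹) := by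
    refine Subtype.ext (Periods.matrix_mul_right_cancel (C := α) ?_ ?_)
    · rw [hdet]; exact_mod_cast hℓ.ne_zero
    · show matOf _ * α = matOf _ * α
      rw [SubmonoidClass.coe_pow, matOf_mul_pow hδ D, hPpow, mul_comm n (D : ℤ), matOf_mul _ _,
        matOf_mul (s ^ D) (h * _ * h⁻¹), mul_assoc (matOf (s ^ D)), hkey]
      rcases hsgn D with e | e <;> rw [e] <;> simp [matOf]
  have hsame : ((δ ^ D : Gamma0 N) : SL(2, ℤ)) = ((c * P ^ A * c⁻¹ : Gamma0 N) : SL(2, ℤ)) ∨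
      ((δ ^ D : Gamma0 N) : SL(2, ℤ)) = -((c * P ^ A * c⁻¹ : Gamma0 N) : SL(2, ℤ)) := by
    have hc : ((c * P ^ A * c⁻¹ : Gamma0 N) : SL(2, ℤ)) =
        s ^ A * (h * T ^ ((A : ℤ) * n) * h⁻¹) := by
      simp only [Subgroup.coe_mul, Subgroup.coe_inv, SubmonoidClass.coe_pow, hPpow, c]
      rw [((hsc (h * T ^ (-j) * g⁻¹)).pow_left A).symm.left_comm, mul_assoc (s ^ A)]
      congr 1
      rw [mul_inv_rev, mul_inv_rev, inv_inv, zpow_neg, inv_inv, mul_comm n (A : ℤ)]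
      simp only [mul_assoc, inv_mul_cancel_left]
      rw [← mul_assoc ((T : SL(2, ℤ)) ^ ((A : ℤ) * n)), ← zpow_add, add_comm, zpow_add,
        mul_assoc, inv_mul_cancel_left]
    rw [hδD, hc]
    rcases hsgn A with ea | ea <;> rcases hsgn D with ed | ed <;> rw [ea, ed] <;> simp
  have hψ := apply_eq_of_eq_or_neg ψ hsame
  rw [apply_conj, ofMul_pow, ofMul_pow, map_nsmul, map_nsmul, nsmul_eq_mul, nsmul_eq_mul] at hψ
  exact hψ

end FermatAgent.Descent3
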