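import Mathlib
import Fermat.Agent.Descent3.MoveValue

set_option autoImplicit false

/-!
# The transfer evaluated at elliptic and parabolic elements

For a mod 3 homomorphism `ψ` on `Γ₀(N)` and a prime `ℓ` congruent to one mod `N` and mod 3,
`T_ℓ ψ (γ) = 2 ψ γ` whenever `(trace γ) ^ 2 ≤ 4`. For `γ` fixing a cusp `g ∞` with unit lower left
entry and any `ℓ ≠ 3` prime to `N`, `ψ γ = 0` implies `T_ℓ ψ γ = 0`.
-/

open ModularGroup CongruenceSubgroup
open scoped MatrixGroups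

namespace FermatAgent.Descent3

variable {N : ℕ} {K : Type*} [Field K] [CharP K 3] (ψ : Additive (Gamma0 N) →+ K)

theorem trace_sq_pow_le (G : SL(2, ℤ)) (hG : (matOf G).trace ^ 2 ≤ 4) (m : ℕ) :
    (matOf (G ^ m)).trace ^ 2 ≤ 4 := by
  rcases hG.lt_or_eq with hlt | heq
  · have hch := ModCurveGroup.sq_eq_trace_smul_sub_one G
    set t := (matOf G).trace with ht
    suffices key : ∀ m : ℕ, (matOf (G ^ m)).trace ^ 2 -
        t * ((matOf (G ^ m)).trace * (matOf (G ^ (m + 1))).trace) +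
          (matOf (G ^ (m + 1))).trace ^ 2 = 4 - t ^ 2 by
      have := key m
      nlinarith [sq_nonneg (2 * (matOf (G ^ (m + 1))).trace - t * (matOf (G ^ m)).trace)]
    intro m
    induction m with
    | zero => simp [matOf, ht]; ring_nf
    | succ m ih =>
      have hrec : (matOf (G ^ (m + 1 + 1))).trace =
          t * (matOf (G ^ (m + 1))).trace - (matOf (G ^ m)).trace := by
        have hm : matOf (G ^ (m + 1 + 1)) = matOf (G ^ m) * (t • matOf G - 1) := by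
          have h2 : G ^ (m + 1 + 1) = G ^ m * G ^ 2 := by rw [← pow_add]
          rw [h2, matOf_mul]
          simpa [matOf] using congrArg (matOf (G ^ m) * ·) hch
        rw [hm, mul_sub, mul_one, mul_smul_comm, ← matOf_mul, ← pow_succ, Matrix.trace_sub,
          Matrix.trace_smul, smul_eq_mul]
      rw [hrec]
      linear_combination ih
  · rw [show matOf (G ^ m) = matOf G ^ m from Matrix.SpecialLinearGroup.coe_pow G m]
    exact (Periods.trace_pow_sq_eq_four (Matrix.SpecialLinearGroup.det_coe G) heq m).le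

omit [CharP K 3] in
/-- Elliptic translates, trace `-1`. -/
theorem apply_move_trace_neg_one {ℓ : ℕ} (hℓ : ℓ.Prime) (hℓ1 : (ℓ : ZMod N) = 1)
    {α : Matrix (Fin 2) (Fin 2) ℤ} (hα : α 1 0 = 0) (hdet : α.det = ℓ) {P δ : Gamma0 N}
    (hP : (P : SL(2, ℤ)) 0 0 + (P : SL(2, ℤ)) 1 1 = -1) (hδ : matOf δ * α = α * matOf P) :
    ψ (Additive.ofMul δ) = ψ (Additive.ofMul P) := by
  have hℓ0 : (α.det : ℤ) ≠ 0 := by rw [hdet]; exact_mod_cast hℓ.ne_zero
  have htr : (δ : SL(2, ℤ)) 0 0 + (δ : SL(2, ℤ)) 1 1 = -1 := by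
    have := Periods.trace_eq_of_intertwine hℓ0 hδ.symm
    rw [Matrix.trace_fin_two, Matrix.trace_fin_two] at this
    rw [← hP, ← this]
  obtain ⟨g, hg⟩ := isConjElliptic_of_trace _ hP
  obtain ⟨h, hh⟩ := isConjElliptic_of_trace _ htr
  have hC2 : matOf (ellipticThree ^ 2) = !![-1, 1; -1, 0] := by
    rw [sq, matOf_mul, matOf, coe_ellipticThree]; simp
  -- orientation
  have orient : ∀ (X : Matrix (Fin 2) (Fin 2) ℤ), X.det = ℓ →
      X * !![0, -1; 1, -1] ≠ !![-1, 1; -1, 0] * X ∧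
        X * !![-1, 1; -1, 0] ≠ !![0, -1; 1, -1] * X := by
    intro X hX
    rw [Matrix.det_fin_two] at hX
    have hℓpos : (0 : ℤ) < ℓ := by exact_mod_cast hℓ.pos
    constructor <;> intro h <;>
    · have a00 := congrFun (congrFun h 0) 0
      have a10 := congrFun (congrFun h 1) 0
      simp [Matrix.mul_apply, Fin.sum_univ_two] at a00 a10
      rw [show X 0 1 = X 1 0 - X 0 0 by linarith, show X 1 1 = -X 0 0 by linarith] at hX
      nlinarith [sq_nonneg (X 0 0 - X 1 0), sq_nonneg (X 0 0), sq_nonneg (X 1 0)]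
  set β := matOf h⁻¹ * α * matOf g with hβ
  have hβdet : β.det = ℓ := by
    rw [hβ, Matrix.det_mul, Matrix.det_mul, hdet]
    simp [matOf, Matrix.SpecialLinearGroup.det_coe, Matrix.det_adjugate]
  have inter : ∀ Q Q' : SL(2, ℤ), (P : SL(2, ℤ)) = g * Q * g⁻¹ → (δ : SL(2, ℤ)) = h * Q' * h⁻¹ →
      β * matOf Q = matOf Q' * β := by
    intro Q Q' hQ hQ'
    have e1 : matOf g * matOf Q = matOf P * matOf g := by
      rw [← matOf_mul, ← matOf_mul, hQ]; simp [mul_assoc]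
    have e2 : matOf h⁻¹ * matOf δ = matOf Q' * matOf h⁻¹ := by
      rw [← matOf_mul, ← matOf_mul, hQ']; simp [mul_assoc]
    calc β * matOf Q = matOf h⁻¹ * (α * matOf P) * matOf g := by
          rw [hβ, mul_assoc _ (matOf g), e1]; simp only [mul_assoc]
      _ = (matOf h⁻¹ * matOf δ) * α * matOf g := by rw [← hδ]; simp only [mul_assoc]
      _ = _ := by rw [e2, hβ]; simp only [mul_assoc]
  obtain ⟨Q, hQ, hgQ, hhQ⟩ : ∃ Q : SL(2, ℤ), (Q = ellipticThree ∨ Q = ellipticThree ^ 2) ∧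
      (P : SL(2, ℤ)) = g * Q * g⁻¹ ∧ (δ : SL(2, ℤ)) = h * Q * h⁻¹ := by
    rcases hg with e | e <;> rcases hh with f | f
    · exact ⟨_, Or.inl rfl, e, f⟩
    · exact ((orient β hβdet).1 (by simpa [hC2, matOf, coe_ellipticThree] using inter _ _ e f)).elim
    · exact ((orient β hβdet).2 (by simpa [hC2, matOf, coe_ellipticThree] using inter _ _ e f)).elim
    · exact ⟨_, Or.inr rfl, e, f⟩
  have hβQ := inter Q Q hgQ hhQ
  -- the centraliser of the elliptic element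
  have hβform : ∃ x y : ℤ, β = !![x, -y; y, x - y] := by
    refine ⟨β 0 0, β 1 0, ?_⟩
    have a00 := congrFun (congrFun hβQ 0) 0
    have a10 := congrFun (congrFun hβQ 1) 0
    rcases hQ with rfl | rfl
    · simp [matOf, coe_ellipticThree, Matrix.mul_apply, Fin.sum_univ_two] at a00 a10
      ext i j; fin_cases i <;> fin_cases j <;> simp <;> linarith
    · rw [hC2] at a00 a10
      simp [Matrix.mul_apply, Fin.sum_univ_two] at a00 a10
      ext i j; fin_cases i <;> fin_cases j <;> simp <;> linarith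
  obtain ⟨x, y, hxy⟩ := hβform
  have hfac : α * matOf g = matOf h * !![x, -y; y, x - y] := by
    rw [← hxy, hβ, ← mul_assoc, ← mul_assoc, ← matOf_mul, mul_inv_cancel]; simp [matOf]
  -- the row vectors
  set v0 := ((g 1 0 : ℤ) : ZMod N)
  set v1 := ((g 1 1 : ℤ) : ZMod N)
  set w0 := ((h 1 0 : ℤ) : ZMod N)
  set w1 := ((h 1 1 : ℤ) : ZMod N)
  have E0 : ((α 1 1 : ℤ) : ZMod N) * v0 = w0 * x + w1 * y := by
    have := congrArg (Int.cast : ℤ → ZMod N) (congrFun (congrFun hfac 1) 0)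
    simpa [Matrix.mul_apply, Fin.sum_univ_two, hα] using this
  have E1 : ((α 1 1 : ℤ) : ZMod N) * v1 = -(w0 * y) + w1 * (x - y) := by
    have := congrArg (Int.cast : ℤ → ZMod N) (congrFun (congrFun hfac 1) 1)
    simpa [Matrix.mul_apply, Fin.sum_univ_two, hα] using this
  have hW : w0 * w0 + w0 * w1 + w1 * w1 = 0 := by
    have hd := congrArg (Int.cast : ℤ → ZMod N)
      (show (δ : SL(2, ℤ)) 1 0 = (h * Q * h⁻¹) 1 0 by rw [← hhQ])
    rw [Gamma0_mem.mp δ.2] at hd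
    rcases hQ with rfl | rfl
    · simp [Matrix.SpecialLinearGroup.coe_mul, Matrix.SpecialLinearGroup.coe_inv,
        Matrix.adjugate_fin_two, Matrix.mul_apply, Fin.sum_univ_two, coe_ellipticThree] at hd
      linear_combination -hd
    · have hC2' := hC2
      simp only [matOf] at hC2'
      simp [Matrix.SpecialLinearGroup.coe_mul, Matrix.SpecialLinearGroup.coe_inv,
        Matrix.adjugate_fin_two, Matrix.mul_apply, Fin.sum_univ_two, hC2'] at hd
      linear_combination hd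
  have hαu : IsUnit ((α 1 1 : ℤ) : ZMod N) := by
    refine isUnit_of_mul_isUnit_right (x := ((α 0 0 : ℤ) : ZMod N)) ?_
    have : α 0 0 * α 1 1 = ℓ := by rw [← hdet, Matrix.det_fin_two, hα]; ring
    rw [← Int.cast_mul, this, Int.cast_natCast, hℓ1]
    exact isUnit_one
  let c : Gamma0 N := ⟨h * g⁻¹, Gamma0_mem.mpr (by
    rw [inv_conj_one_zero]
    push_cast
    refine hαu.mul_left_cancel ?_
    rw [mul_zero, mul_sub, ← mul_assoc, ← mul_assoc,
      mul_comm _ w0, mul_comm _ w1, mul_assoc, mul_assoc, E0, E1]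
    linear_combination -(y : ZMod N) * hW)⟩
  rw [show δ = c * P * c⁻¹ from Subtype.ext (by
    simp [c, hhQ, hgQ, mul_assoc]), apply_conj]

/-- Translates of elements with `trace ^ 2 ≤ 4` for `ℓ ≡ 1`. -/
theorem apply_move_eq {ℓ : ℕ} (hℓ : ℓ.Prime) (hℓN : ¬ ℓ ∣ N) (hℓ1 : (ℓ : ZMod N) = 1)
    (hℓ3 : (ℓ : K) = 1) {α : Matrix (Fin 2) (Fin 2) ℤ} (hα : α 1 0 = 0) (hdet : α.det = ℓ)
    {P δ : Gamma0 N} (hP : (matOf P).trace ^ 2 ≤ 4) (hδ : matOf δ * α = α * matOf P) :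
    ψ (Additive.ofMul δ) = ψ (Additive.ofMul P) := by
  have hℓ0 : (α.det : ℤ) ≠ 0 := by rw [hdet]; exact_mod_cast hℓ.ne_zero
  have htr : (matOf δ).trace = (matOf P).trace := (Periods.trace_eq_of_intertwine hℓ0 hδ.symm).symm
  have h2 : (matOf P).trace ≤ 2 ∧ -2 ≤ (matOf P).trace := by constructor <;> nlinarith
  let negOne : Gamma0 N := ⟨-1, Gamma0_mem.mpr (by simp)⟩
  have hneg : ∀ γ : Gamma0 N, ψ (Additive.ofMul (negOne * γ)) = ψ (Additive.ofMul γ) := fun γ =>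
    apply_eq_of_eq_or_neg ψ (Or.inr (by simp [negOne]))
  obtain h | h | h | h | h : (matOf P).trace = -2 ∨ (matOf P).trace = 2 ∨
      (matOf P).trace = 0 ∨ (matOf P).trace = -1 ∨ (matOf P).trace = 1 := by omega
  case inr.inr.inl =>
    have hz : ∀ γ : Gamma0 N, (matOf γ).trace = 0 → ψ (Additive.ofMul γ) = 0 := fun γ hγ => by
      refine apply_eq_zero_of_pow_eq_one ψ (e := 4) ?_ (Subtype.ext ?_)
      · exact_mod_cast fun h4 => absurd ((CharP.cast_eq_zero_iff K 3 4).mp (by exact_mod_cast h4))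
          (by norm_num)
      · have hsq := ModCurveGroup.sq_eq_trace_smul_sub_one (γ : SL(2, ℤ))
        apply Subtype.ext
        rw [SubmonoidClass.coe_pow, Matrix.SpecialLinearGroup.coe_pow,
          show (4 : ℕ) = 2 * 2 from rfl, pow_mul, hsq]
        simp [show ((γ : SL(2, ℤ)) : Matrix (Fin 2) (Fin 2) ℤ).trace = 0 from hγ]
    rw [hz δ (htr.trans h), hz P h]
  case inr.inr.inr.inl =>
    exact apply_move_trace_neg_one ψ hℓ hℓ1 hα hdet (by rw [← h, Matrix.trace_fin_two]) hδ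
  case inr.inr.inr.inr =>
    rw [← hneg δ, ← hneg P]
    refine apply_move_trace_neg_one ψ hℓ hℓ1 hα hdet ?_ ?_
    · rw [Matrix.trace_fin_two] at h
      simp [negOne] at *
      linarith
    · simp [negOne, matOf] at hδ ⊢
      rw [hδ]
  all_goals
    obtain ⟨g, n, hg⟩ := ModCurveGroup.exists_conj_T_zpow (g := (P : SL(2, ℤ)))
      (show (matOf P).trace ^ 2 = 4 by rw [h]; norm_num)
    have hP' : (P : SL(2, ℤ)) = g * T ^ n * g⁻¹ ∨ (P : SL(2, ℤ)) = -(g * T ^ n * g⁻¹) := by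
      rcases hg with e | e
      · exact Or.inl (by rw [← e]; simp [mul_assoc])
      · refine Or.inr ?_
        rw [← neg_mul, ← mul_neg, ← e]
        simp [mul_assoc]
    obtain ⟨A, D, hAD, e⟩ := apply_move_parabolic ψ hℓ hℓN hα hdet hP' (Or.inl hℓ1) hδ
    have hA : (A : K) = 1 ∧ (D : K) = 1 := by
      rcases (Nat.dvd_prime hℓ).mp ⟨D, hAD.symm⟩ with hA | hA
      · subst hA
        rw [one_mul] at hAD
        exact ⟨Nat.cast_one, hAD ▸ hℓ3⟩
      · subst hA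
        exact ⟨hℓ3, by rw [(Nat.mul_eq_left hℓ.ne_zero).mp hAD, Nat.cast_one]⟩
    rwa [hA.1, hA.2, one_mul, one_mul] at e

theorem tRep_one_zero {ℓ : ℕ} (i : Option (ZMod ℓ)) : Periods.tRep ℓ i 1 0 = 0 := by
  cases i <;> simp [Periods.tRep, Periods.diagRep, Periods.upperRep]

/-- `T_ℓ ψ γ = 2 ψ γ` for elements with `trace ^ 2 ≤ 4` and `ℓ ≡ 1`. -/
theorem heckeHomT_apply_of_trace_le {ℓ : ℕ} (hℓ : ℓ.Prime) (hℓN : ¬ ℓ ∣ N)
    (hℓ1 : (ℓ : ZMod N) = 1) (hℓ3 : (ℓ : K) = 1) {γ : Gamma0 N}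
    (hγ : (matOf γ).trace ^ 2 ≤ 4) :
    Periods.heckeHomT K N hℓ hℓN ψ (Additive.ofMul γ) = 2 * ψ (Additive.ofMul γ) := by
  have : NeZero ℓ := ⟨hℓ.ne_zero⟩
  set D := Periods.tCorr N hℓ hℓN
  have hsum : ∑ i, (ψ (Additive.ofMul (D.move γ i)) - ψ (Additive.ofMul γ)) = 0 := by
    refine Periods.sum_eq_zero_of_cycle_sums (D.targetEquiv γ) _ fun i m hm => ?_
    rw [Finset.sum_sub_distrib, ← (D.move_pow γ m i).2 ψ, Finset.sum_const, Finset.card_range,
      ← map_nsmul, ← ofMul_pow, sub_eq_zero]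
    have hs := D.move_spec (γ ^ m) i
    rw [(D.move_pow (A := K) γ m i).1, hm] at hs
    refine apply_move_eq ψ hℓ hℓN hℓ1 hℓ3 (tRep_one_zero i) (Periods.det_tRep ℓ i) ?_ hs.symm
    rw [SubmonoidClass.coe_pow]
    exact trace_sq_pow_le _ hγ m
  rw [Finset.sum_sub_distrib, sub_eq_zero, Finset.sum_const, Finset.card_univ,
    Fintype.card_option, ZMod.card, nsmul_eq_mul, Nat.cast_add, hℓ3, Nat.cast_one,
    one_add_one_eq_two] at hsum
  exact hsum

/-- `ψ γ = 0` implies `T_ℓ ψ γ = 0` for parabolic `γ` at a cusp with unit lower left entry. -/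
theorem heckeHomT_apply_eq_zero {ℓ : ℕ} (hℓ : ℓ.Prime) (hℓN : ¬ ℓ ∣ N) (h3 : ℓ ≠ 3)
    {γ : Gamma0 N} {g : SL(2, ℤ)} {n : ℤ} (hγ : (γ : SL(2, ℤ)) = g * T ^ n * g⁻¹)
    (hg : IsUnit ((g 1 0 : ℤ) : ZMod N)) (hψ : ψ (Additive.ofMul γ) = 0) :
    Periods.heckeHomT K N hℓ hℓN ψ (Additive.ofMul γ) = 0 := by
  have : NeZero ℓ := ⟨hℓ.ne_zero⟩
  set D := Periods.tCorr N hℓ hℓN
  change ∑ i, ψ (Additive.ofMul (D.move γ i)) = 0
  refine Periods.sum_eq_zero_of_cycle_sums (D.targetEquiv γ) _ fun i m hm => ?_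
  rw [← (D.move_pow γ m i).2 ψ]
  have hs := D.move_spec (γ ^ m) i
  rw [(D.move_pow (A := K) γ m i).1, hm] at hs
  have hγm : ((γ ^ m : Gamma0 N) : SL(2, ℤ)) = g * T ^ (n * m) * g⁻¹ := by
    rw [SubmonoidClass.coe_pow, hγ, conj_pow, zpow_mul, zpow_natCast]
  obtain ⟨A, E, hAE, e⟩ := apply_move_parabolic ψ hℓ hℓN (tRep_one_zero i)
    (Periods.det_tRep ℓ i) (Or.inl hγm) (Or.inr hg) hs.symm
  rw [ofMul_pow, map_nsmul, hψ, nsmul_zero, mul_zero] at e
  refine (mul_eq_zero.mp e).resolve_left fun hE => cast_ne_zero_of_prime (K := K) hℓ h3 ?_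
  rw [← hAE, Nat.cast_mul, hE, mul_zero]

end FermatAgent.Descent3
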