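import Mathlib
import Fermat.Agent.Descent3.TransferValue

set_option autoImplicit false

/-!
# One descent step at 3: from `Γ₀(3N)` to `Γ₀(N)` when `3 ∣ N`

`Γ₀(3N)` is normal of index 3 in `Γ₀(N)`, with quotient generated by `u = !![1, 0; N, 1]`.
Conjugation by `u` intertwines `T_ℓ` with conjugation by `u ^ ℓ`; a mod 3 eigencharacter gives an
invariant one whose eigenvalues are twisted by a power of `ℓ`, which extends to `Γ₀(N)`.
-/

open ModularGroup CongruenceSubgroup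
open scoped MatrixGroups

namespace FermatAgent.Descent3

/-- An eigencharacter on `Γ₀(N)` for the primes in `S`. -/
def IsEigenHom (N : ℕ) {K : Type*} [Field K] (S : Set ℕ) (a : ℕ → K)
    (ψ : Additive (Gamma0 N) →+ K) : Prop :=
  ∀ ℓ ∈ S, ∀ (hℓ : ℓ.Prime) (hℓN : ¬ ℓ ∣ N),
    Periods.heckeHomT K N hℓ hℓN ψ = a ℓ • ψ

/-- A prime witnessing that an eigensystem is not Eisenstein. -/
def IsWitness (M : ℕ) {K : Type*} [Field K] (S : Set ℕ) (a : ℕ → K) (ℓ : ℕ) : Prop :=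
  ℓ ∈ S ∧ ℓ.Prime ∧ (ℓ : ZMod M) = 1 ∧ (ℓ : K) = 1 ∧ a ℓ ≠ 2

theorem IsWitness.of_dvd {M M' : ℕ} {K : Type*} [Field K] {S : Set ℕ} {a : ℕ → K} {ℓ : ℕ}
    (h : IsWitness M S a ℓ) (hM : M' ∣ M) : IsWitness M' S a ℓ :=
  ⟨h.1, h.2.1, by
    have := congrArg (ZMod.castHom hM (ZMod M')) h.2.2.1
    rwa [map_natCast, map_one] at this, h.2.2.2⟩

theorem IsWitness.not_dvd {M : ℕ} {K : Type*} [Field K] {S : Set ℕ} {a : ℕ → K} {ℓ : ℕ}
    (h : IsWitness M S a ℓ) : ¬ ℓ ∣ M := fun hd => by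
  obtain ⟨-, hℓ, h1, -⟩ := h
  have := congrArg (ZMod.castHom hd (ZMod ℓ)) h1
  rw [map_natCast, map_one, ZMod.natCast_self] at this
  have : Fact ℓ.Prime := ⟨hℓ⟩
  exact zero_ne_one ‹(0 : ZMod ℓ) = 1›

variable {K : Type*} [Field K] {S : Set ℕ} {a : ℕ → K}

/-- A non-Eisenstein eigencharacter kills every element of `trace ^ 2 ≤ 4`. -/
theorem IsEigenHom.apply_eq_zero [CharP K 3] {N : ℕ} {ψ : Additive (Gamma0 N) →+ K} {ℓ : ℕ}
    (hψ : IsEigenHom N S a ψ) (hw : IsWitness N S a ℓ) {γ : Gamma0 N}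
    (hγ : (matOf γ).trace ^ 2 ≤ 4) : ψ (Additive.ofMul γ) = 0 := by
  have h := DFunLike.congr_fun (hψ ℓ hw.1 hw.2.1 hw.not_dvd) (Additive.ofMul γ)
  rw [heckeHomT_apply_of_trace_le ψ hw.2.1 hw.not_dvd hw.2.2.1 hw.2.2.2.1 hγ,
    AddMonoidHom.smul_apply, smul_eq_mul] at h
  by_contra hne
  exact hw.2.2.2.2 (mul_right_cancel₀ hne h).symm

variable {N : ℕ}

/-- `(c / N) a` modulo three. -/
def lowerClass (γ : Gamma0 N) : ZMod 3 :=
  (((γ : SL(2, ℤ)) 1 0 / (N : ℤ) * (γ : SL(2, ℤ)) 0 0 : ℤ) : ZMod 3)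

/-- The generator `!![1, 0; N, 1]`. -/
def lowerGen (N : ℕ) : Gamma0 N :=
  ⟨⟨!![1, 0; (N : ℤ), 1], by simp [Matrix.det_fin_two_of]⟩, Gamma0_mem.mpr (by simp)⟩

theorem dvd_lowerLeft (γ : Gamma0 N) : (N : ℤ) ∣ (γ : SL(2, ℤ)) 1 0 :=
  (ZMod.intCast_zmod_eq_zero_iff_dvd _ _).mp (Gamma0_mem.mp γ.2)

variable [NeZero N] (h3 : 3 ∣ N)

theorem lowerClass_eq {γ : Gamma0 N} {c : ℤ} (hc : (γ : SL(2, ℤ)) 1 0 = N * c) :
    lowerClass γ = (c : ZMod 3) * (((γ : SL(2, ℤ)) 0 0 : ℤ) : ZMod 3) := by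
  rw [lowerClass, hc, Int.mul_ediv_cancel_left _ (by exact_mod_cast NeZero.ne N), Int.cast_mul]

omit [NeZero N] in
include h3 in
theorem upperLeft_mul_lowerRight (γ : Gamma0 N) :
    (((γ : SL(2, ℤ)) 0 0 : ℤ) : ZMod 3) * (((γ : SL(2, ℤ)) 1 1 : ℤ) : ZMod 3) = 1 := by
  obtain ⟨c, hc⟩ := dvd_lowerLeft γ
  have h := congrArg (Int.cast : ℤ → ZMod 3) ((γ : SL(2, ℤ)).2)
  rw [Matrix.det_fin_two, hc] at h
  push_cast at h
  rw [(CharP.cast_eq_zero_iff (ZMod 3) 3 _).mpr h3] at h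
  linear_combination h

include h3 in
theorem lowerClass_mul (γ δ : Gamma0 N) :
    lowerClass (γ * δ) = lowerClass γ + lowerClass δ := by
  obtain ⟨c, hc⟩ := dvd_lowerLeft γ
  obtain ⟨c', hc'⟩ := dvd_lowerLeft δ
  have h10 : ((γ * δ : Gamma0 N) : SL(2, ℤ)) 1 0 =
      N * (c * (δ : SL(2, ℤ)) 0 0 + (γ : SL(2, ℤ)) 1 1 * c') := by
    simp [Matrix.SpecialLinearGroup.coe_mul, Matrix.mul_apply, Fin.sum_univ_two, hc, hc']
    ring
  have h00 : (((γ * δ : Gamma0 N) : SL(2, ℤ)) 0 0 : ZMod 3) =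
      (((γ : SL(2, ℤ)) 0 0 : ℤ) : ZMod 3) * (((δ : SL(2, ℤ)) 0 0 : ℤ) : ZMod 3) := by
    simp [Matrix.SpecialLinearGroup.coe_mul, Matrix.mul_apply, Fin.sum_univ_two, hc',
      (CharP.cast_eq_zero_iff (ZMod 3) 3 _).mpr h3]
  rw [lowerClass_eq hc, lowerClass_eq hc', lowerClass_eq h10, h00]
  push_cast
  have e1 := upperLeft_mul_lowerRight h3 γ
  have e2 : ∀ x y : ZMod 3, x * y = 1 → x * x = 1 := by decide
  linear_combination (c : ZMod 3) * (((γ : SL(2, ℤ)) 0 0 : ℤ) : ZMod 3) *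
    e2 _ _ (upperLeft_mul_lowerRight h3 δ) +
    (c' : ZMod 3) * (((δ : SL(2, ℤ)) 0 0 : ℤ) : ZMod 3) * e1

theorem lowerClass_lowerGen : lowerClass (lowerGen N) = 1 := by
  rw [lowerClass_eq (c := 1) (by simp [lowerGen])]
  simp [lowerGen]

include h3 in
theorem lowerClass_one : lowerClass (1 : Gamma0 N) = 0 :=
  add_eq_left.mp (by rw [← lowerClass_mul h3, one_mul])

include h3 in
theorem lowerClass_inv (γ : Gamma0 N) : lowerClass γ⁻¹ = -lowerClass γ :=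
  eq_neg_of_add_eq_zero_left (by rw [← lowerClass_mul h3, inv_mul_cancel, lowerClass_one h3])

include h3 in
theorem lowerClass_lowerGen_pow (k : ℕ) : lowerClass (lowerGen N ^ k) = (k : ZMod 3) := by
  induction k with
  | zero => simp [lowerClass_one h3]
  | succ k ih => rw [pow_succ, lowerClass_mul h3, ih, lowerClass_lowerGen, Nat.cast_succ]

/-- The inclusion `Γ₀(3N) → Γ₀(N)`. -/
def inclThree (N : ℕ) : Gamma0 (3 * N) →* Gamma0 N :=
  Subgroup.inclusion fun γ hγ => Gamma0_mem.mpr (by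
    simpa using congrArg (ZMod.castHom (Dvd.intro_left 3 rfl) (ZMod N)) (Gamma0_mem.mp hγ))

omit [NeZero N] in
@[simp] theorem coe_inclThree (γ : Gamma0 (3 * N)) :
    ((inclThree N γ : Gamma0 N) : SL(2, ℤ)) = γ := rfl

include h3 in
theorem lowerClass_eq_zero_iff (γ : Gamma0 N) :
    lowerClass γ = 0 ↔ (γ : SL(2, ℤ)) ∈ Gamma0 (3 * N) := by
  obtain ⟨c, hc⟩ := dvd_lowerLeft γ
  have hu : IsUnit (((γ : SL(2, ℤ)) 0 0 : ℤ) : ZMod 3) :=
    IsUnit.of_mul_eq_one _ (upperLeft_mul_lowerRight h3 γ)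
  rw [lowerClass_eq hc, hu.mul_left_eq_zero, Gamma0_mem, ZMod.intCast_zmod_eq_zero_iff_dvd,
    ZMod.intCast_zmod_eq_zero_iff_dvd, hc, Nat.cast_mul, mul_comm ((3 : ℕ) : ℤ),
    mul_dvd_mul_iff_left (by exact_mod_cast NeZero.ne N : (N : ℤ) ≠ 0)]

include h3 in
theorem lowerClass_inclThree (γ : Gamma0 (3 * N)) : lowerClass (inclThree N γ) = 0 :=
  (lowerClass_eq_zero_iff h3 _).mpr γ.2

/-- Push an element of class zero into `Γ₀(3N)`. -/
def intoThree (γ : Gamma0 N) (h : lowerClass γ = 0) : Gamma0 (3 * N) :=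
  ⟨γ, (lowerClass_eq_zero_iff h3 γ).mp h⟩

/-- Conjugation by a power of `lowerGen`. -/
def conjGen (k : ℕ) : Gamma0 (3 * N) →* Gamma0 (3 * N) :=
  MonoidHom.mk' (fun γ => intoThree h3 (lowerGen N ^ k * inclThree N γ * (lowerGen N ^ k)⁻¹) (by
      rw [lowerClass_mul h3, lowerClass_mul h3, lowerClass_inv h3, lowerClass_inclThree h3,
        add_zero, add_neg_cancel]))
    fun γ δ => by
      apply Subtype.ext
      simp [intoThree, mul_assoc]

@[simp] theorem coe_conjGen (k : ℕ) (γ : Gamma0 (3 * N)) :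
    ((conjGen h3 k γ : Gamma0 (3 * N)) : SL(2, ℤ)) =
      (lowerGen N : SL(2, ℤ)) ^ k * γ * ((lowerGen N : SL(2, ℤ)) ^ k)⁻¹ := by
  simp [conjGen, intoThree]

theorem conjGen_add (i j : ℕ) (γ : Gamma0 (3 * N)) :
    conjGen h3 (i + j) γ = conjGen h3 i (conjGen h3 j γ) := by
  apply Subtype.ext
  simp [pow_add, mul_assoc]

/-- The action of the quotient on characters. -/
def conjHom (k : ℕ) (ψ : Additive (Gamma0 (3 * N)) →+ K) : Additive (Gamma0 (3 * N)) →+ K :=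
  ψ.comp (MonoidHom.toAdditive (conjGen h3 k))

theorem conjHom_apply (k : ℕ) (ψ : Additive (Gamma0 (3 * N)) →+ K) (γ : Gamma0 (3 * N)) :
    conjHom h3 k ψ (Additive.ofMul γ) = ψ (Additive.ofMul (conjGen h3 k γ)) := rfl

theorem conjHom_conjHom (i j : ℕ) (ψ : Additive (Gamma0 (3 * N)) →+ K) :
    conjHom h3 i (conjHom h3 j ψ) = conjHom h3 (j + i) ψ := by
  refine AddMonoidHom.ext fun x => ?_
  change ψ (Additive.ofMul (conjGen h3 j (conjGen h3 i (Additive.toMul x)))) = _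
  rw [← conjGen_add]
  rfl

theorem conjHom_three_mul_add (e i : ℕ) (ψ : Additive (Gamma0 (3 * N)) →+ K) :
    conjHom h3 (3 * e + i) ψ = conjHom h3 i ψ := by
  refine AddMonoidHom.ext fun x => ?_
  obtain ⟨γ, rfl⟩ : ∃ γ, Additive.ofMul γ = x := ⟨Additive.toMul x, rfl⟩
  set w := intoThree h3 (lowerGen N ^ (3 * e)) (by
    rw [lowerClass_lowerGen_pow h3, Nat.cast_mul, show ((3 : ℕ) : ZMod 3) = 0 from rfl, zero_mul])
  rw [conjHom_apply, conjHom_apply, ← apply_conj ψ w (conjGen h3 i γ)]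
  congr 2
  apply Subtype.ext
  simp [w, intoThree, pow_add, mul_assoc]

section Move

variable {ℓ : ℕ} (hℓ : ℓ.Prime) (hℓN : ¬ ℓ ∣ N) (hℓN3 : ¬ ℓ ∣ 3 * N)

omit [NeZero N] in
theorem move_inclThree (γ : Gamma0 (3 * N)) (i : Option (ZMod ℓ)) :
    (Periods.tCorr N hℓ hℓN).target (inclThree N γ) i =
        (Periods.tCorr (3 * N) hℓ hℓN3).target γ i ∧
      (Periods.tCorr N hℓ hℓN).move (inclThree N γ) i =
        inclThree N ((Periods.tCorr (3 * N) hℓ hℓN3).move γ i) :=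
  (Periods.tCorr N hℓ hℓN).move_unique ((Periods.tCorr (3 * N) hℓ hℓN3).move_spec γ i)

include h3 in
theorem lowerClass_move_lowerGen (i : Option (ZMod ℓ)) :
    lowerClass ((Periods.tCorr N hℓ hℓN).move (lowerGen N) i) = (ℓ : ZMod 3) := by
  have hs := (Periods.tCorr N hℓ hℓN).move_spec (lowerGen N) i
  set j := (Periods.tCorr N hℓ hℓN).target (lowerGen N) i
  set μ := (Periods.tCorr N hℓ hℓN).move (lowerGen N) i
  obtain ⟨c, hc⟩ := dvd_lowerLeft μ
  have e10 := congrFun (congrFun hs 1) 0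
  have e00 := congrFun (congrFun hs 0) 0
  simp [lowerGen, Matrix.mul_apply, Fin.sum_univ_two, tRep_one_zero, hc] at e10 e00
  have hN : (N : ℤ) ≠ 0 := by exact_mod_cast NeZero.ne N
  have e10' : Periods.tRep ℓ i 1 1 = c * Periods.tRep ℓ j 0 0 :=
    mul_right_cancel₀ hN (by linear_combination e10)
  have hdet : Periods.tRep ℓ i 0 0 * Periods.tRep ℓ i 1 1 = ℓ := by
    rw [← Periods.det_tRep ℓ i, Matrix.det_fin_two, tRep_one_zero]; ring
  have hdetj : Periods.tRep ℓ j 0 0 * Periods.tRep ℓ j 1 1 = ℓ := by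
    rw [← Periods.det_tRep ℓ j, Matrix.det_fin_two, tRep_one_zero]; ring
  rw [lowerClass_eq hc]
  have E00 := congrArg (Int.cast : ℤ → ZMod 3) e00
  have E10 := congrArg (Int.cast : ℤ → ZMod 3) e10'
  have E := congrArg (Int.cast : ℤ → ZMod 3) hdet
  have Ej := congrArg (Int.cast : ℤ → ZMod 3) hdetj
  push_cast at E00 E10 E Ej
  rw [(CharP.cast_eq_zero_iff (ZMod 3) 3 _).mpr h3, mul_zero, add_zero] at E00
  have key : ∀ x y : ZMod 3, x * y = (ℓ : ZMod 3) → (ℓ : ZMod 3) ≠ 0 → x * x = 1 := by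
    generalize (ℓ : ZMod 3) = t
    revert t
    decide
  have hℓ0 : (ℓ : ZMod 3) ≠ 0 := fun h =>
    hℓN (((Nat.prime_dvd_prime_iff_eq Nat.prime_three hℓ).mp
      ((CharP.cast_eq_zero_iff (ZMod 3) 3 _).mp h)) ▸ h3)
  have hsq := key _ _ Ej hℓ0
  linear_combination -(c : ZMod 3) * (((μ : SL(2, ℤ)) 0 0 : ℤ) : ZMod 3) * hsq -
    (((μ : SL(2, ℤ)) 0 0 : ℤ) : ZMod 3) * ((Periods.tRep ℓ j 0 0 : ℤ) : ZMod 3) * E10 -
    ((Periods.tRep ℓ i 1 1 : ℤ) : ZMod 3) * E00 + E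

include hℓN in
theorem heckeHomT_conjHom (ψ : Additive (Gamma0 (3 * N)) →+ K) :
    Periods.heckeHomT K (3 * N) hℓ hℓN3 (conjHom h3 ℓ ψ) =
      conjHom h3 1 (Periods.heckeHomT K (3 * N) hℓ hℓN3 ψ) := by
  have : NeZero ℓ := ⟨hℓ.ne_zero⟩
  refine AddMonoidHom.ext fun x => ?_
  obtain ⟨γ, rfl⟩ : ∃ γ, Additive.ofMul γ = x := ⟨Additive.toMul x, rfl⟩
  set D := Periods.tCorr N hℓ hℓN
  set D' := Periods.tCorr (3 * N) hℓ hℓN3
  set u := lowerGen N
  have hcls : ∀ i, lowerClass (D.move u i * (u ^ ℓ)⁻¹) = 0 := fun i => by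
    rw [lowerClass_mul h3, lowerClass_inv h3, lowerClass_move_lowerGen h3 hℓ hℓN,
      lowerClass_lowerGen_pow h3, add_neg_cancel]
  let f : Option (ZMod ℓ) → K := fun i => ψ (Additive.ofMul (intoThree h3 _ (hcls i)))
  set δ := conjGen h3 1 γ
  have hδ : inclThree N δ = u * inclThree N γ * u⁻¹ := by
    apply Subtype.ext
    simp [δ, u]
  have hmove : ∀ i, ψ (Additive.ofMul (D'.move δ i)) =
      f i + conjHom h3 ℓ ψ (Additive.ofMul (D'.move γ (D.target u i))) - f (D'.target δ i) := by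
    intro i
    have hm := (move_inclThree hℓ hℓN hℓN3 δ i).2
    have ht := (move_inclThree hℓ hℓN hℓN3 δ i).1
    set j := D.target u i
    set s := D'.target δ i
    have h1 : D.move (u * inclThree N γ) i = D.move u i * D.move (inclThree N γ) j :=
      (D.move_mul u (inclThree N γ) i).2
    have hsu : D.target (u * inclThree N γ) i = D.target u s := by
      have h2 := (D.move_mul (u * inclThree N γ * u⁻¹) u i).1
      rw [inv_mul_cancel_right, ← hδ, ht] at h2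
      exact h2
    have h2 := (D.move_mul (u * inclThree N γ * u⁻¹) u i).2
    rw [inv_mul_cancel_right, ← hδ, ht, hm, h1, (move_inclThree hℓ hℓN hℓN3 γ j).2] at h2
    have hval : inclThree N (D'.move δ i) =
        D.move u i * inclThree N (D'.move γ j) * (D.move u s)⁻¹ := by
      rw [h2]; simp [D']
    have hsplit : D'.move δ i =
        intoThree h3 _ (hcls i) * conjGen h3 ℓ (D'.move γ j) * (intoThree h3 _ (hcls s))⁻¹ := by
      apply Subtype.ext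
      have := congrArg (Subgroup.subtype _) hval
      simp only [Subgroup.coe_subtype, coe_inclThree, Subgroup.coe_mul, Subgroup.coe_inv] at this
      rw [this]
      simp [intoThree, u, mul_assoc]
    rw [hsplit, ofMul_mul, ofMul_mul, ofMul_inv, map_add, map_add, map_neg, conjHom_apply]
    abel
  change ∑ i, conjHom h3 ℓ ψ (Additive.ofMul (D'.move γ i)) = ∑ i, ψ (Additive.ofMul (D'.move δ i))
  simp only [hmove, Finset.sum_sub_distrib, Finset.sum_add_distrib]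
  have e1 : ∑ i, conjHom h3 ℓ ψ (Additive.ofMul (D'.move γ (D.target u i))) =
      ∑ i, conjHom h3 ℓ ψ (Additive.ofMul (D'.move γ i)) :=
    Equiv.sum_comp (D.targetEquiv u) fun i => conjHom h3 ℓ ψ (Additive.ofMul (D'.move γ i))
  have e2 : ∑ i, f (D'.target δ i) = ∑ i, f i := Equiv.sum_comp (D'.targetEquiv δ) f
  rw [e1, e2]
  abel

end Move

end FermatAgent.Descent3
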