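import Mathlib
import Fermat.Agent.Descent3.Step

set_option autoImplicit false

/-!
# An eigencharacter on `Γ₀(3N)` descends to `Γ₀(N)` up to twisting by `ℓ ↦ ℓ mod 3`
-/

open ModularGroup CongruenceSubgroup
open scoped MatrixGroups

namespace FermatAgent.Descent3

variable {K : Type*} [Field K] {S : Set ℕ} {a : ℕ → K} {N : ℕ} [NeZero N]

omit [NeZero N] in
theorem prime_ne_three_of_not_dvd {ℓ : ℕ} (h3 : 3 ∣ N) (hℓN : ¬ ℓ ∣ N) : ℓ ≠ 3 :=
  fun h => hℓN (h ▸ h3)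

variable (h3 : 3 ∣ N)

theorem conjHom_sub (k : ℕ) (χ χ' : Additive (Gamma0 (3 * N)) →+ K) :
    conjHom h3 k (χ - χ') = conjHom h3 k χ - conjHom h3 k χ' := rfl

theorem conjHom_smul (k : ℕ) (c : K) (χ : Additive (Gamma0 (3 * N)) →+ K) :
    conjHom h3 k (c • χ) = c • conjHom h3 k χ := rfl

theorem conjHom_zero_pow (χ : Additive (Gamma0 (3 * N)) →+ K) : conjHom h3 0 χ = χ := by
  refine AddMonoidHom.ext fun x => ?_
  obtain ⟨γ, rfl⟩ : ∃ γ, Additive.ofMul γ = x := ⟨Additive.toMul x, rfl⟩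
  rw [conjHom_apply]
  congr 2
  exact Subtype.ext (by simp)

/-- `T_ℓ (σ - 1) = (σ^e - 1) T_ℓ` applied to eigencharacters. -/
theorem heckeHomT_delta {ℓ : ℕ} (hℓ : ℓ.Prime) (hℓN : ¬ ℓ ∣ N) (hℓN3 : ¬ ℓ ∣ 3 * N)
    (χ : Additive (Gamma0 (3 * N)) →+ K) :
    Periods.heckeHomT K (3 * N) hℓ hℓN3 (conjHom h3 1 χ - χ) =
      conjHom h3 ℓ (Periods.heckeHomT K (3 * N) hℓ hℓN3 χ) -
        Periods.heckeHomT K (3 * N) hℓ hℓN3 χ := by
  rw [map_sub]
  congr 1
  have hone : ℓ * ℓ % 3 = 1 := by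
    have hne : ¬ 3 ∣ ℓ := fun h => prime_ne_three_of_not_dvd h3 hℓN
      ((Nat.prime_dvd_prime_iff_eq Nat.prime_three hℓ).mp h).symm
    rw [Nat.mul_mod]
    obtain h | h : ℓ % 3 = 1 ∨ ℓ % 3 = 2 := by omega
    all_goals rw [h]
  have key := heckeHomT_conjHom (K := K) h3 hℓ hℓN hℓN3
  have step : ∀ (m : ℕ) (φ : Additive (Gamma0 (3 * N)) →+ K),
      Periods.heckeHomT K (3 * N) hℓ hℓN3 (conjHom h3 (ℓ * m) φ) =
        conjHom h3 m (Periods.heckeHomT K (3 * N) hℓ hℓN3 φ) := by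
    intro m
    induction m with
    | zero => intro φ; rw [mul_zero, conjHom_zero_pow, conjHom_zero_pow]
    | succ m ih =>
      intro φ
      rw [mul_add, mul_one, ← conjHom_conjHom h3 ℓ (ℓ * m), key, ih, conjHom_conjHom]
  rw [← step ℓ χ]
  congr 1
  have h := Nat.div_add_mod (ℓ * ℓ) 3
  rw [hone] at h
  rw [← h, conjHom_three_mul_add]

variable [CharP K 3]

/-- An eigencharacter on `Γ₀(3N)` yields an invariant one, twisted by a power of `ℓ`. -/
theorem exists_invariant {ψ : Additive (Gamma0 (3 * N)) →+ K} (hψ : ψ ≠ 0)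
    (heig : IsEigenHom (3 * N) S a ψ) :
    ∃ (k : ℕ) (χ : Additive (Gamma0 (3 * N)) →+ K), χ ≠ 0 ∧ conjHom h3 1 χ = χ ∧
      IsEigenHom (3 * N) S (fun ℓ => (ℓ : K) ^ k * a ℓ) χ := by
  set C := conjHom h3 (K := K) 1
  have hcase : ∀ ℓ, ℓ ∈ S → ∀ (hℓ : ℓ.Prime) (hℓN3 : ¬ ℓ ∣ 3 * N) (χ : Additive (Gamma0 (3 * N)) →+ K)
      (b : K), Periods.heckeHomT K (3 * N) hℓ hℓN3 χ = b • χ →
      Periods.heckeHomT K (3 * N) hℓ hℓN3 (C χ - χ) = b • (conjHom h3 ℓ χ - χ) := by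
    intro ℓ _ hℓ hℓN3 χ b hb
    have hℓN : ¬ ℓ ∣ N := fun h => hℓN3 (h.mul_left 3)
    rw [heckeHomT_delta h3 hℓ hℓN hℓN3, hb, conjHom_smul, smul_sub]
  have h2eq : ∀ χ, conjHom h3 2 χ = C (C χ) := fun χ => (conjHom_conjHom h3 1 1 χ).symm
  have hC3 : ∀ χ, C (C (C χ)) = χ := fun χ => by
    simp only [C]
    rw [conjHom_conjHom, conjHom_conjHom, show 1 + 1 + 1 = 3 * 1 + 0 from rfl,
      conjHom_three_mul_add, conjHom_zero_pow]
  have hthree : ∀ φ : Additive (Gamma0 (3 * N)) →+ K, (3 : K) • φ = 0 := fun φ => by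
    rw [show (3 : K) = ((3 : ℕ) : K) by norm_num, CharP.cast_eq_zero, zero_smul]
  -- the power of the residue of `ℓ`
  have hℓcases : ∀ {ℓ : ℕ}, ℓ.Prime → ¬ ℓ ∣ 3 * N →
      ((ℓ : K) = 1 ∧ ∀ χ, conjHom h3 ℓ χ = C χ) ∨ ((ℓ : K) = 2 ∧ ∀ χ, conjHom h3 ℓ χ = C (C χ)) := by
    intro ℓ hℓ hℓN3
    have hne : ¬ 3 ∣ ℓ := fun h =>
      hℓN3 (((Nat.prime_dvd_prime_iff_eq Nat.prime_three hℓ).mp h).symm ▸ dvd_mul_right 3 N)
    have hd := Nat.div_add_mod ℓ 3
    obtain h | h : ℓ % 3 = 1 ∨ ℓ % 3 = 2 := by omega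
    · refine Or.inl ⟨?_, fun χ => ?_⟩
      · rw [← hd, h]; push_cast; rw [show (3 : K) = ((3 : ℕ) : K) by norm_num, CharP.cast_eq_zero]; ring
      · rw [← hd, h, conjHom_three_mul_add]
    · refine Or.inr ⟨?_, fun χ => ?_⟩
      · rw [← hd, h]; push_cast; rw [show (3 : K) = ((3 : ℕ) : K) by norm_num, CharP.cast_eq_zero]; ring
      · rw [← hd, h, conjHom_three_mul_add, h2eq]
  by_cases h1 : C ψ - ψ = 0
  · exact ⟨0, ψ, hψ, sub_eq_zero.mp h1, fun ℓ hℓS hℓ hℓN3 => by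
      simp only [pow_zero, one_mul]; exact heig ℓ hℓS hℓ hℓN3⟩
  by_cases h2 : C (C ψ - ψ) - (C ψ - ψ) = 0
  · refine ⟨1, C ψ - ψ, h1, sub_eq_zero.mp h2, fun ℓ hℓS hℓ hℓN3 => ?_⟩
    simp only [pow_one]
    rw [hcase ℓ hℓS hℓ hℓN3 ψ (a ℓ) (heig ℓ hℓS hℓ hℓN3), mul_comm (ℓ : K), mul_smul]
    congr 1
    rcases hℓcases hℓ hℓN3 with ⟨e, eC⟩ | ⟨e, eC⟩ <;> rw [e, eC]
    · rw [one_smul]
    · have h2' : C (C ψ) = C ψ + C ψ - ψ := by
        simp only [C, conjHom_sub] at h2 ⊢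
        linear_combination (norm := abel) h2
      rw [h2', two_smul]
      abel
  · refine ⟨0, C (C ψ - ψ) - (C ψ - ψ), h2, ?_, fun ℓ hℓS hℓ hℓN3 => ?_⟩
    · simp only [C, conjHom_sub] at hC3 ⊢
      rw [hC3]
      have := hthree (C (C ψ) - C ψ)
      rw [show (3 : K) = 1 + 1 + 1 by norm_num, add_smul, add_smul, one_smul] at this
      linear_combination (norm := abel) -this
    · simp only [pow_zero, one_mul]
      have hℓN : ¬ ℓ ∣ N := fun h => hℓN3 (h.mul_left 3)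
      have e := hcase ℓ hℓS hℓ hℓN3 ψ (a ℓ) (heig ℓ hℓS hℓ hℓN3)
      rw [heckeHomT_delta h3 hℓ hℓN hℓN3, e]
      rcases hℓcases hℓ hℓN3 with ⟨-, eC⟩ | ⟨-, eC⟩
      · simp only [eC]
        simp only [C, conjHom_smul, smul_sub, conjHom_sub]
      · simp only [eC]
        simp only [C] at hC3
        simp only [C, conjHom_smul, conjHom_sub, smul_sub, hC3]
        have := congrArg (a ℓ • ·) (hthree (C (C ψ) - C ψ))
        simp only [C, smul_zero, show (3 : K) = 1 + 1 + 1 by norm_num, add_smul, one_smul, smul_add,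
          smul_sub] at this
        linear_combination (norm := abel) -this

/-- Extend an invariant non-Eisenstein eigencharacter from `Γ₀(3N)` to `Γ₀(N)`. -/
theorem exists_extension {χ : Additive (Gamma0 (3 * N)) →+ K} (hχ : χ ≠ 0)
    (hinv : conjHom h3 1 χ = χ) (heig : IsEigenHom (3 * N) S a χ) {ℓ₀ : ℕ}
    (hw : IsWitness (3 * N) S a ℓ₀) :
    ∃ χ' : Additive (Gamma0 N) →+ K, χ' ≠ 0 ∧ IsEigenHom N S a χ' := by
  set u := lowerGen N
  have hinvk : ∀ k, conjHom h3 k χ = χ := fun k => by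
    induction k with
    | zero => exact conjHom_zero_pow h3 χ
    | succ k ih => rw [← conjHom_conjHom h3 1 k, ih, hinv]
  have hz : ∀ γ : Gamma0 N, lowerClass (γ * (u ^ (lowerClass γ).val)⁻¹) = 0 := fun γ => by
    rw [lowerClass_mul h3, lowerClass_inv h3, lowerClass_lowerGen_pow h3, ZMod.natCast_zmod_val,
      add_neg_cancel]
  let ext : Gamma0 N → K := fun γ => χ (Additive.ofMul (intoThree h3 _ (hz γ)))
  have hcube : ∀ e : ℕ, ∀ h : lowerClass (u ^ (3 * e)) = 0,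
      χ (Additive.ofMul (intoThree h3 (u ^ (3 * e)) h)) = 0 := by
    intro e h
    refine heig.apply_eq_zero hw ?_
    have hpow : matOf ((u : SL(2, ℤ)) ^ (3 * e)) = !![1, 0; ((3 * e * N : ℕ) : ℤ), 1] := by
      induction (3 * e) with
      | zero => simp [matOf, Matrix.one_fin_two]
      | succ m ihm =>
        rw [pow_succ, matOf_mul, ihm]
        ext i j
        fin_cases i <;> fin_cases j <;>
          simp [u, lowerGen, matOf, Matrix.mul_apply, Fin.sum_univ_two, Nat.add_mul]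
    simp [intoThree, matOf] at hpow ⊢
    rw [hpow]
    simp [Matrix.trace_fin_two]
  have hadd : ∀ γ δ, ext (γ * δ) = ext γ + ext δ := by
    intro γ δ
    set i := (lowerClass γ).val
    set j := (lowerClass δ).val
    set k := (lowerClass (γ * δ)).val
    obtain ⟨e, he⟩ : ∃ e, i + j = 3 * e + k := by
      refine ⟨(i + j) / 3, ?_⟩
      have hk : k = (i + j) % 3 := by
        simp only [k, lowerClass_mul h3, ZMod.val_add, i, j]
      omega
    have hu3 : lowerClass (u ^ (3 * e)) = 0 := by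
      rw [lowerClass_lowerGen_pow h3, Nat.cast_mul, show ((3 : ℕ) : ZMod 3) = 0 from rfl, zero_mul]
    have hsplit : intoThree h3 _ (hz (γ * δ)) = intoThree h3 _ (hz γ) *
        conjGen h3 i (intoThree h3 _ (hz δ)) * intoThree h3 _ hu3 := by
      apply Subtype.ext
      have : (u : SL(2, ℤ)) ^ (3 * e) = ((u : SL(2, ℤ)) ^ i * (u : SL(2, ℤ)) ^ j) * ((u : SL(2, ℤ)) ^ k)⁻¹ := by
        rw [← pow_add, he, pow_add, mul_inv_cancel_right]
      simp [intoThree, mul_assoc, this, i, j, k, u]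
    simp only [ext]
    rw [hsplit, ofMul_mul, ofMul_mul, map_add, map_add, hcube, add_zero, ← conjHom_apply h3 i χ,
      hinvk]
  let χ' : Additive (Gamma0 N) →+ K := AddMonoidHom.mk' (fun x => ext (Additive.toMul x))
    fun x y => hadd (Additive.toMul x) (Additive.toMul y)
  have hres : ∀ γ : Gamma0 (3 * N), χ' (Additive.ofMul (inclThree N γ)) = χ (Additive.ofMul γ) := by
    intro γ
    change χ _ = χ _
    congr 2
    apply Subtype.ext
    simp [intoThree, lowerClass_inclThree h3]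
  have hu0 : χ' (Additive.ofMul u) = 0 := by
    change χ _ = 0
    have := hcube 0 (by rw [mul_zero, pow_zero, lowerClass_one h3])
    rw [← this]
    congr 2
    apply Subtype.ext
    simp [intoThree, lowerClass_lowerGen, u, ZMod.val_one]
  refine ⟨χ', fun h => hχ (AddMonoidHom.ext fun x => ?_), fun ℓ hℓS hℓ hℓN => ?_⟩
  · obtain ⟨γ, rfl⟩ : ∃ γ, Additive.ofMul γ = x := ⟨Additive.toMul x, rfl⟩
    rw [← hres, h]
    rfl
  · have h3ℓ := prime_ne_three_of_not_dvd h3 hℓN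
    have hℓN3 : ¬ ℓ ∣ 3 * N := fun h => by
      rcases hℓ.dvd_mul.mp h with h | h
      · exact h3ℓ ((Nat.prime_dvd_prime_iff_eq hℓ Nat.prime_three).mp h)
      · exact hℓN h
    have : NeZero ℓ := ⟨hℓ.ne_zero⟩
    have hTu : Periods.heckeHomT K N hℓ hℓN χ' (Additive.ofMul u) = 0 := by
      refine heckeHomT_apply_eq_zero χ' hℓ hℓN h3ℓ (g := ModularGroup.S) (n := -(N : ℤ)) ?_ ?_ hu0
      · rw [eq_mul_inv_iff_mul_eq]
        apply Subtype.ext
        rw [Matrix.SpecialLinearGroup.coe_mul, Matrix.SpecialLinearGroup.coe_mul, coe_T_zpow]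
        simp [u, lowerGen, coe_S]
      · simp [coe_S]
    have hTres : ∀ γ : Gamma0 (3 * N), Periods.heckeHomT K N hℓ hℓN χ' (Additive.ofMul (inclThree N γ)) =
        a ℓ * χ' (Additive.ofMul (inclThree N γ)) := by
      intro γ
      have := DFunLike.congr_fun (heig ℓ hℓS hℓ hℓN3) (Additive.ofMul γ)
      rw [AddMonoidHom.smul_apply, smul_eq_mul, ← hres] at this
      rw [← this]
      change ∑ i, χ' (Additive.ofMul ((Periods.tCorr N hℓ hℓN).move (inclThree N γ) i)) =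
        ∑ i, χ (Additive.ofMul ((Periods.tCorr (3 * N) hℓ hℓN3).move γ i))
      refine Finset.sum_congr rfl fun i _ => ?_
      rw [(move_inclThree hℓ hℓN hℓN3 γ i).2, hres]
    refine AddMonoidHom.ext fun x => ?_
    obtain ⟨γ, rfl⟩ : ∃ γ, Additive.ofMul γ = x := ⟨Additive.toMul x, rfl⟩
    have hγ : γ = inclThree N (intoThree h3 _ (hz γ)) * u ^ (lowerClass γ).val := by
      apply Subtype.ext
      simp [intoThree]
    rw [AddMonoidHom.smul_apply, smul_eq_mul, hγ, ofMul_mul, ofMul_pow, map_add, map_add,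
      map_nsmul, map_nsmul, hTres, hTu, hu0, nsmul_zero, add_zero, add_zero]

include h3 in
/-- One descent step. -/
theorem exists_descended {ψ : Additive (Gamma0 (3 * N)) →+ K} (hψ : ψ ≠ 0)
    (heig : IsEigenHom (3 * N) S a ψ) {ℓ₀ : ℕ} (hw : IsWitness (3 * N) S a ℓ₀) :
    ∃ (k : ℕ) (χ : Additive (Gamma0 N) →+ K), χ ≠ 0 ∧
      IsEigenHom N S (fun ℓ => (ℓ : K) ^ k * a ℓ) χ ∧
      IsWitness N S (fun ℓ => (ℓ : K) ^ k * a ℓ) ℓ₀ := by
  obtain ⟨k, χ, hχ, hinv, hχeig⟩ := exists_invariant h3 hψ heig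
  have hw' : IsWitness (3 * N) S (fun ℓ => (ℓ : K) ^ k * a ℓ) ℓ₀ :=
    ⟨hw.1, hw.2.1, hw.2.2.1, hw.2.2.2.1, by simpa [hw.2.2.2.1] using hw.2.2.2.2⟩
  obtain ⟨χ', hne, he⟩ := exists_extension h3 hχ hinv hχeig hw'
  exact ⟨k, χ', hne, he, hw'.of_dvd (dvd_mul_left N 3)⟩

end FermatAgent.Descent3
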