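import Mathlib
import Fermat.Agent.GalRep.Construct.Constituent
import Fermat.Agent.GalRep.Density.Frobenius

set_option autoImplicit false

/-!
# An absolutely irreducible plane inside a representation with the same quadratic relations

If every `ρ g` satisfies the quadratic relation of `r g`, with `r` a two-dimensional representation
whose image spans the matrix algebra, then `r` embeds equivariantly into `ρ`.
-/

open Matrix

namespace FermatAgent.Descent3

variable {k : Type*} [Field k] {G : Type*} [Group G] {W : Type*} [AddCommGroup W] [Module k W]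

/-- The quadratic relation of `r g` for `ρ g`. -/
def SameQuadratic (r : G →* Matrix (Fin 2) (Fin 2) k) (ρ : G →* Module.End k W) (g : G) : Prop :=
  ρ g + (r g).det • ρ g⁻¹ = (r g).trace • (1 : Module.End k W)

variable {r : G →* Matrix (Fin 2) (Fin 2) k} {ρ : G →* Module.End k W}

theorem anticomm_lift (h : ∀ g, SameQuadratic r ρ g) (c d : MonoidAlgebra k G) :
    let L₁ := MonoidAlgebra.lift k (Module.End k W) G ρ
    let L₂ := MonoidAlgebra.lift k (Matrix (Fin 2) (Fin 2) k) G r
    L₁ c * L₁ d + L₁ d * L₁ c = (L₂ d).trace • L₁ c + (L₂ c).trace • L₁ d +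
      ((L₂ c * L₂ d).trace - (L₂ c).trace * (L₂ d).trace) • 1 := by
  intro L₁ L₂
  induction c using MonoidAlgebra.induction_linear with
  | zero => simp
  | add a b ha hb =>
    simp only [map_add, add_mul, mul_add, Matrix.trace_add, add_smul, smul_add, add_sub_add_comm]
    linear_combination (norm := module) ha + hb
  | single g x =>
    induction d using MonoidAlgebra.induction_linear with
    | zero => simp
    | add a b ha hb =>
      simp only [map_add, add_mul, mul_add, Matrix.trace_add, add_smul, smul_add,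
        add_sub_add_comm]
      linear_combination (norm := module) ha + hb
    | single j y =>
      have e := GalRep.anticomm_of_quadratic ρ ((Matrix.detMonoidHom).comp r)
        (fun g => (r g).trace) h g j
      simp only [L₁, L₂, MonoidAlgebra.lift_single, smul_mul_smul_comm, Matrix.trace_smul,
        smul_eq_mul, ← map_mul r]
      linear_combination (norm := module) (x * y) • e

/-- Relations of `r` hold for `ρ`. -/
theorem lift_eq_zero (h2 : (2 : k) ≠ 0) (hspan : Submodule.span k (Set.range r) = ⊤)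
    (h : ∀ g, SameQuadratic r ρ g) {c : MonoidAlgebra k G}
    (hc : MonoidAlgebra.lift k (Matrix (Fin 2) (Fin 2) k) G r c = 0) :
    MonoidAlgebra.lift k (Module.End k W) G ρ c = 0 := by
  set L₁ := MonoidAlgebra.lift k (Module.End k W) G ρ
  set L₂ := MonoidAlgebra.lift k (Matrix (Fin 2) (Fin 2) k) G r
  have hsurj : ∀ M, ∃ d, L₂ d = M := fun M => by
    have : M ∈ Submodule.span k (Set.range r) := hspan ▸ Submodule.mem_top
    induction this using Submodule.span_induction with
    | mem x hx =>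
      obtain ⟨g, rfl⟩ := hx
      exact ⟨MonoidAlgebra.single g 1, by simp [L₂]⟩
    | zero => exact ⟨0, map_zero _⟩
    | add x y _ _ hx hy =>
      obtain ⟨a, rfl⟩ := hx
      obtain ⟨b, rfl⟩ := hy
      exact ⟨a + b, map_add _ _ _⟩
    | smul t x _ hx =>
      obtain ⟨a, rfl⟩ := hx
      exact ⟨t • a, map_smul _ _ _⟩
  obtain ⟨d, hd⟩ := hsurj !![0, 1; 0, 0]
  obtain ⟨e, he⟩ := hsurj !![0, 0; 1, 0]
  set C := L₁ (d * e - e * d)
  have hD : L₂ (d * e - e * d) = !![1, 0; 0, -1] := by
    rw [map_sub, map_mul, map_mul, hd, he]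
    ext i j
    fin_cases i <;> fin_cases j <;> simp
  have htr : Matrix.trace
      ((!![1, 0; 0, -1] : Matrix (Fin 2) (Fin 2) k) * !![1, 0; 0, -1]) = (2 : k) := by
    simp [Matrix.trace_fin_two]; norm_num
  have hC : C * C = 1 := by
    have := anticomm_lift h (d * e - e * d) (d * e - e * d)
    simp only [show MonoidAlgebra.lift k (Matrix (Fin 2) (Fin 2) k) G r (d * e - e * d) = _ from hD]
      at this
    rw [show (!![1, 0; 0, -1] : Matrix (Fin 2) (Fin 2) k).trace = 0 by simp [Matrix.trace_fin_two],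
      htr,
      zero_smul, zero_add, zero_add, mul_zero, sub_zero, ← two_smul k (C * C)] at this
    exact smul_right_injective _ h2 this
  set X := L₁ c
  have key : ∀ u, X * L₁ u + L₁ u * X = (L₂ u).trace • X := fun u => by
    have := anticomm_lift h c u
    simpa [L₁, L₂, hc, X] using this
  have hcomm : X * C = C * X := by
    have e1 : ∀ u v, X * (L₁ u * L₁ v) = ((L₂ u).trace * (L₂ v).trace) • X -
        (L₂ u).trace • (L₁ v * X) - (L₂ v).trace • (L₁ u * X) + L₁ u * L₁ v * X := fun u v => by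
      have ku := eq_sub_of_add_eq (key u)
      have kv := eq_sub_of_add_eq (key v)
      rw [← mul_assoc, ku, sub_mul, smul_mul_assoc, kv, mul_assoc (L₁ u), kv, mul_sub, mul_smul_comm,
        mul_assoc (L₁ u), smul_sub, smul_smul]
      abel
    simp only [C, map_sub, map_mul, mul_sub, sub_mul]
    rw [e1, e1, mul_comm (L₂ e).trace (L₂ d).trace]
    abel
  have hanti : X * C + C * X = 0 := by
    rw [key, hD]
    simp [Matrix.trace_fin_two]
  rw [hcomm, ← two_smul k] at hanti
  have hCX := (smul_eq_zero.mp hanti).resolve_left h2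
  have := congrArg (C * ·) hCX
  simpa [← mul_assoc, hC] using this

/-- The plane of `r` sits inside `ρ`. -/
theorem exists_equivariant_embedding [Nontrivial W] (h2 : (2 : k) ≠ 0)
    (hspan : Submodule.span k (Set.range r) = ⊤) (h : ∀ g, SameQuadratic r ρ g) :
    ∃ j : (Fin 2 → k) →ₗ[k] W, Function.Injective j ∧ ∀ g v, j (r g *ᵥ v) = ρ g (j v) := by
  set L₁ := MonoidAlgebra.lift k (Module.End k W) G ρ
  set L₂ := MonoidAlgebra.lift k (Matrix (Fin 2) (Fin 2) k) G r
  have hsurj : LinearMap.range L₂.toLinearMap = ⊤ := by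
    rw [eq_top_iff, ← hspan, Submodule.span_le]
    rintro _ ⟨g, rfl⟩
    exact ⟨MonoidAlgebra.single g 1, by simp [L₂]⟩
  obtain ⟨sec, hsec⟩ := LinearMap.exists_rightInverse_of_surjective _ hsurj
  set Φ : Matrix (Fin 2) (Fin 2) k →ₗ[k] Module.End k W := L₁.toLinearMap.comp sec
  have hΦ : ∀ c, Φ (L₂ c) = L₁ c := fun c => by
    have h0 : L₁ (sec (L₂ c) - c) = 0 := lift_eq_zero h2 hspan h (by
      rw [map_sub]
      exact sub_eq_zero.mpr (LinearMap.congr_fun hsec _))
    rw [map_sub, sub_eq_zero] at h0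
    exact h0
  have hmul : ∀ M M', Φ (M * M') = Φ M * Φ M' := fun M M' => by
    obtain ⟨c, rfl⟩ := LinearMap.range_eq_top.mp hsurj M
    obtain ⟨c', rfl⟩ := LinearMap.range_eq_top.mp hsurj M'
    change Φ (L₂ c * L₂ c') = Φ (L₂ c) * Φ (L₂ c')
    rw [← map_mul, hΦ, hΦ, hΦ, map_mul]
  have hr : ∀ g, Φ (r g) = ρ g := fun g => by
    have := hΦ (MonoidAlgebra.single g 1)
    simpa [L₁, L₂] using this
  obtain ⟨i, w, hw⟩ : ∃ (i : Fin 2) (w : W), Φ (Matrix.single i i 1) w ≠ 0 := by
    by_contra! hall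
    obtain ⟨w, hw⟩ := exists_ne (0 : W)
    have h1 : Φ 1 = 1 := by rw [← map_one r, hr, map_one]
    have e : (1 : Matrix (Fin 2) (Fin 2) k) = Matrix.single 0 0 1 + Matrix.single 1 1 1 := by
      ext a b
      fin_cases a <;> fin_cases b <;> simp
    have := LinearMap.congr_fun h1 w
    rw [e, map_add, LinearMap.add_apply, hall, hall, add_zero, Module.End.one_apply] at this
    exact hw this.symm
  let j : (Fin 2 → k) →ₗ[k] W :=
    { toFun := fun v => Φ (Matrix.vecMulVec v (Pi.single i 1)) w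
      map_add' := fun v v' => by
        rw [Matrix.add_vecMulVec, map_add, LinearMap.add_apply]
      map_smul' := fun c v => by
        rw [Matrix.smul_vecMulVec, map_smul, LinearMap.smul_apply, RingHom.id_apply] }
  have hj : ∀ M v, j (M *ᵥ v) = Φ M (j v) := fun M v => by
    change Φ _ w = Φ M (Φ _ w)
    rw [← Module.End.mul_apply, ← hmul, Matrix.mul_vecMulVec]
  refine ⟨j, (injective_iff_map_eq_zero j).mpr fun v hv => ?_, fun g v => by rw [hj, hr]⟩
  by_contra hv0
  obtain ⟨a, ha⟩ := Function.ne_iff.mp hv0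
  refine hw ?_
  have e : Matrix.single i a (v a)⁻¹ *ᵥ v = Pi.single i 1 := by
    ext b
    rw [Matrix.single_mulVec]
    simp [inv_mul_cancel₀ ha, Pi.single_apply, Function.update_apply]
  have := hj (Matrix.single i a (v a)⁻¹) v
  rw [hv, map_zero, e] at this
  refine Eq.trans ?_ this
  change Φ _ w = Φ _ w
  congr 2
  ext b c
  simp [Matrix.vecMulVec_apply, Matrix.single_apply, Pi.single_apply, ite_and]
  aesop

theorem sameQuadratic_pow {g : G} (h : SameQuadratic r ρ g) (m : ℕ) :
    SameQuadratic r ρ (g ^ m) := by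
  set x := ρ g
  set y := (r g).det • ρ g⁻¹
  set t := (r g).trace
  set d := (r g).det
  have hinv : x * ρ g⁻¹ = 1 := by rw [← map_mul, mul_inv_cancel, map_one]
  have hinv' : ρ g⁻¹ * x = 1 := by rw [← map_mul, inv_mul_cancel, map_one]
  have hsum : x + y = t • 1 := h
  have hxy : x * y = d • 1 := by rw [mul_smul_comm, hinv]
  have hyx : y * x = d • 1 := by rw [smul_mul_assoc, hinv']
  have hx2 : x * x = t • x - d • 1 := by
    rw [eq_sub_iff_add_eq, ← hxy, ← mul_add, hsum, mul_smul_comm, mul_one]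
  have hy2 : y * y = t • y - d • 1 := by
    rw [eq_sub_iff_add_eq, ← hyx, ← mul_add, add_comm y x, hsum, mul_smul_comm, mul_one]
  have hy : y = (r g).det • ρ g⁻¹ := rfl
  have hx : x = ρ g := rfl
  clear_value x y
  have hR2 : r g * r g = t • r g - d • 1 := by
    ext i j
    fin_cases i <;> fin_cases j <;>
      simp [t, d, Matrix.mul_apply, Matrix.trace_fin_two, Matrix.det_fin_two] <;> ring
  obtain ⟨a, b, hxm, hym, hRm⟩ : ∃ a b : k, x ^ m = a • x + b • 1 ∧ y ^ m = a • y + b • 1 ∧
      r g ^ m = a • r g + b • 1 := by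
    induction m with
    | zero => exact ⟨0, 1, by simp, by simp, by simp⟩
    | succ m ih =>
      obtain ⟨a, b, h1, h2, h3⟩ := ih
      refine ⟨a * t + b, -(a * d), ?_, ?_, ?_⟩
      · rw [pow_succ, h1, add_mul, smul_mul_assoc, smul_mul_assoc, one_mul, hx2]; module
      · rw [pow_succ, h2, add_mul, smul_mul_assoc, smul_mul_assoc, one_mul, hy2]; module
      · rw [pow_succ, h3, add_mul, smul_mul_assoc, smul_mul_assoc, one_mul, hR2]; module
  change ρ (g ^ m) + (r (g ^ m)).det • ρ (g ^ m)⁻¹ = (r (g ^ m)).trace • 1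
  rw [map_pow, map_pow, ← inv_pow, map_pow, Matrix.det_pow, ← smul_pow, ← hy, ← hx, hRm,
    Matrix.trace_add, Matrix.trace_smul, Matrix.trace_smul, Matrix.trace_one, hxm, hym]
  simp only [Fintype.card_fin, Nat.cast_ofNat, smul_eq_mul]
  linear_combination (norm := module) a • hsum

/-- It is enough to check the relation at almost all Frobenius elements. -/
theorem sameQuadratic_of_frobenius {k W : Type} [Field k] [AddCommGroup W] [Module k W]
    (r : (AlgebraicClosure ℚ ≃ₐ[ℚ] AlgebraicClosure ℚ) →* Matrix (Fin 2) (Fin 2) k)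
    (ρ : (AlgebraicClosure ℚ ≃ₐ[ℚ] AlgebraicClosure ℚ) →* Module.End k W)
    (hr : GaloisFactorsThroughFiniteLevel r) (hρ : GaloisFactorsThroughFiniteLevel ρ)
    {S : Set ℕ} (hS : S.Finite)
    (h : ∀ p : ℕ, p.Prime → p ∉ S → ∀ A : ValuationSubring (AlgebraicClosure ℚ),
      A.LiesOverPrime p → ∀ τ, A.IsFrobeniusAt τ p → SameQuadratic r ρ τ)
    (σ : AlgebraicClosure ℚ ≃ₐ[ℚ] AlgebraicClosure ℚ) : SameQuadratic r ρ σ := by
  obtain ⟨L₁, hL₁, h₁⟩ := hr
  obtain ⟨L₂, hL₂, h₂⟩ := hρ
  have := IntermediateField.finiteDimensional_sup L₁ L₂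
  obtain ⟨p, hp, hpS, A, hA, τ, hτ, m, -, hm, -⟩ :=
    GalRep.exists_isFrobeniusAt_pow_eq (L₁ ⊔ L₂) σ hS
  have hfix : ∀ x ∈ L₁ ⊔ L₂, (σ⁻¹ * τ ^ m) x = x := fun x hx => by
    rw [AlgEquiv.mul_apply, hm x hx, ← AlgEquiv.mul_apply, inv_mul_cancel, AlgEquiv.one_apply]
  have hfix' : ∀ x ∈ L₂, ((τ ^ m)⁻¹ * σ) x = x := fun x hx => by
    rw [AlgEquiv.mul_apply, ← hm x (le_sup_right (a := L₁) hx), ← AlgEquiv.mul_apply,
      inv_mul_cancel, AlgEquiv.one_apply]
  have e : τ ^ m = σ * (σ⁻¹ * τ ^ m) := by group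
  have e₁ : r (τ ^ m) = r σ := by
    rw [e, map_mul, h₁ _ fun x hx => hfix x (le_sup_left (b := L₂) hx), mul_one]
  have e₂ : ρ (τ ^ m) = ρ σ := by
    rw [e, map_mul, h₂ _ fun x hx => hfix x (le_sup_right (a := L₁) hx), mul_one]
  have e₃ : ρ (τ ^ m)⁻¹ = ρ σ⁻¹ := by
    rw [show (τ ^ m)⁻¹ = ((τ ^ m)⁻¹ * σ) * σ⁻¹ by group, map_mul, h₂ _ hfix', one_mul]
  have := sameQuadratic_pow (h p hp hpS A hA τ hτ) m
  rw [SameQuadratic, e₁, e₂, e₃] at this
  exact this

end FermatAgent.Descent3
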