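import Mathlib
import Fermat.Agent.Descent3.TwistEmbed
import Fermat.Agent.GalRep.Construct.EigenSpace
import Fermat.Agent.GalRep.Flat.Datum

set_option autoImplicit false

/-!
# A mod 3 plane inside the torsion of `J₀(N)` inherits its model over `ℤ_(3)`
-/

noncomputable section

open Matrix CuspForm

namespace FermatAgent.Descent3

local notation "Qb" => AlgebraicClosure ℚ
local notation "GQ" => AlgebraicClosure ℚ ≃ₐ[ℚ] AlgebraicClosure ℚ

variable {p : ℕ} [Fact p.Prime] {N : ℕ} [NeZero N] {S : Set ℕ}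

/-- A two-dimensional representation over `ZMod p` with absolutely irreducible image whose traces at
almost all Frobenius elements are the values of a character of the Hecke algebra has a function
model as soon as the torsion of the Tate module data has one. -/
theorem exists_functionModel (hp2 : p ≠ 2) (D : GalRep.HeckeTateData N p S)
    (hmodel : Nonempty (GalRep.Flat.FunctionModel p (Fin D.rank → ZMod (p ^ 1))
      (GalRep.Flat.levelAct D 1)))
    {K : Type} [Field K] [Finite K] [CharP K p] (χ : heckeAlgebra N 2 S →+* K)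
    (r : GQ →* Matrix (Fin 2) (Fin 2) (ZMod p)) (hr : GaloisFactorsThroughFiniteLevel r)
    (hspan : Submodule.span (ZMod p) (Set.range r) = ⊤) {S' : Set ℕ} (hS' : S'.Finite)
    (hfrob : ∀ ℓ : ℕ, ℓ.Prime → ℓ ∉ S' → ℓ ≠ p ∧ ∃ (hℓ : ℓ.Prime) (hℓN : ¬ ℓ ∣ N) (hℓS : ℓ ∉ S),
      ∀ A : ValuationSubring Qb, A.LiesOverPrime ℓ → ∀ τ : GQ, A.IsFrobeniusAt τ ℓ →
        (r τ).det = (ℓ : ZMod p) ∧
          χ (heckeAlgebra.T hℓ hℓN hℓS) = ZMod.castHom dvd_rfl K (r τ).trace) :
    Nonempty (GalRep.Flat.FunctionModel p (Fin 2 → ZMod p) (fun σ v => r σ *ᵥ v)) := by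
  obtain ⟨G₀⟩ := hmodel
  let : Algebra (ZMod p) K := ZMod.algebra K p
  let toP : ZMod (p ^ 1) →+* ZMod p := ZMod.castHom (pow_one p).symm.dvd _
  let ψ : ℤ_[p] →+* K := (algebraMap (ZMod p) K).comp (toP.comp (PadicInt.toZModPow 1))
  have hψp : ψ (p : ℤ_[p]) = 0 := by rw [map_natCast]; exact CharP.cast_eq_zero K p
  let M : heckeAlgebra N 2 S →+* Matrix (Fin D.rank) (Fin D.rank) K :=
    ψ.mapMatrix.comp (GalRep.hecMat D)
  obtain ⟨v, hv0, hv⟩ := GalRep.exists_common_eigenvector D.ι D.ι_injective χ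
  have hM : ∀ t, M t = (D.ι t).map (Int.cast : ℤ → K) := fun t => by
    ext i j; simp [M, GalRep.hecMat_apply]
  let W : Submodule (ZMod p) (Fin D.rank → K) :=
    { carrier := {w | ∀ t, M t *ᵥ w = χ t • w}
      zero_mem' := fun t => by simp
      add_mem' := fun {a b} ha hb t => by rw [Matrix.mulVec_add, ha t, hb t, smul_add]
      smul_mem' := fun c a ha t => by rw [Matrix.mulVec_smul, ha t, smul_comm] }
  have hvW : v ∈ W := fun t => by rw [hM]; exact hv t
  have : Nontrivial W := ⟨⟨⟨v, hvW⟩, 0, fun h => hv0 (congrArg Subtype.val h)⟩⟩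
  have hinv : ∀ σ, ∀ w ∈ W, ψ.mapMatrix (D.ρ σ) *ᵥ w ∈ W := fun σ w hw t => by
    rw [Matrix.mulVec_mulVec, show M t * ψ.mapMatrix (D.ρ σ) = ψ.mapMatrix (D.ρ σ) * M t by
      simp only [M, RingHom.comp_apply, ← map_mul]
      exact congrArg _ (D.comm σ t).symm.eq, ← Matrix.mulVec_mulVec, hw t, Matrix.mulVec_smul]
  let ρW : GQ →* Module.End (ZMod p) W :=
    { toFun := fun σ =>
        { toFun := fun w => ⟨ψ.mapMatrix (D.ρ σ) *ᵥ (w : Fin D.rank → K), hinv σ w w.2⟩
          map_add' := fun a b => Subtype.ext (Matrix.mulVec_add (ψ.mapMatrix (D.ρ σ)) (a : Fin D.rank → K) b)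
          map_smul' := fun c a => Subtype.ext (Matrix.mulVec_smul (ψ.mapMatrix (D.ρ σ)) c (a : Fin D.rank → K)) }
      map_one' := LinearMap.ext fun w => Subtype.ext (by
        show ψ.mapMatrix (D.ρ 1) *ᵥ (w : Fin D.rank → K) = w
        rw [map_one, map_one, Matrix.one_mulVec])
      map_mul' := fun σ τ => LinearMap.ext fun w => Subtype.ext (by
        show ψ.mapMatrix (D.ρ (σ * τ)) *ᵥ (w : Fin D.rank → K) =
          ψ.mapMatrix (D.ρ σ) *ᵥ (ψ.mapMatrix (D.ρ τ) *ᵥ (w : Fin D.rank → K))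
        rw [map_mul, map_mul, Matrix.mulVec_mulVec]) }
  have hlev : GaloisFactorsThroughFiniteLevel ρW := by
    obtain ⟨L, hL, hLc⟩ := D.continuous 1
    refine ⟨L, hL, fun σ hσ => LinearMap.ext fun w => Subtype.ext ?_⟩
    show ψ.mapMatrix (D.ρ σ) *ᵥ (w : Fin D.rank → K) = w
    have : ψ.mapMatrix (D.ρ σ) = ψ.mapMatrix 1 := by
      rw [← sub_eq_zero, ← map_sub]
      ext i j
      obtain ⟨c, hc⟩ := hLc σ hσ i j
      rw [RingHom.mapMatrix_apply, Matrix.map_apply, hc, pow_one, map_mul, hψp, zero_mul,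
        Matrix.zero_apply]
    rw [this, map_one, Matrix.one_mulVec]
  have hquad : ∀ σ, SameQuadratic r ρW σ := by
    refine sameQuadratic_of_frobenius r ρW hr hlev hS' fun ℓ hℓ hℓS' A hA τ hτ => ?_
    obtain ⟨hℓp, _, hℓN, hℓS, h⟩ := hfrob ℓ hℓ hℓS'
    obtain ⟨hdet, htr⟩ := h A hA τ hτ
    refine LinearMap.ext fun w => Subtype.ext ?_
    have hx := congrArg ψ.mapMatrix (GalRep.xMat_frobenius_pow D hℓ hℓN hℓS hℓp hA hτ 1)
    rw [pow_one, GalRep.powTrace, GalRep.xMat, GalRep.cycChar_frobenius p hℓ hℓp hA hτ] at hx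
    have hs : ∀ (n : ℕ) (u : Fin D.rank → K), (n : ZMod p) • u = (n : K) • u := fun n u => by
      rw [← map_natCast (algebraMap (ZMod p) K) n, algebraMap_smul]
    show ψ.mapMatrix (D.ρ τ) *ᵥ (w : Fin D.rank → K) +
      (r τ).det • (ψ.mapMatrix (D.ρ τ⁻¹) *ᵥ (w : Fin D.rank → K)) =
        (r τ).trace • (w : Fin D.rank → K)
    rw [hdet, hs, ← algebraMap_smul K (r τ).trace,
      show algebraMap (ZMod p) K (r τ).trace = χ (heckeAlgebra.T hℓ hℓN hℓS) from htr.symm]
    rw [← Matrix.smul_mulVec, ← Matrix.add_mulVec, ← w.2 (heckeAlgebra.T hℓ hℓN hℓS)]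
    congr 1
    rw [show M (heckeAlgebra.T hℓ hℓN hℓS) =
      ψ.mapMatrix (GalRep.hecMat D (heckeAlgebra.T hℓ hℓN hℓS)) from rfl, ← hx, map_add]
    congr 1
    ext i j
    simp
  have h2 : (2 : ZMod p) ≠ 0 := fun h => by
    rw [show (2 : ZMod p) = ((2 : ℕ) : ZMod p) from rfl, ZMod.natCast_eq_zero_iff] at h
    exact hp2 ((Nat.prime_dvd_prime_iff_eq Fact.out Nat.prime_two).1 h)
  obtain ⟨j, hj, hjeq⟩ := exists_equivariant_embedding h2 hspan hquad
  let b := Module.finBasis (ZMod p) K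
  let toPow : ZMod p →+* ZMod (p ^ 1) := ZMod.castHom (pow_one p).dvd _
  have hcomp : ∀ x, toPow (toP x) = x := fun x => by
    obtain ⟨m, rfl⟩ := ZMod.intCast_surjective x
    simp
  have hcomp' : ∀ x, toP (toPow x) = x := fun x => by
    obtain ⟨m, rfl⟩ := ZMod.intCast_surjective x
    simp
  let E : (Fin 2 → ZMod p) →+ (Fin (Module.finrank (ZMod p) K) → Fin D.rank → ZMod (p ^ 1)) :=
    AddMonoidHom.mk' (fun u i a => toPow (b.repr ((j u : Fin D.rank → K) a) i)) fun u u' => by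
      funext i a
      simp only [map_add, Submodule.coe_add, Pi.add_apply, Finsupp.coe_add]
  refine ⟨(G₀.pow (Fin (Module.finrank (ZMod p) K))).restrict _ E (fun u u' huu' => hj ?_)
    fun σ u => ?_⟩
  · refine Subtype.ext (funext fun a => b.repr.injective (Finsupp.ext fun i => ?_))
    have := congrArg toP (congrFun (congrFun huu' i) a)
    simpa [E, hcomp'] using this
  · funext i a
    show toPow (b.repr ((j (r σ *ᵥ u) : Fin D.rank → K) a) i) =
      ((PadicInt.toZModPow 1).mapMatrix (D.ρ σ) *ᵥ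
        fun c => toPow (b.repr ((j u : Fin D.rank → K) c) i)) a
    rw [hjeq]
    show toPow (b.repr ((ψ.mapMatrix (D.ρ σ) *ᵥ (j u : Fin D.rank → K)) a) i) = _
    simp only [Matrix.mulVec, dotProduct, RingHom.mapMatrix_apply, Matrix.map_apply]
    rw [map_sum, Finsupp.coe_finsetSum, Finset.sum_apply, map_sum]
    refine Finset.sum_congr rfl fun c _ => ?_
    rw [show ψ (D.ρ σ a c) = algebraMap (ZMod p) K (toP (PadicInt.toZModPow 1 (D.ρ σ a c))) from rfl,
      ← Algebra.smul_def, map_smul, Finsupp.smul_apply, smul_eq_mul, map_mul, hcomp]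

end FermatAgent.Descent3
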