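import Mathlib
import Fermat.Agent.Descent3.Step
import Fermat.Agent.Periods.WeightTwo
import Fermat.Agent.ModCurve.Group.Homology
import Fermat.Agent.ModCurve.Forms.Genus
import Fermat.Prelude.Thm_CuspForm_heckeTLin_comm
import Fermat.Agent.ModCurve.Forms.PeriodPairInjective

set_option autoImplicit false

/-!
# Hecke operators on the homology lattice, and the algebra they generate
-/

open CongruenceSubgroup
open scoped MatrixGroups

namespace FermatAgent.Descent3

variable (N : ℕ) [NeZero N]

/-- The homology lattice of `X₀(N)`. -/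
abbrev HLat := ModCurveGroup.HomologyLattice (Gamma0 N)

/-- The projection to the homology lattice. -/
noncomputable abbrev hProj : Additive (Gamma0 N) →+ HLat N := ModCurveGroup.homProj (Gamma0 N)

omit [NeZero N] in
theorem killsEP_heckeHomT {p : ℕ} (hp : p.Prime) (hpN : ¬ p ∣ N) :
    ModCurveGroup.KillsEP (Gamma0 N) (Periods.heckeHomT ℤ N hp hpN (hProj N)) := by
  have h := Periods.heckeHomT_mem_parabolicHoms (R := ℤ) N hp hpN (φ := hProj N)
    ((ModCurveGroup.killsEP_iff_isParabolicHom _ _).mp (ModCurveGroup.killsEP_homProj _))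
  exact (ModCurveGroup.killsEP_iff_isParabolicHom _ _).mpr h

/-- `T_p` on the homology lattice. -/
noncomputable def homT {p : ℕ} (hp : p.Prime) (hpN : ¬ p ∣ N) : Module.End ℤ (HLat N) :=
  (ModCurveGroup.homProjLift (Gamma0 N) (killsEP_heckeHomT N hp hpN)).toIntLinearMap

/-- Every transfer factors through `T_p` on homology. -/
theorem heckeHomT_comp {R A : Type*} [Semiring R] [AddCommGroup A] [Module R A] {p : ℕ}
    (hp : p.Prime) (hpN : ¬ p ∣ N) (u : HLat N →+ A) :
    Periods.heckeHomT R N hp hpN (u.comp (hProj N)) =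
      (u.comp (homT N hp hpN).toAddMonoidHom).comp (hProj N) := by
  have : NeZero p := ⟨hp.ne_zero⟩
  refine AddMonoidHom.ext fun x => ?_
  change ∑ i, u (hProj N (Additive.ofMul ((Periods.tCorr N hp hpN).move (Additive.toMul x) i))) =
    u (ModCurveGroup.homProjLift (Gamma0 N) (killsEP_heckeHomT N hp hpN) (hProj N x))
  rw [ModCurveGroup.homProjLift_homProj, ← map_sum]
  rfl

theorem exists_periodHomPair_eq (u : HLat N →+ ℂ) :
    ∃ x : CuspForm (Gamma0 N) 2 × CuspForm (Gamma0 N) 2,
      ModularCurve.periodHomPair N x = u.comp (hProj N) := by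
  have h : u.comp (hProj N) ∈ ModularCurve.Period.parabolicHoms ℂ (Gamma0 N) ℂ :=
    (ModCurveGroup.killsEP_iff_isParabolicHom _ _).mp (ModCurveGroup.killsEP_comp_homProj _ u)
  rw [← ModCurve.Forms.range_periodHomPair N] at h
  exact h

theorem eq_of_comp_hProj {A : Type*} [AddCommGroup A] {u v : HLat N →+ A}
    (h : u.comp (hProj N) = v.comp (hProj N)) : u = v :=
  ModCurveGroup.homHomologyLattice_ext _ fun γ => DFunLike.congr_fun h γ

theorem eq_zero_of_forall_hom {v : HLat N} (h : ∀ u : HLat N →+ ℂ, u v = 0) : v = 0 := by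
  set b := Module.Free.chooseBasis ℤ (HLat N)
  refine b.ext_elem fun i => ?_
  have := h ((Int.castAddHom ℂ).comp (b.coord i).toAddMonoidHom)
  simpa using this

theorem homT_comm {p q : ℕ} (hp : p.Prime) (hpN : ¬ p ∣ N) (hq : q.Prime) (hqN : ¬ q ∣ N) :
    Commute (homT N hp hpN) (homT N hq hqN) := by
  refine LinearMap.ext fun v => ?_
  rw [Module.End.mul_apply, Module.End.mul_apply, ← sub_eq_zero]
  refine eq_zero_of_forall_hom N fun u => ?_
  obtain ⟨⟨f, g⟩, hfg⟩ := exists_periodHomPair_eq N u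
  have key : ∀ {p q : ℕ} (hp : p.Prime) (hpN : ¬ p ∣ N) (hq : q.Prime) (hqN : ¬ q ∣ N),
      ((u.comp (homT N hp hpN).toAddMonoidHom).comp (homT N hq hqN).toAddMonoidHom).comp (hProj N) =
        ModularCurve.periodHomPair N
          (CuspForm.heckeTLin 2 hq hqN (CuspForm.heckeTLin 2 hp hpN f),
            CuspForm.heckeTLin 2 hq hqN (CuspForm.heckeTLin 2 hp hpN g)) := by
    intro p q hp hpN hq hqN
    rw [Periods.periodHomPair_heckeTLin, Periods.periodHomPair_heckeTLin, hfg, heckeHomT_comp,
      heckeHomT_comp]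
  have hcomm : ∀ x, CuspForm.heckeTLin 2 hq hqN (CuspForm.heckeTLin 2 hp hpN x) =
      CuspForm.heckeTLin 2 hp hpN (CuspForm.heckeTLin 2 hq hqN x) := fun x =>
    LinearMap.congr_fun (CuspForm.heckeTLin_comm 2 hq hqN hp hpN).eq x
  have h := key hp hpN hq hqN
  rw [hcomm, hcomm, ← key hq hqN hp hpN] at h
  rw [map_sub, sub_eq_zero]
  exact DFunLike.congr_fun (eq_of_comp_hProj N h) v

/-- The generators of the anemic Hecke algebra on homology. -/
def homGenerators : Set (Module.End ℤ (HLat N)) :=
  {t | ∃ (p : ℕ) (hp : p.Prime) (hpN : ¬ p ∣ N), t = homT N hp hpN}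

/-- The anemic Hecke algebra on homology. -/
abbrev homAlgebra : Subalgebra ℤ (Module.End ℤ (HLat N)) := Algebra.adjoin ℤ (homGenerators N)

instance homAlgebra_isMulCommutative : IsMulCommutative (homAlgebra N) :=
  Algebra.isMulCommutative_adjoin ℤ fun t ht t' ht' => by
    obtain ⟨p, hp, hpN, rfl⟩ := ht
    obtain ⟨q, hq, hqN, rfl⟩ := ht'
    exact homT_comm N hp hpN hq hqN

open scoped IsMulCommutative in
noncomputable instance homAlgebra_commRing : CommRing (homAlgebra N) := inferInstance

instance homAlgebra_finite : Module.Finite ℤ (homAlgebra N) :=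
  Module.IsNoetherian.finite ℤ (Subalgebra.toSubmodule (homAlgebra N))

/-- The element `T_p` of the algebra. -/
noncomputable def algT {p : ℕ} (hp : p.Prime) (hpN : ¬ p ∣ N) : homAlgebra N :=
  ⟨homT N hp hpN, Algebra.subset_adjoin ⟨p, hp, hpN, rfl⟩⟩

end FermatAgent.Descent3
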