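import Mathlib
import Fermat.Agent.Descent3.Descend
import Fermat.Agent.DSLift.Eigenform
import Fermat.Agent.Periods.WeightTwo
import Fermat.Agent.ModCurve.Group.Homology

set_option autoImplicit false

/-!
# A mod 3 eigencharacter attached to an eigenform, and its descent to level `3 N'`

The periods of an eigenform span a lattice stable under the ring of its eigenvalues; reducing modulo
a maximal ideal gives a nonzero eigencharacter of `Γ₀(M)` with the reduced eigenvalues.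
-/

open CongruenceSubgroup ModularFormClass
open scoped MatrixGroups

namespace FermatAgent.Descent3

local notation "ℤbar" => integralClosure ℤ ℂ

/-- The period characters of a cusp form take values in a finitely generated group. -/
theorem fg_range_periodMap {M : ℕ} [NeZero M] (f : CuspForm (Gamma0 M) 2) :
    (ModularCurve.periodMap M f).range.toIntSubmodule.FG := by
  have hk : ModCurveGroup.KillsEP (Gamma0 M) (ModularCurve.periodMap M f) :=
    (ModCurveGroup.killsEP_iff_isParabolicHom _ _).mpr (Periods.periodMap_mem_parabolicHoms f)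
  set l := ModCurveGroup.homProjLift (Gamma0 M) hk
  have : (ModularCurve.periodMap M f).range.toIntSubmodule = LinearMap.range l.toIntLinearMap := by
    ext x
    constructor
    · rintro ⟨γ, rfl⟩
      exact ⟨ModCurveGroup.homProj _ γ, ModCurveGroup.homProjLift_homProj _ hk γ⟩
    · rintro ⟨v, rfl⟩
      obtain ⟨γ, rfl⟩ := ModCurveGroup.homProj_surjective _ v
      exact ⟨γ, (ModCurveGroup.homProjLift_homProj _ hk γ).symm⟩
  rw [this, LinearMap.range_eq_map]
  exact Module.Finite.fg_top.map _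

/-- The scalars preserving a lattice. -/
def stabiliser (Λ : Submodule ℤ ℂ) : Subalgebra ℤ ℂ where
  carrier := {x | ∀ v ∈ Λ, x * v ∈ Λ}
  mul_mem' {x y} hx hy v hv := by rw [mul_assoc]; exact hx _ (hy _ hv)
  one_mem' v hv := by rwa [one_mul]
  add_mem' {x y} hx hy v hv := by rw [add_mul]; exact add_mem (hx _ hv) (hy _ hv)
  zero_mem' v _ := by rw [zero_mul]; exact zero_mem _
  algebraMap_mem' n v hv := by
    rw [eq_intCast, ← zsmul_eq_mul]; exact Λ.smul_mem n hv

variable (Λ : Submodule ℤ ℂ)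

/-- A lattice as a module over its stabiliser. -/
def overStabiliser : Submodule (stabiliser Λ) ℂ where
  carrier := Λ
  add_mem' := Λ.add_mem
  zero_mem' := Λ.zero_mem
  smul_mem' x v hv := x.2 v hv

theorem mem_overStabiliser {v : ℂ} : v ∈ overStabiliser Λ ↔ v ∈ Λ := Iff.rfl

variable {Λ}

theorem exists_lattice_functional (hfg : Λ.FG) (hne : Λ ≠ ⊥) (𝔪 : Ideal ℤbar) [𝔪.IsMaximal]
    (h3 : ((3 : ℕ) : ℤbar) ∈ 𝔪) :
    ∃ u : Λ →+ ℤbar ⧸ 𝔪, u ≠ 0 ∧ ∀ (x : ℂ), (∀ v ∈ Λ, x * v ∈ Λ) →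
      ∃ hx : IsIntegral ℤ x, ∀ (v w : Λ), (w : ℂ) = x * v →
        u w = Ideal.Quotient.mk 𝔪 ⟨x, hx⟩ * u v := by
  set R := stabiliser Λ
  obtain ⟨v₀, hv₀, hv₀0⟩ := Submodule.exists_mem_ne_zero_of_ne_bot hne
  have hint : ∀ x ∈ R, IsIntegral ℤ x := fun x hx =>
    isIntegral_of_smul_mem_submodule Λ (by
      refine fun h => hne ?_
      exact h) hfg x hx
  let incl : R →+* ℤbar :=
    R.val.toRingHom.codRestrict (integralClosure ℤ ℂ).toSubring fun x => hint x x.2
  have hfin : Module.Finite ℤ R := by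
    have : Module.Finite ℤ Λ := Module.Finite.of_fg hfg
    let e : R →ₗ[ℤ] Λ :=
      { toFun := fun x => ⟨(x : ℂ) * v₀, x.2 v₀ hv₀⟩
        map_add' := fun x y => Subtype.ext (add_mul (x : ℂ) y v₀)
        map_smul' := fun n x => Subtype.ext (by simp [mul_assoc]) }
    refine Module.Finite.of_injective e fun x y h => Subtype.ext ?_
    exact mul_right_cancel₀ hv₀0 (congrArg Subtype.val h)
  set m := 𝔪.comap incl
  have hm : m.IsMaximal := by
    have : m.IsPrime := Ideal.comap_isPrime incl 𝔪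
    have h3m : ((3 : ℕ) : R ⧸ m) = 0 := by
      rw [← map_natCast (Ideal.Quotient.mk m), Ideal.Quotient.eq_zero_iff_mem, Ideal.mem_comap,
        map_natCast]
      exact h3
    have : Finite (R ⧸ m) := by
      have : Module.Finite ℤ (R ⧸ m) :=
        Module.Finite.of_surjective ((Ideal.Quotient.mkₐ ℤ m).toLinearMap)
          (Ideal.Quotient.mkₐ_surjective ℤ m)
      refine Module.finite_of_fg_torsion _ (fun x => ?_)
      refine ⟨⟨3, by simp⟩, ?_⟩
      rw [Submonoid.mk_smul, zsmul_eq_mul]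
      simpa using mul_eq_zero_of_left h3m x
    exact Ideal.Quotient.maximal_of_isField _ (Finite.isField_of_domain _)
  let : Field (R ⧸ m) := Ideal.Quotient.field m
  set P := overStabiliser Λ
  have hPfg : P.FG := by
    obtain ⟨s, hs⟩ := hfg
    refine ⟨s, le_antisymm ?_ ?_⟩
    · rw [Submodule.span_le]
      intro v hv
      exact (mem_overStabiliser Λ).mpr (hs ▸ Submodule.subset_span hv)
    · intro v hv
      have : v ∈ Submodule.span ℤ (s : Set ℂ) := by rw [hs]; exact hv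
      exact Submodule.span_le_restrictScalars ℤ R (s : Set ℂ) this
  have hlt : m • (⊤ : Submodule R P) ≠ ⊤ := by
    intro h
    obtain ⟨r, hr, hr0⟩ := Submodule.exists_sub_one_mem_and_smul_eq_zero_of_fg_of_le_smul m
      (⊤ : Submodule R P) ((Submodule.fg_top P).mpr hPfg) h.ge
    have h0 := congrArg Subtype.val (hr0 ⟨v₀, (mem_overStabiliser Λ).mpr hv₀⟩ Submodule.mem_top)
    change (r : ℂ) * v₀ = 0 at h0
    have : r = 0 := Subtype.ext ((mul_eq_zero.mp h0).resolve_right hv₀0)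
    rw [this, zero_sub, neg_mem_iff] at hr
    exact hm.ne_top ((Ideal.eq_top_iff_one _).mpr hr)
  obtain ⟨p₀, hp₀⟩ : ∃ p₀ : P, Submodule.Quotient.mk (p := m • (⊤ : Submodule R P)) p₀ ≠ 0 := by
    by_contra! h
    exact hlt (eq_top_iff.mpr fun p _ => (Submodule.Quotient.mk_eq_zero _).mp (h p))
  obtain ⟨φ, hφ⟩ := Module.Projective.exists_dual_ne_zero (R ⧸ m) hp₀
  let toK : R ⧸ m →+* ℤbar ⧸ 𝔪 := Ideal.quotientMap 𝔪 incl le_rfl
  let u : Λ →+ ℤbar ⧸ 𝔪 :=
    { toFun := fun v => toK (φ (Submodule.Quotient.mk (⟨v, v.2⟩ : P)))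
      map_zero' := by
        rw [show (⟨((0 : Λ) : ℂ), (0 : Λ).2⟩ : P) = 0 from rfl, Submodule.Quotient.mk_zero,
          map_zero, map_zero]
      map_add' := fun v w => by
        rw [show (⟨((v + w : Λ) : ℂ), (v + w).2⟩ : P) = ⟨v, v.2⟩ + ⟨w, w.2⟩ from rfl,
          Submodule.Quotient.mk_add, map_add, map_add] }
  refine ⟨u, fun h => hφ ?_, fun x hx => ⟨hint x hx, fun v w hw => ?_⟩⟩
  · refine RingHom.injective toK ?_
    rw [map_zero]
    exact DFunLike.congr_fun h ⟨(p₀ : ℂ), p₀.2⟩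
  · set r : R := ⟨x, hx⟩
    have e : (⟨(w : ℂ), w.2⟩ : P) = r • ⟨v, v.2⟩ := Subtype.ext hw
    change toK (φ (Submodule.Quotient.mk _)) = _ * toK (φ (Submodule.Quotient.mk _))
    rw [e, Submodule.Quotient.mk_smul]
    have : ∀ y : P ⧸ m • (⊤ : Submodule R P), r • y = (Ideal.Quotient.mk m r) • y := fun y => rfl
    rw [this, map_smul, smul_eq_mul, map_mul]
    rfl

/-- The nonzero mod `𝔪` eigencharacter of an eigenform. -/
theorem exists_eigenHom_of_form {M : ℕ} [NeZero M] {f : CuspForm (Gamma0 M) 2}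
    (hf : f.IsNormalizedEigenform) (𝔪 : Ideal ℤbar) [𝔪.IsMaximal]
    (h3 : ((3 : ℕ) : ℤbar) ∈ 𝔪) :
    ∃ (ψ : Additive (Gamma0 M) →+ ℤbar ⧸ 𝔪) (a : ℕ → ℤbar), ψ ≠ 0 ∧
      ∀ (ℓ : ℕ) (hℓ : ℓ.Prime) (hℓM : ¬ ℓ ∣ M), (a ℓ : ℂ) = qCoeff f ℓ ∧
        ∀ x, Periods.heckeHomT ℤ M hℓ hℓM ψ x = Ideal.Quotient.mk 𝔪 (a ℓ) * ψ x := by
  classical
  have he := DSLift.isPrimeEigen_of_isNormalizedEigenform hf
  set pm := ModularCurve.periodMap M f
  set Λ := pm.range.toIntSubmodule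
  have hmem : ∀ γ, pm γ ∈ Λ := fun γ => ⟨γ, rfl⟩
  have hne : Λ ≠ ⊥ := fun h => by
    have hpm : pm = ModularCurve.periodMap M 0 := by
      rw [show ModularCurve.periodMap M 0 = Periods.periodMapLin M 0 from rfl, map_zero]
      exact AddMonoidHom.ext fun γ => (Submodule.mem_bot ℤ).mp (h ▸ hmem γ)
    have h1 := hf.qCoeff_one
    rw [Periods.periodMap_injective M hpm] at h1
    simp [qCoeff, UpperHalfPlane.qExpansion_zero] at h1
  obtain ⟨u, hu, hum⟩ := exists_lattice_functional (fg_range_periodMap f) hne 𝔪 h3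
  let pm' : Additive (Gamma0 M) →+ Λ := pm.codRestrict Λ.toAddSubgroup hmem
  have hsurj : Function.Surjective pm' := fun ⟨v, γ, hγ⟩ => ⟨γ, Subtype.ext hγ⟩
  let a : ℕ → ℤbar := fun ℓ =>
    if h : IsIntegral ℤ (qCoeff f ℓ) then ⟨qCoeff f ℓ, h⟩ else 0
  refine ⟨u.comp pm', a, fun h => hu (AddMonoidHom.ext fun v => ?_), fun ℓ hℓ hℓM => ?_⟩
  · obtain ⟨γ, rfl⟩ := hsurj v
    exact DFunLike.congr_fun h γ
  have : NeZero ℓ := ⟨hℓ.ne_zero⟩
  have key : ∀ γ : Gamma0 M,
      ∑ i, pm (Additive.ofMul ((Periods.tCorr M hℓ hℓM).move γ i)) =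
        qCoeff f ℓ * pm (Additive.ofMul γ) := fun γ => by
    have e : Periods.heckeHomT ℂ M hℓ hℓM pm = qCoeff f ℓ • pm := by
      rw [← Periods.periodMap_heckeTLin hℓ hℓM f, he.1 ℓ hℓ hℓM]
      exact map_smul (Periods.periodMapLin M) _ _
    exact DFunLike.congr_fun e (Additive.ofMul γ)
  have hstab : ∀ v ∈ Λ, qCoeff f ℓ * v ∈ Λ := by
    rintro _ ⟨x, rfl⟩
    obtain ⟨γ, rfl⟩ : ∃ γ, Additive.ofMul γ = x := ⟨Additive.toMul x, rfl⟩
    rw [← key γ]
    exact Submodule.sum_mem _ fun i _ => hmem _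
  obtain ⟨hint, hscale⟩ := hum _ hstab
  have ha : a ℓ = ⟨qCoeff f ℓ, hint⟩ := dif_pos hint
  refine ⟨by rw [ha], fun x => ?_⟩
  obtain ⟨γ, rfl⟩ : ∃ γ, Additive.ofMul γ = x := ⟨Additive.toMul x, rfl⟩
  change ∑ i, u (pm' (Additive.ofMul ((Periods.tCorr M hℓ hℓM).move γ i))) =
    Ideal.Quotient.mk 𝔪 (a ℓ) * u (pm' (Additive.ofMul γ))
  rw [ha, ← map_sum]
  exact hscale (pm' (Additive.ofMul γ)) _ (by rw [AddSubmonoidClass.coe_finsetSum]; exact key γ)

end FermatAgent.Descent3
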