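import Mathlib
import Fermat.Agent.Descent3.Reduction

set_option autoImplicit false

/-!
# Descending a mod 3 eigencharacter from `Γ₀(3 ^ r N')` to `Γ₀(3 N')`
-/

open CongruenceSubgroup
open scoped MatrixGroups

namespace FermatAgent.Descent3

variable {K : Type*} [Field K] [CharP K 3] {S : Set ℕ} {a b : ℕ → K}

omit [CharP K 3] in
theorem IsEigenHom.congr {N : ℕ} {ψ : Additive (Gamma0 N) →+ K} (h : IsEigenHom N S a ψ)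
    (hab : ∀ ℓ ∈ S, ℓ.Prime → ¬ ℓ ∣ N → a ℓ = b ℓ) : IsEigenHom N S b ψ :=
  fun ℓ hℓS hℓ hℓN => by rw [h ℓ hℓS hℓ hℓN, hab ℓ hℓS hℓ hℓN]

/-- Iterated descent. -/
theorem exists_descended_pow {N : ℕ} [NeZero N] (r : ℕ) :
    ∀ {a : ℕ → K} {ψ : Additive (Gamma0 (3 ^ (r + 1) * N)) →+ K} {ℓ₀ : ℕ}, ψ ≠ 0 →
      IsEigenHom (3 ^ (r + 1) * N) S a ψ → IsWitness (3 ^ (r + 1) * N) S a ℓ₀ →
      ∃ (k : ℕ) (χ : Additive (Gamma0 (3 * N)) →+ K), χ ≠ 0 ∧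
        IsEigenHom (3 * N) S (fun ℓ => (ℓ : K) ^ k * a ℓ) χ ∧
        IsWitness (3 * N) S (fun ℓ => (ℓ : K) ^ k * a ℓ) ℓ₀ := by
  induction r with
  | zero =>
    intro a ψ ℓ₀ hψ he hw
    revert ψ hψ he hw
    rw [zero_add, pow_one]
    intro ψ hψ he hw
    exact ⟨0, ψ, hψ, he.congr fun ℓ _ _ _ => by simp,
      ⟨hw.1, hw.2.1, hw.2.2.1, hw.2.2.2.1, by simpa using hw.2.2.2.2⟩⟩
  | succ r ih =>
    intro a ψ ℓ₀ hψ he hw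
    revert ψ hψ he hw
    rw [show 3 ^ (r + 1 + 1) * N = 3 * (3 ^ (r + 1) * N) by ring]
    intro ψ hψ he hw
    have : NeZero (3 ^ (r + 1) * N) := ⟨by simp [NeZero.ne N]⟩
    obtain ⟨k, χ, hχ, hce, hcw⟩ := exists_descended
      (dvd_mul_of_dvd_left (dvd_pow_self 3 r.succ_ne_zero) N) hψ he hw
    obtain ⟨j, χ', hχ', he', hw'⟩ := ih hχ hce hcw
    have e : (fun ℓ : ℕ => (ℓ : K) ^ (j + k) * a ℓ) = fun ℓ : ℕ => (ℓ : K) ^ j * ((ℓ : K) ^ k * a ℓ) :=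
      funext fun ℓ => by rw [pow_add, mul_assoc]
    exact ⟨j + k, χ', hχ', e ▸ he', e ▸ hw'⟩

end FermatAgent.Descent3
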