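import Mathlib
import Fermat.Agent.Descent3.HomologyHecke
import Fermat.Agent.DSLift.Eigenvector
import Fermat.Agent.DSLift.Eigenform
import Fermat.Agent.ModCurve.Forms.Genus

set_option autoImplicit false

/-!
# Lifting a non-Eisenstein mod 3 eigencharacter of `Γ₀(N)` to a normalized eigenform of level `N`
-/

open CongruenceSubgroup ModularFormClass
open scoped MatrixGroups

namespace FermatAgent.Descent3

local notation "ℤbar" => integralClosure ℤ ℂ

/-- A characteristic zero lift of a character with values in a field of characteristic `3`. -/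
theorem exists_lift_of_character {T K : Type*} [CommRing T] [IsAddTorsionFree T]
    [Module.Finite ℤ T] [Nontrivial T] [Field K] [CharP K 3] (θ : T →+* K) :
    ∃ (χ : T →+* ℤbar) (𝔪 : Ideal ℤbar), 𝔪.IsMaximal ∧ ((3 : ℕ) : ℤbar) ∈ 𝔪 ∧
      ∀ t, θ t = 0 → χ t ∈ 𝔪 := by
  have : (RingHom.ker θ).IsPrime := RingHom.ker_isPrime θ
  obtain ⟨P, hPmin, hPle⟩ := Ideal.exists_minimalPrimes_le (bot_le : (⊥ : Ideal T) ≤ RingHom.ker θ)
  have : P.IsPrime := hPmin.isPrime
  have hinj : Function.Injective (algebraMap ℤ (T ⧸ P)) := by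
    refine (injective_iff_map_eq_zero _).mpr fun n hn => by_contra fun hn0 => ?_
    rw [IsScalarTower.algebraMap_apply ℤ T (T ⧸ P), Ideal.Quotient.algebraMap_eq,
      Ideal.Quotient.eq_zero_iff_mem] at hn
    refine Set.disjoint_left.mp (Ideal.disjoint_nonZeroDivisors_of_mem_minimalPrimes hPmin) hn ?_
    refine mem_nonZeroDivisors_iff_right.mpr fun x hx => ?_
    rw [eq_intCast, mul_comm, ← zsmul_eq_mul] at hx
    exact (smul_eq_zero.mp hx).resolve_left hn0
  have : FaithfulSMul ℤ (T ⧸ P) := (faithfulSMul_iff_algebraMap_injective ℤ (T ⧸ P)).mpr hinj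
  have : Module.IsTorsionFree ℤ (T ⧸ P) :=
    Module.IsTorsionFree.trans_faithfulSMul ℤ (T ⧸ P) (T ⧸ P)
  have : Algebra.IsAlgebraic ℤ (T ⧸ P) := inferInstance
  let φ : T ⧸ P →ₐ[ℤ] ℂ := IsAlgClosed.lift
  let ψ : T →ₐ[ℤ] ℂ := φ.comp (Ideal.Quotient.mkₐ ℤ P)
  let χ : T →ₐ[ℤ] ℤbar :=
    ψ.codRestrict _ fun t => (Algebra.IsIntegral.isIntegral t).map ψ
  have hφ : Function.Injective φ := by
    refine (injective_iff_map_eq_zero φ).mpr fun y hy => ?_
    have hker : RingHom.ker φ.toRingHom = ⊥ := by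
      refine Ideal.eq_bot_of_comap_eq_bot (R := ℤ) ?_
      rw [eq_bot_iff]
      intro n hn
      simp only [Ideal.mem_comap, RingHom.mem_ker, AlgHom.toRingHom_eq_coe,
        eq_intCast, map_intCast, Int.cast_eq_zero] at hn
      exact hn
    have : y ∈ RingHom.ker φ.toRingHom := hy
    rwa [hker, Ideal.mem_bot] at this
  let : Algebra T ℤbar := χ.toRingHom.toAlgebra
  have : IsScalarTower ℤ T ℤbar := IsScalarTower.of_algHom χ
  have : Algebra.IsIntegral T ℤbar := Algebra.IsIntegral.tower_top (R := ℤ)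
  have h3θ : θ ((3 : ℕ) : T) = 0 := by rw [map_natCast, CharP.cast_eq_zero]
  have hmax : (RingHom.ker θ).IsMaximal := by
    have : Finite (T ⧸ RingHom.ker θ) := by
      have : Module.Finite ℤ (T ⧸ RingHom.ker θ) :=
        Module.Finite.of_surjective ((Ideal.Quotient.mkₐ ℤ (RingHom.ker θ)).toLinearMap)
          (Ideal.Quotient.mkₐ_surjective ℤ _)
      refine Module.finite_of_fg_torsion _ fun x => ⟨⟨3, by simp⟩, ?_⟩
      rw [Submonoid.mk_smul, zsmul_eq_mul]
      have : ((3 : ℕ) : T ⧸ RingHom.ker θ) = 0 := by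
        rw [← map_natCast (Ideal.Quotient.mk _), Ideal.Quotient.eq_zero_iff_mem]
        exact h3θ
      simpa using mul_eq_zero_of_left this x
    exact Ideal.Quotient.maximal_of_isField _ (Finite.isField_of_domain _)
  obtain ⟨Q, hQ, hQc⟩ := Ideal.exists_ideal_over_maximal_of_isIntegral
    (S := ℤbar) (RingHom.ker θ) (by
      intro t ht
      have : φ (Ideal.Quotient.mk P t) = 0 := congrArg Subtype.val (RingHom.mem_ker.mp ht)
      exact hPle (Ideal.Quotient.eq_zero_iff_mem.mp (hφ (by rw [this, map_zero]))))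
  have hmem : ∀ t, θ t = 0 → χ t ∈ Q := fun t ht => by
    have : t ∈ Q.comap (algebraMap T ℤbar) := by rw [hQc]; exact ht
    exact this
  refine ⟨χ.toRingHom, Q, hQ, ?_, hmem⟩
  rw [← map_natCast χ]
  exact hmem _ h3θ

/-- Commuting operators on a nonzero finite-dimensional complex space have a common eigenvector. -/
theorem exists_common_eigenvector {V : Type*} [AddCommGroup V] [Module ℂ V] [FiniteDimensional ℂ V]
    (s : Set (Module.End ℂ V)) (hs : ∀ A ∈ s, ∀ B ∈ s, Commute A B)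
    (W : Submodule ℂ V) (hW : W ≠ ⊥) (hinv : ∀ A ∈ s, ∀ x ∈ W, A x ∈ W) :
    ∃ v ∈ W, v ≠ 0 ∧ ∀ A ∈ s, ∃ c : ℂ, A v = c • v := by
  induction h : Module.finrank ℂ W using Nat.strong_induction_on generalizing W with
  | _ n ih =>
  obtain ⟨v, hv, hv0⟩ := Submodule.exists_mem_ne_zero_of_ne_bot hW
  by_cases hall : ∀ A ∈ s, ∃ c : ℂ, A v = c • v
  · exact ⟨v, hv, hv0, hall⟩
  push Not at hall
  obtain ⟨A, hA, hA'⟩ := hall
  have : Nontrivial W := Submodule.nontrivial_iff_ne_bot.mpr hW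
  obtain ⟨c, hc⟩ := Module.End.exists_eigenvalue (A.restrict (hinv A hA))
  obtain ⟨⟨w, hw⟩, hwe, hw0⟩ := hc.exists_hasEigenvector
  let W' : Submodule ℂ V := W ⊓ LinearMap.ker (A - c • 1)
  have hwW' : w ∈ W' := by
    refine ⟨hw, ?_⟩
    have := congrArg Subtype.val (Module.End.mem_eigenspace_iff.mp hwe)
    simpa [sub_eq_zero] using this
  have hlt : W' < W := by
    refine lt_of_le_of_ne inf_le_left fun he => hA' c ?_
    have : v ∈ W' := he ▸ hv
    simpa [sub_eq_zero] using this.2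
  obtain ⟨u, hu, hu0, hue⟩ := ih _ (h ▸ Submodule.finrank_lt_finrank_of_lt hlt) W'
    (fun he => hw0 (Subtype.ext ((Submodule.mem_bot ℂ).mp (he ▸ hwW'))))
    (fun B hB x hx => ⟨hinv B hB x hx.1, by
      have h1 : A x = c • x := by simpa [sub_eq_zero] using hx.2
      have h2 : A (B x) = B (A x) := LinearMap.congr_fun (hs A hA B hB).eq x
      simp [h2, h1]⟩) rfl
  exact ⟨u, hu.1, hu0, hue⟩

variable {N : ℕ} [NeZero N] {K : Type*} [Field K] [CharP K 3] {a : ℕ → K}

/-- The reduced eigencharacter of the homology algebra. -/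
theorem exists_homAlgebra_character {ψ : Additive (Gamma0 N) →+ K} (hψ : ψ ≠ 0)
    (he : IsEigenHom N Set.univ a ψ) {ℓ₀ : ℕ} (hw : IsWitness N Set.univ a ℓ₀) :
    ∃ θ : homAlgebra N →+* K,
      ∀ (p : ℕ) (hp : p.Prime) (hpN : ¬ p ∣ N), θ (algT N hp hpN) = a p := by
  have hk : ModCurveGroup.KillsEP (Gamma0 N) ψ := fun γ hγ => he.apply_eq_zero hw hγ
  set l := ModCurveGroup.homProjLift (Gamma0 N) hk
  have hl : l.comp (hProj N) = ψ :=
    AddMonoidHom.ext fun γ => ModCurveGroup.homProjLift_homProj _ hk γ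
  have hex : ∀ r ∈ homAlgebra N, ∃ c : K, ∀ x, l (r x) = c * l x := by
    intro r hr
    induction hr using Algebra.adjoin_induction with
    | mem t ht =>
      obtain ⟨p, hp, hpN, rfl⟩ := ht
      refine ⟨a p, fun x => ?_⟩
      have h := he p (Set.mem_univ p) hp hpN
      rw [← hl, heckeHomT_comp] at h
      obtain ⟨γ, rfl⟩ := ModCurveGroup.homProj_surjective _ x
      exact DFunLike.congr_fun h γ
    | algebraMap n => exact ⟨(n : K), fun x => by simp⟩
    | add r s _ _ hr hs =>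
      obtain ⟨c, hc⟩ := hr
      obtain ⟨d, hd⟩ := hs
      exact ⟨c + d, fun x => by rw [LinearMap.add_apply, map_add, hc, hd, add_mul]⟩
    | mul r s _ _ hr hs =>
      obtain ⟨c, hc⟩ := hr
      obtain ⟨d, hd⟩ := hs
      exact ⟨c * d, fun x => by rw [Module.End.mul_apply, hc, hd, mul_assoc]⟩
  obtain ⟨v₀, hv₀⟩ : ∃ v₀, l v₀ ≠ 0 := by
    by_contra! h
    exact hψ (by rw [← hl]; exact AddMonoidHom.ext fun γ => h _)
  let θf : homAlgebra N → K := fun r => l (r.1 v₀) / l v₀
  have hθ : ∀ (r : homAlgebra N) (x), l (r.1 x) = θf r * l x := fun r x => by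
    obtain ⟨c, hc⟩ := hex r.1 r.2
    rw [hc, show θf r = c by simp [θf, hc, hv₀]]
  let θ : homAlgebra N →+* K :=
    { toFun := θf
      map_one' := by simp [θf, hv₀]
      map_zero' := by simp [θf]
      map_add' := fun r s => by
        simp only [θf, ← add_div]
        congr 1
        rw [show ((r + s : homAlgebra N) : Module.End ℤ (HLat N)) = r.1 + s.1 from rfl,
          LinearMap.add_apply, map_add]
      map_mul' := fun r s => by
        have : l ((r * s : homAlgebra N).1 v₀) = θf r * (θf s * l v₀) := by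
          rw [show ((r * s : homAlgebra N) : Module.End ℤ (HLat N)) = r.1 * s.1 from rfl,
            Module.End.mul_apply, hθ, hθ]
        simp only [θf] at this ⊢
        rw [this]
        field_simp }
  refine ⟨θ, fun p hp hpN => ?_⟩
  have h := DFunLike.congr_fun (he p (Set.mem_univ p) hp hpN) (Classical.choose
    (ModCurveGroup.homProj_surjective (Gamma0 N) v₀))
  rw [← hl, heckeHomT_comp, AddMonoidHom.smul_apply, smul_eq_mul] at h
  have hs := Classical.choose_spec (ModCurveGroup.homProj_surjective (Gamma0 N) v₀)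
  simp only [AddMonoidHom.comp_apply, hs] at h
  change l (homT N hp hpN v₀) / l v₀ = a p
  rw [show l (homT N hp hpN v₀) = a p * l v₀ from h, mul_div_assoc, div_self hv₀, mul_one]

/-- Every complex character of the homology algebra is realised by a cusp form. -/
theorem exists_form_of_character (χ : homAlgebra N →+* ℂ) :
    ∃ f : CuspForm (Gamma0 N) 2, f ≠ 0 ∧
      ∀ (p : ℕ) (hp : p.Prime) (hpN : ¬ p ∣ N),
        CuspForm.heckeTLin 2 hp hpN f = χ (algT N hp hpN) • f := by
  set b := Module.Free.chooseBasis ℤ (HLat N)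
  let u : Module.Free.ChooseBasisIndex ℤ (HLat N) → (HLat N →ₗ[ℤ] ℂ) := fun i =>
    ((Int.castAddHom ℂ).comp (b.coord i).toAddMonoidHom).toIntLinearMap
  let act : homAlgebra N →+* Module.End ℂ (HLat N →ₗ[ℤ] ℂ) :=
    { toFun := fun r => LinearMap.lcomp ℂ ℂ r.1
      map_one' := LinearMap.ext fun w => LinearMap.ext fun x => rfl
      map_zero' := LinearMap.ext fun w => LinearMap.ext fun x => map_zero w
      map_add' := fun r s => LinearMap.ext fun w => LinearMap.ext fun x => map_add w _ _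
      map_mul' := fun r s => LinearMap.ext fun w => LinearMap.ext fun x => by
        rw [mul_comm r s]
        rfl }
  obtain ⟨w, hw0, hw⟩ := DSLift.exists_eigenvector_of_integral_operators act (fun r s h => by
      refine Subtype.ext (LinearMap.ext fun x => ?_)
      rw [← sub_eq_zero]
      refine eq_zero_of_forall_hom N fun v => ?_
      rw [map_sub, sub_eq_zero]
      exact LinearMap.congr_fun (LinearMap.congr_fun h v.toIntLinearMap) x)
    (fun k : Module.Free.ChooseBasisIndex ℤ (HLat N) × Module.Free.ChooseBasisIndex ℤ (HLat N) =>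
      { toFun := fun E => E (u k.1) (b k.2)
        map_add' := fun E F => rfl
        map_smul' := fun c E => rfl })
    (fun r k => ⟨b.coord k.1 (r.1 (b k.2)), rfl⟩)
    (fun E hE => by
      refine LinearMap.ext fun w => ?_
      have hw : w = ∑ i, w (b i) • u i := b.ext fun j => by
        classical
        simp [u, Finsupp.single_apply, apply_ite Int.cast]
      rw [hw, map_sum]
      refine b.ext fun j => ?_
      simp only [map_smul, LinearMap.sum_apply, LinearMap.smul_apply, LinearMap.zero_apply]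
      exact Finset.sum_eq_zero fun i _ => by
        have := hE (i, j)
        simp only [LinearMap.coe_mk, AddHom.coe_mk] at this
        rw [this, smul_zero]) χ
  obtain ⟨⟨f, g⟩, hfg⟩ := exists_periodHomPair_eq N w.toAddMonoidHom
  have hT : ∀ (p : ℕ) (hp : p.Prime) (hpN : ¬ p ∣ N),
      CuspForm.heckeTLin 2 hp hpN f = χ (algT N hp hpN) • f ∧
        CuspForm.heckeTLin 2 hp hpN g = χ (algT N hp hpN) • g := by
    intro p hp hpN
    have e : (w.toAddMonoidHom.comp (homT N hp hpN).toAddMonoidHom).comp (hProj N) =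
        χ (algT N hp hpN) • w.toAddMonoidHom.comp (hProj N) :=
      AddMonoidHom.ext fun γ => LinearMap.congr_fun (hw (algT N hp hpN)) (hProj N γ)
    rw [← heckeHomT_comp (R := ℂ) N hp hpN, ← hfg, ← Periods.periodHomPair_heckeTLin, ← map_smul] at e
    exact Prod.ext_iff.mp (ModCurve.Forms.periodHomPair_injective N e)
  have hne : f ≠ 0 ∨ g ≠ 0 := by
    by_contra! h
    refine hw0 (LinearMap.toAddMonoidHom_injective (eq_of_comp_hProj N ?_))
    rw [← hfg, h.1, h.2, show ((0 : CuspForm (Gamma0 N) 2), (0 : CuspForm (Gamma0 N) 2)) = 0 from rfl,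
      map_zero]
    rfl
  rcases hne with h | h
  · exact ⟨f, h, fun p hp hpN => (hT p hp hpN).1⟩
  · exact ⟨g, h, fun p hp hpN => (hT p hp hpN).2⟩

/-- An eigenvector of the good operators yields a normalized eigenform. -/
theorem exists_normalized_of_goodEigen {f : CuspForm (Gamma0 N) 2} (hf : f ≠ 0) {c : ℕ → ℂ}
    (hT : ∀ (p : ℕ) (hp : p.Prime) (hpN : ¬ p ∣ N), CuspForm.heckeTLin 2 hp hpN f = c p • f) :
    ∃ g : CuspForm (Gamma0 N) 2, g.IsNormalizedEigenform ∧
      ∀ p : ℕ, p.Prime → ¬ p ∣ N → qCoeff g p = c p := by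
  have := ModCurve.Forms.finiteDimensional_cuspForm_two N
  let W : Submodule ℂ (CuspForm (Gamma0 N) 2) :=
    ⨅ (p : ℕ) (hp : p.Prime) (hpN : ¬ p ∣ N), LinearMap.ker (CuspForm.heckeTLin 2 hp hpN - c p • 1)
  have hmem : ∀ x, x ∈ W ↔ ∀ (p : ℕ) (hp : p.Prime) (hpN : ¬ p ∣ N),
      CuspForm.heckeTLin 2 hp hpN x = c p • x := fun x => by
    simp [W, Submodule.mem_iInf, sub_eq_zero]
  obtain ⟨v, hv, hv0, hve⟩ := exists_common_eigenvector
    (CuspForm.heckeGenerators N 2 ∅)
    (fun A hA B hB => CuspForm.commute_of_mem_heckeGenerators hA hB) W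
    (fun h => hf ((Submodule.mem_bot ℂ).mp (h ▸ (hmem f).mpr hT)))
    (fun A hA x hx => (hmem _).mpr fun p hp hpN => by
      have hc := CuspForm.commute_of_mem_heckeGenerators (S := (∅ : Set ℕ))
        (T := CuspForm.heckeTLin 2 hp hpN) (Or.inl ⟨p, hp, hpN, Set.notMem_empty p, rfl⟩) hA
      rw [show CuspForm.heckeTLin 2 hp hpN (A x) = A (CuspForm.heckeTLin 2 hp hpN x) from
        LinearMap.congr_fun hc.eq x, (hmem x).mp hx p hp hpN, map_smul])
  have hU : ∀ p : ℕ, ∃ d : ℂ, ∀ hp : p.Prime, ∀ hpN : p ∣ N,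
      CuspForm.heckeULin 2 hpN v = d • v := fun p => by
    by_cases h : p.Prime ∧ p ∣ N
    · obtain ⟨d, hd⟩ := hve (CuspForm.heckeULin 2 h.2)
        (Or.inr ⟨p, h.2, h.1, Set.notMem_empty p, rfl⟩)
      exact ⟨d, fun _ _ => hd⟩
    · exact ⟨0, fun hp hpN => absurd ⟨hp, hpN⟩ h⟩
  choose d hd using hU
  let lam : ℕ → ℂ := fun p => if p ∣ N then d p else c p
  have hlam : DSLift.IsPrimeEigen v lam :=
    ⟨fun p hp hpN => by rw [(hmem v).mp hv p hp hpN]; simp [lam, hpN],
      fun p hp hpN => by rw [hd p hp hpN]; simp [lam, hpN]⟩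
  obtain ⟨g, hg, hgp, -⟩ := hlam.exists_normalized hv0
  exact ⟨g, hg, fun p hp hpN => by rw [hgp p hp]; simp [lam, hpN]⟩

/-- A non-Eisenstein mod 3 eigencharacter lifts to a normalized eigenform of the same level. -/
theorem exists_eigenform_of_eigenHom {ψ : Additive (Gamma0 N) →+ K} (hψ : ψ ≠ 0)
    (he : IsEigenHom N Set.univ a ψ) {ℓ₀ : ℕ} (hw : IsWitness N Set.univ a ℓ₀) :
    ∃ (g : CuspForm (Gamma0 N) 2) (𝔪 : Ideal ℤbar), g.IsNormalizedEigenform ∧ 𝔪.IsMaximal ∧
      ((3 : ℕ) : ℤbar) ∈ 𝔪 ∧ ∀ ℓ : ℕ, ℓ.Prime → ¬ ℓ ∣ N →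
        ∃ b : ℤbar, (b : ℂ) = qCoeff g ℓ ∧ ∀ c : ℤ, a ℓ = (c : K) → b - (c : ℤbar) ∈ 𝔪 := by
  obtain ⟨θ, hθ⟩ := exists_homAlgebra_character hψ he hw
  have : Nontrivial (homAlgebra N) := θ.domain_nontrivial
  have : IsAddTorsionFree (homAlgebra N) :=
    Function.Injective.isAddTorsionFree
      (⟨⟨fun r => (⇑r.1 : HLat N → HLat N), rfl⟩, fun _ _ => rfl⟩ : homAlgebra N →+ (HLat N → HLat N))
      fun r s h => Subtype.ext (DFunLike.coe_injective h)
  obtain ⟨χ, 𝔪, hmax, h3, hker⟩ := exists_lift_of_character θ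
  obtain ⟨f, hf, hfT⟩ := exists_form_of_character ((algebraMap ℤbar ℂ).comp χ)
  classical
  obtain ⟨g, hg, hgp⟩ := exists_normalized_of_goodEigen hf
    (c := fun p => if h : p.Prime ∧ ¬ p ∣ N then
      (χ (algT N h.1 h.2) : ℂ) else 0)
    (fun p hp hpN => by rw [dif_pos ⟨hp, hpN⟩]; exact hfT p hp hpN)
  refine ⟨g, 𝔪, hg, hmax, h3, fun ℓ hℓ hℓN => ⟨χ (algT N hℓ hℓN), ?_, fun c hc => ?_⟩⟩
  · rw [hgp ℓ hℓ hℓN, dif_pos ⟨hℓ, hℓN⟩]
  · rw [← map_intCast χ c, ← map_sub]
    exact hker _ (by rw [map_sub, map_intCast, hθ, hc, sub_self])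

end FermatAgent.Descent3
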