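import Mathlib
import Fermat.Agent.Local.GoodReduction
import Fermat.Agent.Local.Mult
import Fermat.Prelude.Def_GaloisRep_ComplexConjugation

set_option autoImplicit false

/-!
# Complex conjugation is not a scalar on the `3`-torsion of an elliptic curve over `ℚ`

If it were, all four roots of `Ψ₃` would be real and `Ψ₂Sq`, a third of the derivative of `Ψ₃`,
would have the same strict sign at the smallest and at the largest of them.
-/

open Polynomial

namespace FermatAgent.Descent3

local notation "Qb" => AlgebraicClosure ℚ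

theorem derivative_Ψ₃ {R : Type*} [CommRing R] (W : WeierstrassCurve R) :
    W.Ψ₃.derivative = C 3 * W.Ψ₂Sq := by
  simp only [WeierstrassCurve.Ψ₃, WeierstrassCurve.Ψ₂Sq, derivative_add, derivative_mul,
    derivative_C, derivative_X, derivative_X_pow, derivative_ofNat, zero_mul, zero_add, mul_one,
    add_zero, map_ofNat, map_mul, map_natCast]
  push_cast
  ring

/-- At extremal roots the derivative of a split quartic has the two opposite signs. -/
theorem exists_extremal_root (E : WeierstrassCurve Qb) (e : Qb →+* ℂ)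
    (hreal : ∀ x, E.Ψ₃.eval x = 0 → (e x).im = 0) :
    (∃ a, E.Ψ₃.eval a = 0 ∧ (e (E.Ψ₂Sq.eval a)).re ≤ 0) ∧
      ∃ a, E.Ψ₃.eval a = 0 ∧ 0 ≤ (e (E.Ψ₂Sq.eval a)).re := by
  classical
  have h3 : (3 : Qb) ≠ 0 := by norm_num
  have hsplit : E.Ψ₃.Splits := IsAlgClosed.splits _
  have hcard : E.Ψ₃.roots.card = 4 := by
    rw [← hsplit.natDegree_eq_card_roots, E.natDegree_Ψ₃ h3]
  have hne : E.Ψ₃ ≠ 0 := fun h => by simpa [h] using E.natDegree_Ψ₃ h3
  have hroot : ∀ x ∈ E.Ψ₃.roots, E.Ψ₃.eval x = 0 := fun x hx => (mem_roots hne).mp hx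
  have hnonempty : E.Ψ₃.roots.toFinset.Nonempty := by
    obtain ⟨x, hx⟩ := Multiset.card_pos_iff_exists_mem.mp (by rw [hcard]; norm_num)
    exact ⟨x, Multiset.mem_toFinset.mpr hx⟩
  have hprod := hsplit.eq_prod_roots
  have key : ∀ a ∈ E.Ψ₃.roots, ∃ b c d, b ∈ E.Ψ₃.roots ∧ c ∈ E.Ψ₃.roots ∧ d ∈ E.Ψ₃.roots ∧
      (e (E.Ψ₂Sq.eval a)).re =
        ((e a).re - (e b).re) * ((e a).re - (e c).re) * ((e a).re - (e d).re) := by
    intro a ha
    obtain ⟨t, ht⟩ := Multiset.exists_cons_of_mem ha
    have ht3 : t.card = 3 := by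
      rw [ht, Multiset.card_cons] at hcard
      omega
    obtain ⟨b, c, d, rfl⟩ := Multiset.card_eq_three.mp ht3
    have hb : b ∈ E.Ψ₃.roots := by rw [ht]; simp
    have hc : c ∈ E.Ψ₃.roots := by rw [ht]; simp
    have hd : d ∈ E.Ψ₃.roots := by rw [ht]; simp
    refine ⟨b, c, d, hb, hc, hd, ?_⟩
    have hf : E.Ψ₃ = C 3 * ((X - C a) * ((X - C b) * (X - C c) * (X - C d))) := by
      rw [hprod, E.leadingCoeff_Ψ₃ h3, ht]
      simp [Multiset.map_cons, Multiset.prod_cons, mul_assoc]
    have hder := congrArg (fun p : Qb[X] => p.derivative.eval a) hf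
    simp only [derivative_Ψ₃, derivative_mul, derivative_C, derivative_sub, derivative_X,
      eval_mul, eval_C, eval_add, eval_sub, eval_X, zero_mul, zero_add, sub_self, sub_zero, eval_one,
      one_mul, add_zero, zero_mul] at hder
    rw [mul_left_cancel₀ h3 hder, map_mul, map_mul, map_sub, map_sub, map_sub]
    have him := hreal a (hroot a ha)
    simp [Complex.mul_re, Complex.mul_im, him, hreal b (hroot b hb), hreal c (hroot c hc),
      hreal d (hroot d hd)]
  constructor
  · obtain ⟨a, ha, hmin⟩ := E.Ψ₃.roots.toFinset.exists_min_image (fun x => (e x).re) hnonempty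
    rw [Multiset.mem_toFinset] at ha
    obtain ⟨b, c, d, hb, hc, hd, h⟩ := key a ha
    refine ⟨a, hroot a ha, h ▸ ?_⟩
    exact mul_nonpos_of_nonneg_of_nonpos
      (mul_nonneg_of_nonpos_of_nonpos
        (sub_nonpos.mpr (hmin b (Multiset.mem_toFinset.mpr hb)))
        (sub_nonpos.mpr (hmin c (Multiset.mem_toFinset.mpr hc))))
      (sub_nonpos.mpr (hmin d (Multiset.mem_toFinset.mpr hd)))
  · obtain ⟨a, ha, hmax⟩ := E.Ψ₃.roots.toFinset.exists_max_image (fun x => (e x).re) hnonempty
    rw [Multiset.mem_toFinset] at ha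
    obtain ⟨b, c, d, hb, hc, hd, h⟩ := key a ha
    refine ⟨a, hroot a ha, h ▸ ?_⟩
    exact mul_nonneg (mul_nonneg
      (sub_nonneg.mpr (hmax b (Multiset.mem_toFinset.mpr hb)))
      (sub_nonneg.mpr (hmax c (Multiset.mem_toFinset.mpr hc))))
      (sub_nonneg.mpr (hmax d (Multiset.mem_toFinset.mpr hd)))

variable {W : WeierstrassCurve ℤ}

theorem exists_point_of_root (hΔ : W.Δ ≠ 0) {x : Qb}
    (hx : (Local.qbarCurve W).Ψ₃.eval x = 0) :
    ∃ (y : Qb) (h : (Local.qbarCurve W).Nonsingular x y),
      (3 : ℕ) • WeierstrassCurve.Affine.Point.some x y h = 0 ∧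
        2 * y + (Local.qbarCurve W).a₁ * x + (Local.qbarCurve W).a₃ ≠ 0 := by
  classical
  set E := Local.qbarCurve W
  obtain ⟨y, hy⟩ := IsAlgClosed.exists_root
    (C (1 : Qb) * X ^ 2 + C (E.a₁ * x + E.a₃) * X +
      C (-(x ^ 3 + E.a₂ * x ^ 2 + E.a₄ * x + E.a₆)))
    (by rw [degree_quadratic one_ne_zero]; exact two_ne_zero)
  simp only [IsRoot, eval_add, eval_mul, eval_C, eval_pow, eval_X, one_mul] at hy
  have hΔ' : E.Δ ≠ 0 := by rw [Local.qbarCurve_Δ]; exact Int.cast_ne_zero.mpr hΔ
  have h : E.Nonsingular x y := (WeierstrassCurve.Affine.equation_iff_nonsingular_of_Δ_ne_zero hΔ').1 (by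
    rw [WeierstrassCurve.Affine.equation_iff]; linear_combination hy)
  have h3P : (3 : ℕ) • WeierstrassCurve.Affine.Point.some x y h = 0 := by
    rw [Local.nsmul_eq_zero_iff h 3, Nat.cast_ofNat, WeierstrassCurve.ΨSq_three, eval_pow, hx,
      zero_pow two_ne_zero]
  refine ⟨y, h, h3P, fun ht => ?_⟩
  have hneg : -WeierstrassCurve.Affine.Point.some x y h = .some x y h := by
    rw [WeierstrassCurve.Affine.Point.neg_some, WeierstrassCurve.Affine.Point.some.injEq]
    refine ⟨rfl, ?_⟩
    rw [WeierstrassCurve.Affine.negY]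
    linear_combination -ht
  refine WeierstrassCurve.Affine.Point.some_ne_zero h ?_
  rw [neg_eq_iff_add_eq_zero] at hneg
  rwa [succ_nsmul, two_nsmul, hneg, zero_add] at h3P

/-- Complex conjugation moves some `3`-torsion point. -/
theorem exists_three_torsion_conj_ne (hΔ : W.Δ ≠ 0) :
    ∃ P : (Local.qbarCurve W).Point, (3 : ℕ) • P = 0 ∧ complexConjugation • P ≠ P := by
  by_contra! hall
  have hfix : ∀ x, (Local.qbarCurve W).Ψ₃.eval x = 0 → (complexEmbedding x).im = 0 := by
    intro x hx
    obtain ⟨y, h, h3, -⟩ := exists_point_of_root hΔ hx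
    have hP := hall _ h3
    rw [Local.galois_smul_eq_conjPoint, Local.conjPoint_some,
      WeierstrassCurve.Affine.Point.some.injEq] at hP
    have hx' : complexConjugation x = x := hP.1
    have := complexEmbedding_complexConjugation x
    rw [hx'] at this
    exact Complex.conj_eq_iff_im.mp this.symm
  obtain ⟨⟨a, ha, hle⟩, -⟩ := exists_extremal_root _ complexEmbedding.toRingHom hfix
  obtain ⟨y, h, h3, ht⟩ := exists_point_of_root hΔ ha
  have hP := hall _ h3
  rw [Local.galois_smul_eq_conjPoint, Local.conjPoint_some,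
    WeierstrassCurve.Affine.Point.some.injEq] at hP
  have hy : complexConjugation y = y := hP.2
  have hyi : (complexEmbedding y).im = 0 := by
    have := complexEmbedding_complexConjugation y
    rw [hy] at this
    exact Complex.conj_eq_iff_im.mp this.symm
  refine ht ((_root_.map_eq_zero complexEmbedding.toRingHom).mp ?_)
  rw [← Local.psi2Val_sq _ h.1, map_pow] at hle
  have him : (complexEmbedding.toRingHom
      (2 * y + (Local.qbarCurve W).a₁ * a + (Local.qbarCurve W).a₃)).im = 0 := by
    simp [Local.qbarCurve_eq, map_ofNat, hyi, hfix a ha]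
  refine Complex.ext ?_ (by simpa using him)
  simp only [pow_two, Complex.mul_re, him, mul_zero, sub_zero, Complex.zero_re] at hle ⊢
  exact mul_self_eq_zero.mp (le_antisymm hle (mul_self_nonneg _))

/-- Complex conjugation is not inversion on the `3`-torsion. -/
theorem exists_three_torsion_conj_ne_neg (hΔ : W.Δ ≠ 0) :
    ∃ P : (Local.qbarCurve W).Point, (3 : ℕ) • P = 0 ∧ complexConjugation • P ≠ -P := by
  by_contra! hall
  have hfix : ∀ x, (Local.qbarCurve W).Ψ₃.eval x = 0 → (complexEmbedding x).im = 0 := by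
    intro x hx
    obtain ⟨y, h, h3, -⟩ := exists_point_of_root hΔ hx
    have hP := hall _ h3
    rw [Local.galois_smul_eq_conjPoint, Local.conjPoint_some,
      WeierstrassCurve.Affine.Point.neg_some, WeierstrassCurve.Affine.Point.some.injEq] at hP
    have hx' : complexConjugation x = x := hP.1
    have := complexEmbedding_complexConjugation x
    rw [hx'] at this
    exact Complex.conj_eq_iff_im.mp this.symm
  obtain ⟨-, a, ha, hle⟩ := exists_extremal_root _ complexEmbedding.toRingHom hfix
  obtain ⟨y, h, h3, ht⟩ := exists_point_of_root hΔ ha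
  have hP := hall _ h3
  rw [Local.galois_smul_eq_conjPoint, Local.conjPoint_some,
    WeierstrassCurve.Affine.Point.neg_some, WeierstrassCurve.Affine.Point.some.injEq] at hP
  have hy : complexConjugation y = (Local.qbarCurve W).negY a y := hP.2
  refine ht ((_root_.map_eq_zero complexEmbedding.toRingHom).mp ?_)
  rw [← Local.psi2Val_sq _ h.1, map_pow] at hle
  set z := complexEmbedding.toRingHom
      (2 * y + (Local.qbarCurve W).a₁ * a + (Local.qbarCurve W).a₃) with hz
  have hre : z.re = 0 := by
    have := congrArg Complex.re ((complexEmbedding_complexConjugation y).symm.trans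
      (congrArg complexEmbedding hy))
    simp [WeierstrassCurve.Affine.negY, Local.qbarCurve_eq, hfix a ha] at this
    simp [hz, Local.qbarCurve_eq, map_ofNat, hfix a ha]
    linarith
  refine Complex.ext (by simpa using hre) ?_
  simp only [pow_two, Complex.mul_re, hre, mul_zero, zero_sub, Complex.zero_im] at hle ⊢
  exact mul_self_eq_zero.mp (le_antisymm (by linarith) (mul_self_nonneg _))

end FermatAgent.Descent3
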