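import Mathlib
import Fermat.Agent.Descent3.RealTorsion
import Fermat.Agent.Hasse.Galois
import Fermat.Agent.GalRep.Density.Frobenius
import Fermat.Agent.Local.TorsionCount
import Fermat.Prelude.Def_FLTPrelim_ModularRep

set_option autoImplicit false

/-!
# An irreducible mod 3 representation is not Eisenstein

If `a_ℓ ≡ 2 mod 3` for all good primes `ℓ ≡ 1 mod n`, the kernel of the mod `n` cyclotomic character
acts unipotently on `E[3]`, hence trivially by irreducibility; the image is then abelian, so complex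
conjugation is a scalar, which it is not.
-/

open WeierstrassCurve
open scoped WeierstrassCurve.Affine

namespace FermatAgent.Descent3

local notation "Qb" => AlgebraicClosure ℚ
local notation "GQ" => Qb ≃ₐ[ℚ] Qb

/-- Frobenius fixing a primitive `n`-th root of unity forces `ℓ ≡ 1 mod n`. -/
theorem natCast_eq_one_of_frobenius_fix {n ℓ : ℕ} [NeZero n] [Fact ℓ.Prime] (hℓn : ¬ ℓ ∣ n) {ζ : Qb}
    (hζ : IsPrimitiveRoot ζ n) {A : ValuationSubring Qb} (hA : A.LiesOverPrime ℓ) {τ : GQ}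
    (hτ : A.IsFrobeniusAt τ ℓ) (hfix : τ ζ = ζ) : (ℓ : ZMod n) = 1 := by
  have : CharP (IsLocalRing.ResidueField A) ℓ := Hasse.charP_residueField hA
  have hmem : ζ ∈ A := by
    have : IsIntegral A ζ := ⟨Polynomial.X ^ n - 1,
      Polynomial.monic_X_pow_sub_C _ (NeZero.ne n), by simp [hζ.pow_eq_one]⟩
    obtain ⟨y, hy⟩ := IsIntegrallyClosed.isIntegral_iff.mp this
    exact hy ▸ y.2
  set z : A := ⟨ζ, hmem⟩
  set r := IsLocalRing.residue A
  have hzn : z ^ n = 1 := Subtype.ext hζ.pow_eq_one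
  have hr : r z ^ ℓ = r z := by
    rw [← Hasse.residue_frob hτ hmem (by rw [hfix]; exact hmem)]
    exact congrArg r (Subtype.ext hfix)
  have hrz : r z ≠ 0 := fun h => by
    have := congrArg r hzn
    rw [map_pow, h, map_one, zero_pow (NeZero.ne n)] at this
    exact zero_ne_one this
  have h1 : (1 : ℕ) ≤ ℓ := (Fact.out : ℓ.Prime).one_le
  have hr1 : r (z ^ (ℓ - 1)) = 1 := by
    rw [map_pow]
    refine mul_right_cancel₀ hrz ?_
    rw [one_mul, ← pow_succ, Nat.sub_add_cancel h1, hr]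
  have hw : z ^ (ℓ - 1) = 1 := by
    by_contra hne
    have hsum : ∑ i ∈ Finset.range n, (z ^ (ℓ - 1)) ^ i = 0 := by
      have := geom_sum_mul (z ^ (ℓ - 1)) n
      rw [← pow_mul, mul_comm (ℓ - 1), pow_mul, hzn, one_pow, sub_self] at this
      exact (mul_eq_zero.mp this).resolve_right (sub_ne_zero.mpr hne)
    have := congrArg r hsum
    simp [map_sum, map_pow, show r z ^ (ℓ - 1) = 1 by rw [← map_pow]; exact hr1] at this
    exact hℓn ((CharP.cast_eq_zero_iff (IsLocalRing.ResidueField A) ℓ n).mp this)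
  have hd : n ∣ ℓ - 1 := hζ.dvd_of_pow_eq_one _ (congrArg Subtype.val hw)
  conv_lhs => rw [← Nat.sub_add_cancel h1]
  rw [Nat.cast_add, (CharP.cast_eq_zero_iff (ZMod n) n (ℓ - 1)).mpr hd, zero_add, Nat.cast_one]

variable {W : WeierstrassCurve ℤ}

/-- Some prime `ℓ ≡ 1 mod n` has `a_ℓ ≢ 2 mod 3`. -/
theorem exists_witness_prime (hΔ : W.Δ ≠ 0) (hirr : W.ModRepIsIrreducible 3) {n : ℕ} [NeZero n]
    (h3n : 3 ∣ n) :
    ∃ ℓ : ℕ, ℓ.Prime ∧ W.IsGoodPrimeFor ℓ ∧ (ℓ : ZMod n) = 1 ∧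
      ¬ (3 : ℤ) ∣ W.apOfModel ℓ - 2 := by
  classical
  by_contra hcon
  push Not at hcon
  set E := W.map (Int.castRingHom ℚ)
  have hΔE : E.Δ ≠ 0 := by
    rw [WeierstrassCurve.map_Δ]; exact Int.cast_ne_zero.mpr hΔ
  set V := Submodule.torsionBy ℤ (E⁄Qb).Point ((3 : ℕ) : ℤ)
  set ρ := Affine.Point.galoisRepModuleEnd (K := Qb) ℚ E 3
  obtain ⟨hnt, hsimple⟩ := hirr
  have : Finite V := Local.finite_torsion_qbar E hΔE three_ne_zero
  have hkill : ∀ x : V, (3 : ℕ) • x = 0 := fun x => Subtype.ext (by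
    rw [Submodule.coe_smul_of_tower, ← natCast_zsmul]
    exact (Submodule.mem_torsionBy_iff _ _).mp x.2)
  have h3E : (3 : Module.End (ZMod 3) V) = 0 := LinearMap.ext fun x => by
    rw [Module.End.ofNat_apply, LinearMap.zero_apply]
    exact hkill x
  obtain ⟨ζ, hζ⟩ : ∃ ζ : Qb, IsPrimitiveRoot ζ n := HasEnoughRootsOfUnity.exists_primitiveRoot Qb n
  obtain ⟨L₀, hL₀, hL₀ρ⟩ := Local.galoisRep_factorsThroughFiniteLevel E hΔE three_ne_zero
  have : FiniteDimensional ℚ (IntermediateField.adjoin ℚ {ζ}) :=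
    IntermediateField.adjoin.finiteDimensional
      ⟨Polynomial.X ^ n - 1, Polynomial.monic_X_pow_sub_C _ (NeZero.ne n), by simp [hζ.pow_eq_one]⟩
  set L := L₀ ⊔ IntermediateField.adjoin ℚ {ζ}
  have : FiniteDimensional ℚ L := IntermediateField.finiteDimensional_sup _ _
  have hζL : ζ ∈ L := le_sup_right (a := L₀) (IntermediateField.mem_adjoin_simple_self ℚ ζ)
  -- the kernel of the cyclotomic character acts unipotently
  have hS : {ℓ : ℕ | ℓ ∣ 3 * n * W.Δ.natAbs}.Finite :=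
    (Set.finite_le_nat (3 * n * W.Δ.natAbs)).subset fun ℓ hℓ => Nat.le_of_dvd (Nat.pos_of_ne_zero
      (by simp [NeZero.ne n, hΔ])) hℓ
  have hunip : ∀ σ : GQ, σ ζ = ζ → (ρ σ - 1) * (ρ σ - 1) = 0 := by
    intro σ hσ
    obtain ⟨p, hp, hpS, A, hA, τ, hτ, m, k, hm, hk⟩ :=
      GalRep.exists_isFrobeniusAt_pow_eq L σ hS
    have : Fact p.Prime := ⟨hp⟩
    have hpn : ¬ p ∣ n := fun h => hpS (dvd_mul_of_dvd_left (dvd_mul_of_dvd_right h 3) _)
    have hp3 : ¬ p ∣ 3 := fun h => hpS (dvd_mul_of_dvd_left (dvd_mul_of_dvd_left h n) _)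
    have hgood : ¬ (p : ℤ) ∣ W.Δ := fun h =>
      hpS (dvd_mul_of_dvd_right (Int.natCast_dvd.mp h) _)
    have hτζ : τ ζ = ζ := by
      rw [← hk ζ hζL]
      exact Nat.rec (by simp) (fun i hi => by rw [pow_succ, AlgEquiv.mul_apply, hσ, hi]) k
    have hp1 := natCast_eq_one_of_frobenius_fix hpn hζ hA hτ hτζ
    obtain ⟨d, hd⟩ := hcon p hp hgood hp1
    have hp1' : (3 : ℤ) ∣ (p : ℤ) - 1 := by
      have := congrArg (ZMod.castHom h3n (ZMod 3)) hp1
      rw [map_natCast, map_one] at this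
      refine (ZMod.intCast_eq_intCast_iff_dvd_sub 1 (p : ℤ) 3).mp ?_
      rw [Int.cast_natCast, this, Int.cast_one]
    obtain ⟨d', hd'⟩ := hp1'
    have hτ2 : (ρ τ - 1) * (ρ τ - 1) = 0 := by
      refine LinearMap.ext fun x => ?_
      have h3x : (3 : ℤ) • (x : (E⁄Qb).Point) = 0 := (Submodule.mem_torsionBy_iff _ _).mp x.2
      have h := Hasse.frobenius_smul_char W hgood hA hτ hp3 (P := (x : (E⁄Qb).Point))
        (by rw [← natCast_zsmul]; exact h3x)
      have h3τ : (3 : ℤ) • (τ • (x : (E⁄Qb).Point)) = 0 :=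
        (Submodule.mem_torsionBy_iff _ _).mp (τ • x).2
      rw [show W.apOfModel p = 2 + 3 * d by omega, show (p : ℤ) = 1 + 3 * d' by omega] at h
      rw [add_zsmul, add_zsmul, one_zsmul, mul_comm (3 : ℤ) d, mul_comm (3 : ℤ) d', mul_zsmul,
        mul_zsmul] at h
      refine Subtype.ext ?_
      change τ • (τ • (x : (E⁄Qb).Point) - x) - (τ • (x : (E⁄Qb).Point) - x) = 0
      rw [smul_sub]
      rw [h3τ, h3x, zsmul_zero, zsmul_zero, add_zero, add_zero, two_zsmul] at h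
      rw [← h]
      abel
    have hσm : ρ σ = ρ τ ^ m := by
      have : ρ (σ⁻¹ * τ ^ m) = 1 := hL₀ρ _ fun x hx => by
        rw [AlgEquiv.mul_apply, hm x (le_sup_left (b := IntermediateField.adjoin ℚ {ζ}) hx),
          ← AlgEquiv.mul_apply, inv_mul_cancel, AlgEquiv.one_apply]
      rw [← map_pow, show τ ^ m = σ * (σ⁻¹ * τ ^ m) by group, map_mul, this, mul_one]
    rw [hσm]
    set G := ∑ i ∈ Finset.range m, ρ τ ^ i
    have e1 : G * (ρ τ - 1) = ρ τ ^ m - 1 := geom_sum_mul _ _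
    have e2 : (ρ τ - 1) * G = ρ τ ^ m - 1 := mul_geom_sum _ _
    calc (ρ τ ^ m - 1) * (ρ τ ^ m - 1) = G * ((ρ τ - 1) * (ρ τ - 1)) * G := by
          conv_lhs => arg 1; rw [← e1]
          rw [← e2]
          noncomm_ring
      _ = 0 := by rw [hτ2, mul_zero, zero_mul]
  have hcube : ∀ σ : GQ, σ ζ = ζ → ρ σ ^ 3 = 1 := fun σ hσ => by
    have e : ρ σ ^ 3 - 1 = (ρ σ - 1) * (ρ σ - 1) * (ρ σ + 2) + 3 * (ρ σ - 1) := by noncomm_ring
    rw [hunip σ hσ, h3E, zero_mul, zero_mul, add_zero, sub_eq_zero] at e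
    exact e
  have hpow : ∀ σ : GQ, ∃ a : ℕ, σ ζ = ζ ^ a := fun σ => by
    obtain ⟨i, -, hi⟩ := hζ.eq_pow_of_pow_eq_one (ξ := σ ζ) (by rw [← map_pow, hζ.pow_eq_one, map_one])
    exact ⟨i, hi.symm⟩
  -- so it acts trivially
  let fixed : Submodule (ZMod 3) V :=
    ⨅ (σ : GQ) (_ : σ ζ = ζ), LinearMap.ker (ρ σ - 1)
  have hfixed : ∀ x, x ∈ fixed ↔ ∀ σ : GQ, σ ζ = ζ → σ • x = x := fun x => by
    simp [fixed, Submodule.mem_iInf, sub_eq_zero, ρ]
    rfl
  have hstable : Affine.Point.IsGaloisStable ℚ fixed := fun g x hx => (hfixed _).mpr fun σ hσ => by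
    obtain ⟨a, ha⟩ := hpow g
    have hconj : (g⁻¹ * σ * g) ζ = ζ := by
      rw [AlgEquiv.mul_apply, AlgEquiv.mul_apply, ha, map_pow σ, hσ, ← ha, ← AlgEquiv.mul_apply,
        inv_mul_cancel, AlgEquiv.one_apply]
    have := (hfixed x).mp hx _ hconj
    rw [mul_smul, mul_smul, inv_smul_eq_iff] at this
    exact this
  have hne : fixed ≠ ⊥ := by
    let H : Subgroup (Module.End (ZMod 3) V)ˣ :=
      (MulAction.stabilizer GQ ζ).map ρ.toHomUnits
    have hH : IsPGroup 3 H := fun g => by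
      obtain ⟨σ, hσ, hg⟩ := g.2
      refine ⟨1, Subtype.ext (Units.ext ?_)⟩
      rw [pow_one, SubmonoidClass.coe_pow, ← hg, Units.val_pow_eq_pow_val]
      exact hcube σ hσ
    have : Fact (Nat.Prime 3) := ⟨Nat.prime_three⟩
    obtain ⟨x₁, hx₁⟩ := exists_ne (0 : V)
    have hdvd : 3 ∣ Nat.card V := by
      have h : addOrderOf x₁ = 3 := addOrderOf_eq_prime (hkill x₁) hx₁
      exact h ▸ addOrderOf_dvd_natCard x₁
    obtain ⟨b, hb, hb0⟩ := hH.exists_fixed_point_of_prime_dvd_card_of_fixed_point (α := V) hdvd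
      (a := 0) (fun g => map_zero (g.1 : Module.End (ZMod 3) V))
    intro hbot
    refine hb0 (Eq.symm ?_)
    have : b ∈ fixed := (hfixed b).mpr fun σ hσ =>
      hb ⟨ρ.toHomUnits σ, σ, hσ, rfl⟩
    exact (Submodule.mem_bot (ZMod 3)).mp (hbot ▸ this)
  have htop : fixed = ⊤ := (hsimple fixed hstable).resolve_left hne
  have htriv : ∀ σ : GQ, σ ζ = ζ → ∀ x : V, σ • x = x := fun σ hσ x =>
    (hfixed x).mp (htop ▸ Submodule.mem_top) σ hσ
  have hcomm : ∀ (σ τ : GQ) (x : V), σ • τ • x = τ • σ • x := by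
    intro σ τ x
    obtain ⟨a, ha⟩ := hpow σ
    obtain ⟨b, hb⟩ := hpow τ
    have h : ((τ * σ)⁻¹ * (σ * τ)) ζ = ζ := by
      have e : (σ * τ) ζ = (τ * σ) ζ := by
        rw [AlgEquiv.mul_apply, AlgEquiv.mul_apply, ha, hb, map_pow, map_pow, ha, hb, ← pow_mul,
          ← pow_mul, mul_comm]
      rw [AlgEquiv.mul_apply, e, ← AlgEquiv.mul_apply, inv_mul_cancel, AlgEquiv.one_apply]
    have := htriv _ h x
    rw [mul_smul, inv_smul_eq_iff, mul_smul, mul_smul] at this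
    exact this
  -- so complex conjugation is a scalar
  let cfix : Submodule (ZMod 3) V := LinearMap.ker (ρ complexConjugation - 1)
  have hcfix : ∀ x, x ∈ cfix ↔ complexConjugation • x = x := fun x => by
    simp [cfix, sub_eq_zero, ρ]
    rfl
  rcases hsimple cfix (fun g x hx => (hcfix _).mpr (by rw [hcomm, (hcfix x).mp hx])) with hb | ht
  · obtain ⟨P, hP, hPne⟩ := exists_three_torsion_conj_ne_neg hΔ
    let x : V := ⟨P, (Submodule.mem_torsionBy_iff _ _).mpr (by rw [natCast_zsmul]; exact hP)⟩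
    have hx : complexConjugation • x + x ∈ cfix := (hcfix _).mpr (by
      rw [smul_add, ← mul_smul, complexConjugation_mul_self, one_smul, add_comm])
    rw [hb, Submodule.mem_bot] at hx
    exact hPne (congrArg Subtype.val (eq_neg_of_add_eq_zero_left hx))
  · obtain ⟨P, hP, hPne⟩ := exists_three_torsion_conj_ne hΔ
    let x : V := ⟨P, (Submodule.mem_torsionBy_iff _ _).mpr (by rw [natCast_zsmul]; exact hP)⟩
    exact hPne (congrArg Subtype.val ((hcfix x).mp (ht ▸ Submodule.mem_top)))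

end FermatAgent.Descent3
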