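import Mathlib
import Fermat.Agent.Descent3.Iterate
import Fermat.Agent.Descent3.Lift
import Fermat.Agent.Descent3.Witness

set_option autoImplicit false

/-!
# From level `3 ^ r N'` to level `3 N'`, up to a twist by the cyclotomic character mod 3
-/

open CongruenceSubgroup ModularFormClass
open scoped MatrixGroups

namespace FermatAgent.Descent3

local notation "ℤbar" => integralClosure ℤ ℂ

/-- A mod 3 representation of level `3 ^ (r + 1) N` occurs at level `3 N` up to twist. -/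
theorem exists_level_three_mul {W : WeierstrassCurve ℤ} (hΔ : W.Δ ≠ 0)
    (hirr : W.ModRepIsIrreducible 3) {N r : ℕ} [NeZero N]
    (hres : W.IsResiduallyModularOfLevel 3 (3 ^ (r + 1) * N)) :
    ∃ (k : ℕ) (g : CuspForm (Gamma0 (3 * N)) 2) (𝔪 : Ideal ℤbar), g.IsNormalizedEigenform ∧
      𝔪.IsMaximal ∧ ((3 : ℕ) : ℤbar) ∈ 𝔪 ∧
      ∀ ℓ : ℕ, ℓ.Prime → W.IsGoodPrimeFor ℓ → ¬ ℓ ∣ 3 * N →
        ∃ b : ℤbar, (b : ℂ) = qCoeff g ℓ ∧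
          b - (((ℓ : ℤ) ^ k * W.apOfModel ℓ : ℤ) : ℤbar) ∈ 𝔪 := by
  obtain ⟨f, 𝔪, hf, hmax, h3, hcong⟩ := hres
  let : Field (ℤbar ⧸ 𝔪) := Ideal.Quotient.field 𝔪
  have : CharP (ℤbar ⧸ 𝔪) 3 := (CharP.charP_iff_prime_eq_zero Nat.prime_three).mpr (by
    rw [← map_natCast (Ideal.Quotient.mk 𝔪)]
    exact Ideal.Quotient.eq_zero_iff_mem.mpr h3)
  obtain ⟨ψ, α, hψ, hα⟩ := exists_eigenHom_of_form hf 𝔪 h3
  set a : ℕ → ℤbar ⧸ 𝔪 := fun ℓ => Ideal.Quotient.mk 𝔪 (α ℓ)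
  have he : IsEigenHom (3 ^ (r + 1) * N) Set.univ a ψ := fun ℓ _ hℓ hℓN =>
    AddMonoidHom.ext fun x => (hα ℓ hℓ hℓN).2 x
  have hNdvd : ∀ {ℓ : ℕ}, ℓ.Prime → ¬ ℓ ∣ 3 * N → ¬ ℓ ∣ 3 ^ (r + 1) * N := fun {ℓ} hℓ h hd =>
    (hℓ.dvd_mul.mp hd).elim (fun h' => h ((hℓ.dvd_of_dvd_pow h').mul_right N))
      fun h' => h (h'.mul_left 3)
  have ha : ∀ ℓ : ℕ, ℓ.Prime → W.IsGoodPrimeFor ℓ → ¬ ℓ ∣ 3 * N →
      a ℓ = ((W.apOfModel ℓ : ℤ) : ℤbar ⧸ 𝔪) := fun ℓ hℓ hg hℓN => by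
    have hℓ3 : ℓ ≠ 3 := fun h => hℓN (h ▸ dvd_mul_right 3 N)
    obtain ⟨b, hb, hbm⟩ := hcong ℓ hℓ hg (hNdvd hℓ hℓN) hℓ3
    have : b = α ℓ := Subtype.ext (hb.trans (hα ℓ hℓ (hNdvd hℓ hℓN)).1.symm)
    rw [← map_intCast (Ideal.Quotient.mk 𝔪)]
    exact Ideal.Quotient.eq.mpr (this ▸ hbm)
  have : NeZero (3 ^ (r + 1) * N) := ⟨by simp [NeZero.ne N]⟩
  obtain ⟨ℓ₀, hℓ₀, hgood₀, hone₀, htwo₀⟩ :=
    exists_witness_prime hΔ hirr (n := 3 ^ (r + 1) * N)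
      (dvd_mul_of_dvd_left (dvd_pow_self 3 r.succ_ne_zero) N)
  have hnd₀ : ¬ ℓ₀ ∣ 3 * N := fun hd => by
    have : Fact ℓ₀.Prime := ⟨hℓ₀⟩
    have h := congrArg (ZMod.castHom (hd.trans (Nat.mul_dvd_mul_right (dvd_pow_self 3 r.succ_ne_zero) N))
      (ZMod ℓ₀)) hone₀
    rw [map_natCast, map_one, ZMod.natCast_self] at h
    exact zero_ne_one h
  have hK1 : (ℓ₀ : ℤbar ⧸ 𝔪) = 1 := by
    have h := congrArg (ZMod.castHom (dvd_mul_of_dvd_left (dvd_pow_self 3 r.succ_ne_zero) N)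
      (ZMod 3)) hone₀
    rw [map_natCast, map_one] at h
    have := congrArg (ZMod.castHom (dvd_refl 3) (ℤbar ⧸ 𝔪)) h
    rwa [map_natCast, map_one] at this
  have hw : IsWitness (3 ^ (r + 1) * N) Set.univ a ℓ₀ := by
    refine ⟨Set.mem_univ _, hℓ₀, hone₀, hK1, fun h => htwo₀ ?_⟩
    rw [ha ℓ₀ hℓ₀ hgood₀ hnd₀] at h
    refine (CharP.intCast_eq_zero_iff (ℤbar ⧸ 𝔪) 3 _).mp ?_
    rw [Int.cast_sub, h, Int.cast_ofNat, sub_self]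
  obtain ⟨k, χ, hχ, hχe, hχw⟩ := exists_descended_pow r hψ he hw
  obtain ⟨g, 𝔪', hg, hmax', h3', hgb⟩ := exists_eigenform_of_eigenHom hχ hχe hχw
  refine ⟨k, g, 𝔪', hg, hmax', h3', fun ℓ hℓ hgood hℓN => ?_⟩
  obtain ⟨b, hb, hbc⟩ := hgb ℓ hℓ hℓN
  exact ⟨b, hb, hbc _ (by rw [ha ℓ hℓ hgood hℓN]; push_cast; ring)⟩

end FermatAgent.Descent3
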