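import Mathlib
import Fermat.Agent.Descent3.LocalCase

set_option autoImplicit false

/-!
# The twist has no model over `ℤ_(3)`
-/

noncomputable section

open Matrix IsLocalRing
open scoped Matrix

namespace FermatAgent.Descent3

open GalRep.Flat

local notation "Qb" => AlgebraicClosure ℚ
local notation "GQ" => AlgebraicClosure ℚ ≃ₐ[ℚ] AlgebraicClosure ℚ
local notation "V2" => Fin 2 → ZMod 3
local notation "M2" => Matrix (Fin 2) (Fin 2) (ZMod 3)

variable {A : ValuationSubring Qb} {r : GQ →* M2}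

/-- Inertia at a place acting on the twisted module. -/
@[implicit_reducible]
def twistAction (r : GQ →* M2) (A : ValuationSubring Qb) :
    DistribMulAction (A.inertiaSubgroupIn ℚ) V2 where
  smul σ v := twist r σ *ᵥ v
  one_smul v := by
    show twist r ((1 : A.inertiaSubgroupIn ℚ) : GQ) *ᵥ v = v
    rw [OneMemClass.coe_one, map_one, one_mulVec]
  mul_smul σ τ v := by
    show twist r ((σ * τ : A.inertiaSubgroupIn ℚ) : GQ) *ᵥ v =
      twist r (σ : GQ) *ᵥ (twist r (τ : GQ) *ᵥ v)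
    rw [Subgroup.coe_mul, map_mul, mulVec_mulVec]
  smul_zero σ := mulVec_zero _
  smul_add σ v w := mulVec_add _ v w

theorem val_eq_zpow_of_pow {Γ : Type*} [LinearOrderedCommGroupWithZero Γ] {a b : Γ} {n : ℕ}
    (hn : n ≠ 0) (k : ℤ) (h : a ^ n = (b ^ n) ^ k) : a = b ^ k := by
  refine (pow_left_inj₀ zero_le zero_le hn).mp ?_
  rw [h, ← zpow_natCast b n, ← _root_.zpow_mul, mul_comm, _root_.zpow_mul, zpow_natCast]

theorem tameVal_pow {x : Qb} (hx : x ≠ 0) {σ : GQ} (hσ : σ ∈ A.inertiaSubgroupIn ℚ) (n : ℕ) :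
    TW.tameVal A (x ^ n) σ = TW.tameVal A x σ ^ n := by
  have hd := Local.mem_decomposition_of_inertia hσ
  rw [TW.tameVal_eq (TW.ratio_mem hd (pow_ne_zero n hx)), TW.tameVal_eq (TW.ratio_mem hd hx),
    ← map_pow]
  exact congrArg (residue A) (Subtype.ext (by simp [div_pow]))

theorem false_of_exponent {k : Type*} [Field k] (h3 : (3 : k) = 0) {ζ : k} (h8 : ζ ^ 8 = 1)
    (h4 : ζ ^ 4 ≠ 1) {a : k} (ha : a = 1 ∨ a = -1) (hroot : ζ ^ 2 - a * ζ - 1 = 0)
    {n : ℕ} (h1 : 1 ≤ n) (hn : n ≤ 4) (hχ : (ζ ^ n) ^ 2 + a * ζ ^ n - 1 = 0) : False := by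
  have hneg : ζ ^ 4 = -1 := by
    have : (ζ ^ 4 - 1) * (ζ ^ 4 + 1) = 0 := by linear_combination h8
    exact eq_neg_of_add_eq_zero_left ((mul_eq_zero.mp this).resolve_left (sub_ne_zero.mpr h4))
  have ha2 : a ^ 2 = 1 := by rcases ha with rfl | rfl <;> ring
  refine h4 ?_
  interval_cases n
  · have : a * ζ = 0 := by linear_combination (hroot - hχ) + a * ζ * h3
    rcases mul_eq_zero.mp this with h | h
    · rw [h] at ha2; simp at ha2
    · rw [h] at hneg; simp at hneg
  · have : ζ ^ 2 = -a := by linear_combination a * hχ - a * hneg - ζ ^ 2 * ha2 + a * h3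
    linear_combination (ζ ^ 2 - a) * this + ha2
  · have : a * ζ = 1 := by
      linear_combination hχ - ζ ^ 2 * hneg - a * ζ * hroot - ζ ^ 2 * ha2
    linear_combination ((a * ζ) ^ 2 + 1) * (a * ζ + 1) * this - ζ ^ 4 * (a ^ 2 + 1) * ha2
  · exfalso
    have : a = 0 := by linear_combination -hχ + h8 + a * hneg
    rw [this] at ha2; simp at ha2

/-- A connected model: the pointwise fixed line has no possible coordinate valuation. -/
theorem false_of_connected_ordinary
    [DistribMulAction (A.inertiaSubgroupIn ℚ) V2] {ι : Type} [Fintype ι]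
    (X : IntegralCoords A (A.inertiaSubgroupIn ℚ) V2 ι) (hA : A.LiesOverPrime 3)
    (hact : ∀ (σ : A.inertiaSubgroupIn ℚ) (v : V2), σ • v = twist r σ *ᵥ v)
    (h3 : ∀ P : V2, P + P + P = 0) (hF : X.formalPart h3 = ⊤)
    (hord : IsOrdinaryThree r A) : False := by
  classical
  have h3A : A.valuation (3 : Qb) < 1 := by simpa using Local.val_natCast_lt_one hA
  have hactI := actsAsInertia A
  have hle : ∀ W : AddSubgroup V2, W ≤ X.formalPart h3 := fun W => hF ▸ le_top
  obtain ⟨v, hv, hline, -⟩ := hord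
  set W := AddSubgroup.zmultiples v
  have hW : W ≠ ⊥ := by simpa [W] using hv
  obtain ⟨i₀, P₀, hP₀, hne, hmax⟩ := X.exists_maximal W hW
  have hfix : ∀ σ : A.inertiaSubgroupIn ℚ, σ • P₀ = P₀ := by
    intro σ
    obtain ⟨m, rfl⟩ := AddSubgroup.mem_zmultiples_iff.mp hP₀
    rw [hact]
    rw [mulVec_smul, twist_mulVec, mulVec_line hv (hline σ σ.2), smul_smul]
    have hd0 : (r (σ : GQ)).det ≠ 0 := fun h => by
      have := congrArg Matrix.det
        (show r (σ : GQ) * r (σ : GQ)⁻¹ = 1 by rw [← map_mul, mul_inv_cancel, map_one])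
      rw [det_mul, h, zero_mul, det_one] at this
      exact zero_ne_one this
    have : ∀ d : ZMod 3, d ≠ 0 → d * d = 1 := by decide
    rw [this _ hd0, one_smul]
  set π := X.coord i₀ P₀ with hπ
  obtain ⟨k, hk⟩ := exists_val_eq_zpow_of_fixed Nat.prime_three hA hne fun σ hσ => by
    have := X.equivariant ⟨σ, hσ⟩ i₀ P₀
    rw [hfix] at this
    exact this.symm
  have hlt : A.valuation π < 1 := X.nondegenerate_mem_nonunits h3 (hle W) hP₀
  have hle' := X.three_div_sq_mem h3 (hle W) hP₀ hne hmax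
  rw [← A.valuation_le_one_iff, map_div₀, map_pow,
    div_le_one₀ (pow_pos (zero_lt_iff.mpr ((map_ne_zero _).mpr hne)) 2)] at hle'
  have h30 : A.valuation (3 : Qb) ≠ 0 := (map_ne_zero _).mpr (by norm_num)
  rw [Nat.cast_ofNat] at hk
  have hk1 : 0 < k := by
    rw [hk, ← zpow_zero (A.valuation (3 : Qb))] at hlt
    exact (zpow_lt_zpow_iff_right_of_lt_one₀ (zero_lt_iff.mpr h30) h3A).mp hlt
  rw [hk, ← zpow_natCast, ← _root_.zpow_mul] at hle'
  conv_lhs at hle' => rw [← zpow_one (A.valuation (3 : Qb))]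
  have := (zpow_le_zpow_iff_right_of_lt_one₀ (zero_lt_iff.mpr h30) h3A).mp hle'
  push_cast at this
  omega

/-- A connected model: the leading term contradicts the fundamental character. -/
theorem false_of_connected_supersingular
    [DistribMulAction (A.inertiaSubgroupIn ℚ) V2] {ι : Type} [Fintype ι]
    (X : IntegralCoords A (A.inertiaSubgroupIn ℚ) V2 ι) (hA : A.LiesOverPrime 3)
    (hact : ∀ (σ : A.inertiaSubgroupIn ℚ) (v : V2), σ • v = twist r σ *ᵥ v)
    (h3 : ∀ P : V2, P + P + P = 0) (hF : X.formalPart h3 = ⊤)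
    (hss : IsSupersingularThree r A) : False := by
  classical
  have h3A : A.valuation (3 : Qb) < 1 := by simpa using Local.val_natCast_lt_one hA
  have hactI := actsAsInertia A
  have hle : ∀ W : AddSubgroup V2, W ≤ X.formalPart h3 := fun W => hF ▸ le_top
  obtain ⟨σ, hσ, t, ht, hvt, h8, h4, hroot⟩ := hss
  set ζ := TW.tameVal A t σ
  have h3k : (3 : ResidueField A) = 0 := by
    rw [← map_ofNat (residue A) 3, residue_eq_zero_iff, A.valuation_lt_one_iff]
    exact h3A
  have hd0 : (r σ).det ≠ 0 := fun h => by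
    have := congrArg Matrix.det (show r σ * r σ⁻¹ = 1 by rw [← map_mul, mul_inv_cancel, map_one])
    rw [det_mul, h, zero_mul, det_one] at this
    exact zero_ne_one this
  obtain ⟨hdet, htr⟩ := trace_det_of_root h3k h8 h4 hd0 hroot
  set W : AddSubgroup V2 := ⊤
  have hWG : ∀ (τ : A.inertiaSubgroupIn ℚ), ∀ P ∈ W, τ • P ∈ W := fun _ _ _ => trivial
  have hW : W ≠ ⊥ := top_ne_bot
  obtain ⟨i₀, P₀, hP₀, hne, hmax⟩ := X.exists_maximal W hW
  obtain ⟨ℓ, χ, hℓ0, hℓval, hχ, hℓ⟩ := X.exists_leading h3 hactI (hle W) hWG hP₀ hne hmax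
  let ℓ' : V2 →+ ResidueField A :=
    ℓ.comp (AddMonoidHom.mk' (fun P => (⟨P, trivial⟩ : W)) fun _ _ => rfl)
  have hℓ' : ∀ (τ : A.inertiaSubgroupIn ℚ) P, ℓ' (twist r τ *ᵥ P) = χ τ * ℓ' P :=
    fun τ P => by
      rw [← hact]
      exact hℓ τ ⟨P, trivial⟩
  have hker : ℓ'.ker = ⊥ := by
    by_contra hne'
    obtain ⟨u, hu, hu0⟩ : ∃ u ∈ ℓ'.ker, u ≠ 0 := by
      by_contra h
      exact hne' (eq_bot_iff.mpr fun u hu => by_contra fun hu0 => h ⟨u, hu, hu0⟩)
    have hdep : u 0 * (twist r σ *ᵥ u) 1 - u 1 * (twist r σ *ᵥ u) 0 = 0 := by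
      by_contra hind
      have := eq_top_of_indep ℓ'.ker hu (by
        rw [AddMonoidHom.mem_ker, hℓ' ⟨σ, hσ⟩, (AddMonoidHom.mem_ker.mp hu), mul_zero]) hind
      have h0 : ℓ' P₀ = 0 := AddMonoidHom.mem_ker.mp (this ▸ AddSubgroup.mem_top P₀)
      exact one_ne_zero (hℓ0.symm.trans h0)
    rw [twist_apply, hdet] at hdep
    simp only [neg_smul, one_smul, Matrix.neg_apply, mulVec, dotProduct,
      Fin.sum_univ_two] at hdep
    rw [det_fin_two] at hdet
    rw [trace_fin_two] at htr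
    have key : ∀ a b c d x y : ZMod 3, a * d - b * c = -1 → a + d ≠ 0 →
        x * -(c * x + d * y) - y * -(a * x + b * y) = 0 → x = 0 ∧ y = 0 := by
        decide +kernel
    obtain ⟨hx, hy⟩ := key (r σ 0 0) (r σ 0 1) (r σ 1 0) (r σ 1 1) (u 0) (u 1) hdet htr
      (by linear_combination hdep)
    exact hu0 (funext fun i => by fin_cases i <;> assumption)
  set π := X.coord i₀ P₀ with hπ
  -- every nonzero point has the largest coordinate value
  have hval : ∀ P : V2, P ≠ 0 → A.valuation (X.coord i₀ P) = A.valuation π := by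
    intro P hP
    have hne1 : ℓ' P ≠ 0 := fun h => hP (by
      have : P ∈ ℓ'.ker := h
      rwa [hker, AddSubgroup.mem_bot] at this)
    have hτ1 : A.valuation (X.coord i₀ P / π) = 1 := by
      refine le_antisymm ((A.valuation_le_one_iff _).mpr (hmax i₀ P trivial)) (not_lt.mp fun hlt => hne1 ?_)
      obtain ⟨hm, hP'⟩ := hℓval ⟨P, trivial⟩
      refine hP'.trans ?_
      exact (residue_eq_zero_iff _).mpr ((A.valuation_lt_one_iff ⟨_, hmax i₀ P trivial⟩).mpr hlt)
    rwa [map_div₀, div_eq_one_iff_eq ((map_ne_zero _).mpr hne)] at hτ1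
  let S : Finset V2 := Finset.univ.erase 0
  set z := ∏ P ∈ S, X.coord i₀ P
  have hz : A.valuation z = A.valuation π ^ 8 := by
    rw [map_prod, Finset.prod_congr rfl fun P hP => hval P (Finset.ne_of_mem_erase hP),
      Finset.prod_const]
    rfl
  have hz0 : z ≠ 0 := fun h => by
    rw [h, map_zero] at hz
    exact pow_ne_zero 8 ((map_ne_zero _).mpr hne) hz.symm
  obtain ⟨k, hk⟩ := exists_val_eq_zpow_of_fixed Nat.prime_three hA hz0 fun τ hτ => by
    set τ' : A.inertiaSubgroupIn ℚ := ⟨τ, hτ⟩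
    show τ z = z
    rw [map_prod]
    calc ∏ P ∈ S, τ (X.coord i₀ P) = ∏ P ∈ S, X.coord i₀ (τ' • P) :=
          Finset.prod_congr rfl fun P _ => (X.equivariant τ' i₀ P).symm
      _ = z := Finset.prod_bij' (fun P _ => τ' • P) (fun P _ => τ'⁻¹ • P)
          (fun P hP => Finset.mem_erase.mpr
            ⟨(smul_ne_zero_iff_ne τ').mpr (Finset.ne_of_mem_erase hP), Finset.mem_univ _⟩)
          (fun P hP => Finset.mem_erase.mpr
            ⟨(smul_ne_zero_iff_ne τ'⁻¹).mpr (Finset.ne_of_mem_erase hP), Finset.mem_univ _⟩)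
          (fun P _ => inv_smul_smul τ' P) (fun P _ => smul_inv_smul τ' P) fun _ _ => rfl
  rw [hz, Nat.cast_ofNat, ← hvt] at hk
  have hvπ := val_eq_zpow_of_pow (by norm_num) k hk
  have ht0 : A.valuation t ≠ 0 := (map_ne_zero _).mpr ht
  have ht1 : A.valuation t < 1 := (pow_lt_one_iff_of_nonneg zero_le (by norm_num : (8 : ℕ) ≠ 0)).mp
    (hvt ▸ h3A)
  have hk1 : 0 < k := by
    have hlt : A.valuation π < 1 := X.nondegenerate_mem_nonunits h3 (hle W) hP₀
    rw [hvπ, ← zpow_zero (A.valuation t)] at hlt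
    exact (zpow_lt_zpow_iff_right_of_lt_one₀ (zero_lt_iff.mpr ht0) ht1).mp hlt
  have hk4 : k ≤ 4 := by
    have hle' := X.three_div_sq_mem h3 (hle W) hP₀ hne hmax
    rw [← A.valuation_le_one_iff, map_div₀, map_pow, ← hvt,
      div_le_one₀ (pow_pos (zero_lt_iff.mpr ((map_ne_zero _).mpr hne)) 2)] at hle'
    rw [hvπ, ← zpow_natCast, ← zpow_natCast, ← _root_.zpow_mul] at hle'
    have := (zpow_le_zpow_iff_right_of_lt_one₀ (zero_lt_iff.mpr ht0) ht1).mp hle'
    push_cast at this
    omega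
  obtain ⟨n, rfl⟩ := Int.eq_ofNat_of_zero_le hk1.le
  -- the character is the n-th power of ζ
  obtain ⟨hmem, hχσ⟩ := hχ ⟨σ, hσ⟩
  have hχζ : χ ⟨σ, hσ⟩ = ζ ^ n := by
    rw [hχσ, ← tameVal_pow ht hσ n,
      ← TW.tameVal_eq_of_val_eq (pow_ne_zero n ht) (y := π) (by
        rw [map_pow, hvπ, zpow_natCast]) hσ]
    exact (TW.tameVal_eq hmem).symm
  -- the characteristic polynomial
  have hCH : twist r σ *ᵥ (twist r σ *ᵥ P₀) + (r σ).trace • (twist r σ *ᵥ P₀) - P₀ = 0 := by
    have e : twist r σ * twist r σ + (r σ).trace • twist r σ - 1 = 0 := by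
      rw [twist_apply, hdet]
      rw [det_fin_two] at hdet
      ext i j
      fin_cases i <;> fin_cases j <;>
        simp [Matrix.mul_apply, Fin.sum_univ_two, trace_fin_two] <;>
        first | linear_combination hdet | linear_combination -hdet | ring
    have := congrArg (· *ᵥ P₀) e
    simpa [sub_mulVec, add_mulVec, ← mulVec_mulVec, smul_mulVec] using this
  have hsm : ∀ (c : ZMod 3) (P : V2), ℓ' (c • P) = (c.val : ResidueField A) * ℓ' P := fun c P => by
    conv_lhs => rw [← ZMod.natCast_zmod_val c, Nat.cast_smul_eq_nsmul]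
    rw [map_nsmul, nsmul_eq_mul]
  have h := congrArg ℓ' hCH
  rw [map_sub, map_add, hℓ' ⟨σ, hσ⟩, hℓ' ⟨σ, hσ⟩, hsm, hℓ' ⟨σ, hσ⟩, map_zero,
    show ℓ' P₀ = 1 from hℓ0, mul_one, hχζ] at h
  rw [hdet] at hroot
  refine false_of_exponent h3k h8 h4 (a := ((r σ).trace.val : ResidueField A)) ?_ ?_
    (n := n) (by omega) (by omega) (by linear_combination h)
  · have : ∀ a : ZMod 3, a ≠ 0 → a.val = 1 ∨ a.val = 2 := by decide
    rcases this _ htr with h' | h' <;> rw [h']
    · exact Or.inl Nat.cast_one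
    · exact Or.inr (by push_cast; linear_combination h3k)
  · rw [show ((-1 : ZMod 3).val) = 2 from rfl] at hroot
    push_cast at hroot
    linear_combination hroot - h3k

/-- The twist has no model over `ℤ_(3)`. -/
theorem false_of_functionModel (hA : A.LiesOverPrime 3) (hnofix : NoInertiaFixed r A)
    (hcase : IsOrdinaryThree r A ∨ IsSupersingularThree r A)
    (G : FunctionModel 3 V2 (fun σ v => twist r σ *ᵥ v)) : False := by
  let _ := twistAction r A
  have h3A : A.valuation (3 : Qb) < 1 := by simpa using Local.val_natCast_lt_one hA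
  have hactI := actsAsInertia A
  obtain ⟨ι, _, ⟨X⟩⟩ := exists_integralCoords Nat.prime_three hA G fun σ v => rfl
  have h3 : ∀ P : V2, P + P + P = 0 := by decide
  have hF : X.formalPart h3 = ⊤ := eq_top_of_moves hnofix hcase h3A _
    (fun σ hσ w => X.smul_sub_mem_formalPart h3 hactI ⟨σ, hσ⟩ w)
    (fun σ hσ w hw => X.smul_mem_formalPart h3 hactI ⟨σ, hσ⟩ hw)
  rcases hcase with h | h
  · exact false_of_connected_ordinary X hA (fun _ _ => rfl) h3 hF h
  · exact false_of_connected_supersingular X hA (fun _ _ => rfl) h3 hF h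

end FermatAgent.Descent3
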