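import Mathlib
import Fermat.Agent.Descent3.CurveCase
import Fermat.Agent.Conductor.Residual
import Fermat.Prelude.Def_FLTPrelim_ModularRep

set_option autoImplicit false

/-!
# The mod 3 representation of a curve in coordinates, and its twist as a residual representation
-/

noncomputable section

open Matrix
open scoped WeierstrassCurve.Affine TensorProduct

namespace FermatAgent.Descent3

open FermatAgent.Local

local notation "Qb" => AlgebraicClosure ℚ
local notation "GQ" => AlgebraicClosure ℚ ≃ₐ[ℚ] AlgebraicClosure ℚ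
local notation "V2" => Fin 2 → ZMod 3
local notation "M2" => Matrix (Fin 2) (Fin 2) (ZMod 3)

variable (W : WeierstrassCurve ℤ) (hΔ : (W.map (Int.castRingHom ℚ)).Δ ≠ 0)

/-- A basis of `E[3]`. -/
def torsionBasis : Module.Basis (Fin 2) (ZMod 3) (Conductor.torsionRep W (p := 3) hΔ).V :=
  Module.finBasisOfFinrankEq (ZMod 3) _ (Conductor.torsionRep W (p := 3) hΔ).finrank_eq

/-- The matrices of `E[3]`. -/
def torsionMatrix : GQ →* M2 :=
  GalRep.matrixHom (torsionBasis W hΔ) (Conductor.torsionRep W (p := 3) hΔ).ρ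

theorem torsionMatrix_factors : GaloisFactorsThroughFiniteLevel (torsionMatrix W hΔ) := by
  obtain ⟨L, hL, h⟩ := (Conductor.torsionRep W (p := 3) hΔ).factorsThroughFiniteLevel
  exact ⟨L, hL, fun σ hσ => by rw [torsionMatrix, GalRep.matrixHom_apply, h σ hσ, map_one]⟩

theorem twist_factors {r : GQ →* M2} (hr : GaloisFactorsThroughFiniteLevel r) :
    GaloisFactorsThroughFiniteLevel (twist r) := by
  obtain ⟨L, hL, h⟩ := hr
  exact ⟨L, hL, fun σ hσ => by rw [twist_apply, h σ hσ, det_one, one_smul]⟩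

theorem span_torsionMatrix (hirr : W.ModRepIsIrreducible 3) :
    Submodule.span (ZMod 3) (Set.range (torsionMatrix W hΔ)) = ⊤ :=
  (GalRep.span_range_matrixHom _ _).mpr (GalRep.span_range_eq_top_of_isAbsolutelyIrreducible _
    (Conductor.torsionRep_isAbsolutelyIrreducible W hΔ (by norm_num) hirr))

theorem span_twist {r : GQ →* M2} (hr : Submodule.span (ZMod 3) (Set.range r) = ⊤) :
    Submodule.span (ZMod 3) (Set.range (twist r)) = ⊤ := by
  refine eq_top_iff.mpr (hr ▸ Submodule.span_le.mpr ?_)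
  rintro _ ⟨σ, rfl⟩
  have h := Submodule.smul_mem _ (r σ).det⁻¹
    (Submodule.subset_span (R := ZMod 3) ⟨σ, rfl⟩ :
      twist r σ ∈ Submodule.span (ZMod 3) (Set.range (twist r)))
  rwa [twist_apply, smul_smul, inv_mul_cancel₀ (det_ne_zero_apply r σ), one_smul] at h

/-- The coordinates of `E[3]`. -/
def torsionCoords : TorsionCoords W (torsionMatrix W hΔ) where
  j := AddMonoidHom.mk' (fun v => ((torsionBasis W hΔ).equivFun.symm v).1) fun u v => by
    rw [map_add]; rfl
  injective u v h := (torsionBasis W hΔ).equivFun.symm.injective (Subtype.ext h)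
  surjective P hP := by
    have hmem : P ∈ Submodule.torsionBy ℤ (qbarCurve W).Point ((3 : ℕ) : ℤ) := by
      rw [Submodule.mem_torsionBy_iff, natCast_zsmul]; exact hP
    refine ⟨(torsionBasis W hΔ).equivFun ⟨P, hmem⟩, ?_⟩
    exact congrArg Subtype.val ((torsionBasis W hΔ).equivFun.symm_apply_apply ⟨P, hmem⟩)
  equivariant σ v := by
    set ρ₀ := Conductor.torsionRep W (p := 3) hΔ
    set b := torsionBasis W hΔ
    have h : b.equivFun.symm (torsionMatrix W hΔ σ *ᵥ v) = ρ₀.ρ σ (b.equivFun.symm v) := by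
      refine b.equivFun.injective ?_
      rw [LinearEquiv.apply_symm_apply, Module.Basis.equivFun_apply]
      show LinearMap.toMatrix b b (ρ₀.ρ σ) *ᵥ v = _
      rw [← LinearMap.toMatrix_mulVec_repr b b (ρ₀.ρ σ) (b.equivFun.symm v),
        ← Module.Basis.equivFun_apply b, LinearEquiv.apply_symm_apply]
    show (b.equivFun.symm (torsionMatrix W hΔ σ *ᵥ v)).1 = _
    rw [h]
    rfl

/-- The trace and determinant at Frobenius of a good prime. -/
theorem torsionMatrix_frobenius (hirr : W.ModRepIsIrreducible 3) {ℓ : ℕ} (hℓ : ℓ.Prime)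
    (hgood : W.IsGoodPrimeFor ℓ) (hℓ3 : ℓ ≠ 3) {A : ValuationSubring Qb} (hA : A.LiesOverPrime ℓ)
    {τ : GQ} (hτ : A.IsFrobeniusAt τ ℓ) :
    (torsionMatrix W hΔ τ).trace = (W.apOfModel ℓ : ZMod 3) ∧
      (torsionMatrix W hΔ τ).det = (ℓ : ZMod 3) := by
  obtain ⟨htr, hdet⟩ := GalRep.Tate.trace_det_frobenius W (l := 3) hΔ
    (GalRep.Tate.hasNonscalar_of_irreducible W hΔ hirr) hℓ hgood hℓ3 hA hτ
  have hcp : (torsionMatrix W hΔ τ).charpoly =
      ((GalRep.Tate.tateMatHom (p := 3) hΔ τ).map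
        ((ZMod.castHom (pow_one 3).symm.dvd (ZMod 3)).comp (PadicInt.toZModPow 1))).charpoly := by
    rw [Matrix.charpoly_map, ← Conductor.charpoly_torsionRep]
    exact LinearMap.charpoly_toMatrix _ _
  constructor
  · rw [Matrix.trace_eq_neg_charpoly_coeff, hcp, ← Matrix.trace_eq_neg_charpoly_coeff,
      show ∀ (f : ℤ_[3] →+* ZMod 3) (M : Matrix (Fin 2) (Fin 2) ℤ_[3]),
          (M.map f).trace = f M.trace from fun f M => (AddMonoidHom.map_trace f M).symm, htr,
      map_intCast]
  · rw [Matrix.det_eq_sign_charpoly_coeff, hcp, ← Matrix.det_eq_sign_charpoly_coeff,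
      ← RingHom.mapMatrix_apply, ← RingHom.map_det, hdet, map_natCast]

/-- Fixed points of inertia in coordinates. -/
theorem noInertiaFixed {A : ValuationSubring Qb}
    (hnofix : ∀ x : Submodule.torsionBy ℤ
      ((W.map (Int.castRingHom ℚ))⁄(AlgebraicClosure ℚ)).Point (3 : ℕ),
        (∀ σ ∈ A.inertiaSubgroupIn ℚ, σ • x = x) → x = 0) :
    NoInertiaFixed (torsionMatrix W hΔ) A := by
  intro u hu
  set C := torsionCoords W hΔ
  have hmem : C.j u ∈ Submodule.torsionBy ℤ (qbarCurve W).Point ((3 : ℕ) : ℤ) := by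
    rw [Submodule.mem_torsionBy_iff, natCast_zsmul]; exact three_nsmul_j C u
  have := hnofix ⟨C.j u, hmem⟩ fun σ hσ => Subtype.ext (by
    show σ • C.j u = C.j u
    rw [← C.equivariant, hu σ hσ])
  exact C.injective ((congrArg Subtype.val this).trans C.j.map_zero.symm)

/-- The twist over a field of characteristic 3, as a residual representation. -/
def twistRep {r : GQ →* M2} (hr : GaloisFactorsThroughFiniteLevel r) {k : Type} [Field k]
    (ι : ZMod 3 →+* k) : ResidualGaloisRep k where
  V := Fin 2 → k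
  finrank_eq := by simp
  ρ := (Matrix.toLinAlgEquiv' (R := k) (n := Fin 2)).toAlgHom.toMonoidHom.comp
    (ι.mapMatrix.toMonoidHom.comp (twist r))
  factorsThroughFiniteLevel := by
    obtain ⟨L, hL, h⟩ := twist_factors hr
    exact ⟨L, hL, fun σ hσ => by simp [h σ hσ]⟩

theorem twistRep_apply {r : GQ →* M2} (hr : GaloisFactorsThroughFiniteLevel r) {k : Type} [Field k]
    (ι : ZMod 3 →+* k) (σ : GQ) (x : Fin 2 → k) :
    (twistRep hr ι).ρ σ x = (twist r σ).map ι *ᵥ x :=
  Matrix.toLinAlgEquiv'_apply _ _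

theorem charpoly_twistRep {r : GQ →* M2} (hr : GaloisFactorsThroughFiniteLevel r) {k : Type}
    [Field k] (ι : ZMod 3 →+* k) (σ : GQ) :
    ((twistRep hr ι).ρ σ).charpoly = (twist r σ).charpoly.map ι := by
  rw [← Matrix.charpoly_map]
  exact Matrix.charpoly_toLin' _

theorem isAbsolutelyIrreducible_twistRep {r : GQ →* M2} (hr : GaloisFactorsThroughFiniteLevel r)
    (hspan : Submodule.span (ZMod 3) (Set.range r) = ⊤) {k : Type} [Field k] (ι : ZMod 3 →+* k) :
    (twistRep hr ι).IsAbsolutelyIrreducible := by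
  set K := AlgebraicClosure k
  set ρ := twistRep hr ι
  set b : Module.Basis (Fin 2) k ρ.V := Pi.basisFun k (Fin 2)
  refine Conductor.isIrreducible_of_span_eq_top _
    ((GalRep.span_range_matrixHom (b.baseChange K) _).1 ?_)
  rw [← Conductor.span_range_map_eq_top ((algebraMap k K).comp ι) (twist r) (span_twist hspan)]
  congr 2
  funext g
  rw [GalRep.matrixHom_baseChange b ρ.ρ _ (fun _ => rfl) g, GalRep.matrixHom_apply]
  ext i j
  rw [Matrix.map_apply, Matrix.map_apply, RingHom.comp_apply, LinearMap.toMatrixAlgEquiv_apply]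
  congr 1
  show ((twistRep hr ι).ρ g (Pi.basisFun k (Fin 2) j)) i = _
  rw [twistRep_apply]
  simp

end FermatAgent.Descent3
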