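import Mathlib
import Fermat.Agent.Descent3.Torsion
import Fermat.Agent.Descent3.NotFlat
import Fermat.Agent.Descent3.FlatTwist
import Fermat.Agent.Descent3.LevelThree
import Fermat.Agent.Descent3.ToricInterface
import Fermat.Agent.GalRep.Construct.Main
import Fermat.Agent.GalRep.Flat.Main
import Fermat.Agent.Wiring.Modularity

set_option autoImplicit false

/-!
# From residual modularity at 3 of a level divisible by 9 to a level not divisible by 9

For a semistable curve with irreducible `E[3]` and no point fixed by inertia at 3, residual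
modularity at level `3 ^ (r + 1) N` descends to level `3 N`, up to a twist by the mod 3 cyclotomic
character. The twist does not occur: it is neither flat at 3 (old forms) nor has an unramified
quotient at 3 (new forms).
-/

noncomputable section

open CongruenceSubgroup ModularFormClass CuspForm Polynomial
open scoped WeierstrassCurve.Affine Matrix

namespace FermatAgent.Descent3

local notation "Qb" => AlgebraicClosure ℚ
local notation "GQ" => AlgebraicClosure ℚ ≃ₐ[ℚ] AlgebraicClosure ℚ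
local notation "ℤbar" => integralClosure ℤ ℂ

variable {W : WeierstrassCurve ℤ} (hΔ : (W.map (Int.castRingHom ℚ)).Δ ≠ 0)
  (hirr : W.ModRepIsIrreducible 3) {k : Type} [Field k] [CharP k 3] (φ : ℤbar →+* k)

include hirr in
/-- Trace and determinant of the twist at Frobenius of a good prime. -/
theorem twist_frobenius {ℓ : ℕ} (hℓ : ℓ.Prime) (hgood : W.IsGoodPrimeFor ℓ) (hℓ3 : ℓ ≠ 3)
    {A : ValuationSubring Qb} (hA : A.LiesOverPrime ℓ) {τ : GQ} (hτ : A.IsFrobeniusAt τ ℓ) :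
    (twist (torsionMatrix W hΔ) τ).trace = (((ℓ : ℤ) * W.apOfModel ℓ : ℤ) : ZMod 3) ∧
      (twist (torsionMatrix W hΔ) τ).det = (ℓ : ZMod 3) := by
  obtain ⟨htr, hdet⟩ := torsionMatrix_frobenius W hΔ hirr hℓ hgood hℓ3 hA hτ
  constructor
  · rw [twist_apply, Matrix.trace_smul, smul_eq_mul, htr, hdet]
    push_cast
    rfl
  · rw [twist_apply, Matrix.det_smul, Fintype.card_fin, hdet, ← pow_succ]
    exact ZMod.pow_card _

include hirr in
/-- The twist does not occur in the torsion of `J₀(N)` when that has models over `ℤ_(3)`. -/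
theorem false_of_level_prime_to_three {N : ℕ} [NeZero N] (hflat : GalRep.Flat.TorsionFlatModels N 3)
    {g : CuspForm (Gamma0 N) 2} (hg : g.IsNormalizedEigenform)
    (hcong : ∀ ℓ : ℕ, ℓ.Prime → W.IsGoodPrimeFor ℓ → ¬ ℓ ∣ 3 * N →
      ∃ b : ℤbar, (b : ℂ) = qCoeff g ℓ ∧ φ b = (((ℓ : ℤ) * W.apOfModel ℓ : ℤ) : k))
    {A : ValuationSubring Qb} (hA : A.LiesOverPrime 3)
    (hnofix : NoInertiaFixed (torsionMatrix W hΔ) A)
    (hcase : IsOrdinaryThree (torsionMatrix W hΔ) A ∨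
      IsSupersingularThree (torsionMatrix W hΔ) A) : False := by
  classical
  have : Fact (Nat.Prime 3) := ⟨Nat.prime_three⟩
  have hN : N ≠ 0 := NeZero.ne N
  let S : Finset ℕ := insert 3 N.primeFactors
  have hS : ∀ q : ℕ, q.Prime → q ∣ N → q ∈ (↑S : Set ℕ) := fun q hq hqN => by
    simp [S, Nat.mem_primeFactors.mpr ⟨hq, hqN, hN⟩]
  obtain ⟨Dt⟩ := FermatAgent.ModCurveTorsion.heckeTorsionInput N 3 Nat.prime_three (↑S : Set ℕ) hS
  set D := GalRep.heckeTateDataOf Dt (FermatAgent.ES.torsionUnramified N 3)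
    (FermatAgent.ES.torsionFrobQuadratic N 3) hS
  obtain ⟨χ, -, hχ, -⟩ := DSLift.exists_ringHom_of_isNormalizedEigenform hg (↑S : Set ℕ)
  have : Module.Finite ℤ (heckeAlgebra N 2 (↑S : Set ℕ)) :=
    Module.Finite.of_injective D.ι.toAddMonoidHom.toIntLinearMap D.ι_injective
  let χ₀ : heckeAlgebra N 2 (↑S : Set ℕ) →+* ℤbar :=
    χ.codRestrict (integralClosure ℤ ℂ).toSubring fun t =>
      (IsIntegral.map χ.toIntAlgHom (Algebra.IsIntegral.isIntegral (R := ℤ) t) :)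
  let f : heckeAlgebra N 2 (↑S : Set ℕ) →+* k := φ.comp χ₀
  let K : Subring k := f.range
  have : Finite K := GalRep.range_finite Nat.prime_three f
  let _ : Fintype K := Fintype.ofFinite K
  let _ : Field K := Fintype.fieldOfDomain K
  have : CharP K 3 := (CharP.charP_iff_prime_eq_zero Nat.prime_three).mpr
      (K.subtype_injective (by rw [map_natCast, map_zero]; exact CharP.cast_eq_zero k 3))
  set r := torsionMatrix W hΔ
  have hbad : ((3 * N : ℕ) : ℤ) * W.Δ ≠ 0 := mul_ne_zero (by exact_mod_cast (by omega : 3 * N ≠ 0))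
    fun h => hΔ (by rw [WeierstrassCurve.map_Δ, h, map_zero])
  obtain ⟨G⟩ := exists_functionModel (p := 3) (by norm_num) D
    (GalRep.Flat.nonempty_levelModel Dt _ _ hS hflat 1) f.rangeRestrict (twist r)
    (twist_factors (torsionMatrix_factors W hΔ)) (span_twist (span_torsionMatrix W hΔ hirr))
    (S' := ↑(((3 * N : ℕ) : ℤ) * W.Δ).natAbs.primeFactors) (Finset.finite_toSet _)
    fun ℓ hℓ hℓS' => by
      have hnd : ¬ (ℓ : ℤ) ∣ ((3 * N : ℕ) : ℤ) * W.Δ := fun h => hℓS' <|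
        Nat.mem_primeFactors.mpr ⟨hℓ, Int.natCast_dvd.mp h, Int.natAbs_ne_zero.mpr hbad⟩
      have hℓ3N : ¬ ℓ ∣ 3 * N := fun h => hnd ((Int.natCast_dvd_natCast.mpr h).mul_right _)
      have hgood : W.IsGoodPrimeFor ℓ := fun h => hnd (h.mul_left _)
      have hℓ3 : ℓ ≠ 3 := fun h => hℓ3N (h ▸ dvd_mul_right 3 N)
      have hℓN : ¬ ℓ ∣ N := fun h => hℓ3N (h.mul_left 3)
      have hℓS : ℓ ∉ (↑S : Set ℕ) := by
        simp only [S, Finset.coe_insert, Set.mem_insert_iff, Finset.mem_coe, not_or]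
        exact ⟨hℓ3, fun h => hℓN (Nat.dvd_of_mem_primeFactors h)⟩
      refine ⟨hℓ3, hℓ, hℓN, hℓS, fun A hA τ hτ => ?_⟩
      obtain ⟨htr, hdet⟩ := twist_frobenius hΔ hirr hℓ hgood hℓ3 hA hτ
      refine ⟨hdet, K.subtype_injective ?_⟩
      obtain ⟨b, hb, hbφ⟩ := hcong ℓ hℓ hgood hℓ3N
      show φ (χ₀ (heckeAlgebra.T hℓ hℓN hℓS)) = K.subtype (ZMod.castHom dvd_rfl K _)
      rw [htr, map_intCast, map_intCast,
        show χ₀ (heckeAlgebra.T hℓ hℓN hℓS) = b from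
          Subtype.ext ((hχ ℓ hℓ hℓN hℓS).trans hb.symm), hbφ]
  exact false_of_functionModel hA hnofix hcase G

include hirr in
/-- The twist does not have an unramified quotient at 3. -/
theorem false_of_new_at_three (htoric : ToricLine 3) {N : ℕ} [NeZero N] (h3N : ¬ 3 ∣ N)
    {g : CuspForm (Gamma0 (3 * N)) 2} (hg : g.IsNormalizedEigenform)
    (hnew : ¬ CuspForm.GoodEigensystemOccursAt g N)
    (hcong : ∀ ℓ : ℕ, ℓ.Prime → W.IsGoodPrimeFor ℓ → ¬ ℓ ∣ 3 * N →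
      ∃ b : ℤbar, (b : ℂ) = qCoeff g ℓ ∧ φ b = (((ℓ : ℤ) * W.apOfModel ℓ : ℤ) : k))
    {A : ValuationSubring Qb} (hA : A.LiesOverPrime 3)
    (hnofix : NoInertiaFixed (torsionMatrix W hΔ) A)
    (hcase : IsOrdinaryThree (torsionMatrix W hΔ) A ∨
      IsSupersingularThree (torsionMatrix W hΔ) A) : False := by
  have : Fact (Nat.Prime 3) := ⟨Nat.prime_three⟩
  set ι : ZMod 3 →+* k := ZMod.castHom dvd_rfl k
  obtain ⟨ρ, hatt, -⟩ := GalRep.exists_residualGaloisRep_isAttachedTo' hg Nat.prime_three φ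
  set R := twistRep (torsionMatrix_factors W hΔ) ι
  have hR := isAbsolutelyIrreducible_twistRep (torsionMatrix_factors W hΔ)
    (span_torsionMatrix W hΔ hirr) ι
  have hbad : ((3 * N : ℕ) : ℤ) * W.Δ ≠ 0 := mul_ne_zero
    (by exact_mod_cast (mul_ne_zero (by norm_num) (NeZero.ne N) : 3 * N ≠ 0))
    fun h => hΔ (by rw [WeierstrassCurve.map_Δ, h, map_zero])
  obtain ⟨e⟩ := GalRep.residual_isEquiv_of_frobenius R ρ hR
    (S := ↑(((3 * N : ℕ) : ℤ) * W.Δ).natAbs.primeFactors) (Finset.finite_toSet _)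
    fun ℓ hℓ hℓS' A hA τ hτ => by
      have hnd : ¬ (ℓ : ℤ) ∣ ((3 * N : ℕ) : ℤ) * W.Δ := fun h => hℓS' <|
        Nat.mem_primeFactors.mpr ⟨hℓ, Int.natCast_dvd.mp h, Int.natAbs_ne_zero.mpr hbad⟩
      have hℓ3N : ¬ ℓ ∣ 3 * N := fun h => hnd ((Int.natCast_dvd_natCast.mpr h).mul_right _)
      have hgood : W.IsGoodPrimeFor ℓ := fun h => hnd (h.mul_left _)
      have hℓ3 : ℓ ≠ 3 := fun h => hℓ3N (h ▸ dvd_mul_right 3 N)
      have hℓk : (ℓ : k) ≠ 0 := fun h => hℓ3 ((Nat.prime_dvd_prime_iff_eq Nat.prime_three hℓ).mp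
        ((CharP.cast_eq_zero_iff k 3 ℓ).mp h)).symm
      obtain ⟨a, ha, hcp⟩ := hatt ℓ hℓ hℓ3N hℓk A hA τ hτ
      obtain ⟨b, hb, hbφ⟩ := hcong ℓ hℓ hgood hℓ3N
      obtain ⟨htr, hdet⟩ := twist_frobenius hΔ hirr hℓ hgood hℓ3 hA hτ
      rw [charpoly_twistRep, hcp, Matrix.charpoly_fin_two, htr, hdet]
      simp only [Polynomial.map_add, Polynomial.map_sub, Polynomial.map_pow, Polynomial.map_mul,
        Polynomial.map_X, map_intCast, map_natCast, Polynomial.map_intCast,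
        Polynomial.map_natCast]
      rw [show a = b from Subtype.ext (ha.trans hb.symm), hbφ, map_intCast]
  have hρ : ρ.IsAbsolutelyIrreducible := by
    refine Conductor.isAbsolutelyIrreducible_of_charpoly_map R hR (RingHom.id k) ρ fun σ => ?_
    rw [Polynomial.map_id, ← LinearEquiv.charpoly_conj e.toLinearEquiv (R.ρ σ)]
    congr 1
    ext x
    simp [LinearEquiv.conj_apply, e.map_apply]
  obtain ⟨L, -, hL, hstable, hquot⟩ := htoric N h3N g hg hnew k φ ρ hatt hρ A hA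
  have h3A : A.valuation (3 : Qb) < 1 := by simpa using Local.val_natCast_lt_one hA
  let e' : (Fin 2 → k) ≃ₗ[k] ρ.V := e.toLinearEquiv
  have he : ∀ (σ : GQ) (x : Fin 2 → k),
      e' ((twist (torsionMatrix W hΔ) σ).map ι *ᵥ x) = ρ.ρ σ (e' x) := fun σ x =>
    (congrArg e' (twistRep_apply (torsionMatrix_factors W hΔ) ι σ x).symm).trans (e.map_apply σ x)
  refine false_of_stable_quotient hnofix hcase h3A ι (L.comap e'.toLinearMap) ?_
    (fun σ hσ x hx => ?_) (fun σ hσ x => ?_)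
  · intro h
    refine hL (eq_top_iff.mpr fun y _ => ?_)
    have : e'.symm y ∈ L.comap e'.toLinearMap := h ▸ Submodule.mem_top
    simpa using this
  · show e' _ ∈ L
    rw [he]
    exact hstable σ hσ _ hx
  · show e' _ ∈ L
    rw [map_sub, he]
    exact hquot σ hσ _

/-- **The descent at 3**: residual modularity at a level divisible by 9 gives the residual input. -/
theorem residualInput_three_of_nine_dvd
    (hflat : ∀ (N : ℕ) [NeZero N], ¬ 3 ∣ N → GalRep.Flat.TorsionFlatModels N 3)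
    (htoric : ToricLine 3) (W : WeierstrassCurve ℤ) (hΔ : W.Δ ≠ 0) (hW : W.IsSemistableModel)
    (hirr : W.ModRepIsIrreducible 3)
    (hnofix : ∀ A : ValuationSubring Qb, A.LiesOverPrime 3 →
      ∀ x : Submodule.torsionBy ℤ
          ((W.map (Int.castRingHom ℚ))⁄(AlgebraicClosure ℚ)).Point (3 : ℕ),
        (∀ σ ∈ A.inertiaSubgroupIn ℚ, σ • x = x) → x = 0)
    (M : ℕ) (hM : 0 < M) (h9 : 3 ^ 2 ∣ M) (hcube : ∀ q : ℕ, q.Prime → q ≠ 3 → ¬ q ^ 3 ∣ M)
    (hres : W.IsResiduallyModularOfLevel 3 M) : Wiring.ResidualInput W 3 := by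
  obtain ⟨e, N, h3N, rfl⟩ := Nat.exists_eq_pow_mul_and_not_dvd hM.ne' 3 (by norm_num)
  obtain ⟨r, rfl⟩ : ∃ r, e = r + 1 := Nat.exists_eq_succ_of_ne_zero fun he => by
    subst he
    rw [pow_zero, one_mul] at h9
    exact h3N ((dvd_pow_self 3 two_ne_zero).trans h9)
  have : NeZero N := ⟨fun h => by simp [h] at hM⟩
  obtain ⟨k, g, 𝔪, hg, hmax, h3, hcong⟩ := exists_level_three_mul hΔ hirr hres
  have hΔ' : (W.map (Int.castRingHom ℚ)).Δ ≠ 0 := by
    rw [WeierstrassCurve.map_Δ, eq_intCast]; exact_mod_cast hΔ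
  let _ : Field (ℤbar ⧸ 𝔪) := Ideal.Quotient.field 𝔪
  have : CharP (ℤbar ⧸ 𝔪) 3 := (CharP.charP_iff_prime_eq_zero Nat.prime_three).mpr (by
    rw [← map_natCast (Ideal.Quotient.mk 𝔪)]
    exact Ideal.Quotient.eq_zero_iff_mem.mpr h3)
  set φ := Ideal.Quotient.mk 𝔪
  have hpow : ∀ ℓ : ℕ, ℓ.Prime → ℓ ≠ 3 → ((ℓ : ℤbar ⧸ 𝔪) ^ k = (ℓ : ℤbar ⧸ 𝔪) ^ (k % 2)) := by
    intro ℓ hℓ hℓ3
    have hsq : ∀ x : ZMod 3, x ≠ 0 → x ^ 2 = 1 := by decide
    have h : (ℓ : ℤbar ⧸ 𝔪) ^ 2 = 1 := by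
      have h0 : (ℓ : ZMod 3) ≠ 0 := fun h => hℓ3
        ((Nat.prime_dvd_prime_iff_eq Nat.prime_three hℓ).mp
          ((ZMod.natCast_eq_zero_iff ℓ 3).mp h)).symm
      have := congrArg (ZMod.castHom (dvd_refl 3) (ℤbar ⧸ 𝔪)) (hsq _ h0)
      rwa [map_pow, map_natCast, map_one] at this
    conv_lhs => rw [← Nat.mod_add_div k 2, pow_add, pow_mul, h, one_pow, mul_one]
  rcases Nat.mod_two_eq_zero_or_one k with heven | hodd
  · refine ⟨3 * N, Nat.mul_pos (by norm_num) (Nat.pos_of_ne_zero (NeZero.ne N)), fun h => h3N ?_, fun q hq hq3 h => hcube q hq hq3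
      (h.trans (Nat.mul_dvd_mul_right (dvd_pow_self 3 r.succ_ne_zero) N)), g, 𝔪, hg, hmax, h3,
      fun ℓ hℓ hgood hℓN hℓ3 => ?_⟩
    · rw [sq] at h
      exact Nat.dvd_of_mul_dvd_mul_left (by norm_num) h
    · obtain ⟨b, hb, hbm⟩ := hcong ℓ hℓ hgood hℓN
      refine ⟨b, hb, Ideal.Quotient.eq.mp ?_⟩
      rw [Ideal.Quotient.eq.mpr hbm, map_intCast, map_intCast, Int.cast_mul, Int.cast_pow,
        Int.cast_natCast, hpow ℓ hℓ hℓ3, heven, pow_zero, one_mul]
  exfalso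
  have hφ : ∀ ℓ : ℕ, ℓ.Prime → W.IsGoodPrimeFor ℓ → ¬ ℓ ∣ 3 * N →
      ∃ b : ℤbar, (b : ℂ) = qCoeff g ℓ ∧ φ b = (((ℓ : ℤ) * W.apOfModel ℓ : ℤ) : ℤbar ⧸ 𝔪) := by
    intro ℓ hℓ hgood hℓN
    obtain ⟨b, hb, hbm⟩ := hcong ℓ hℓ hgood hℓN
    refine ⟨b, hb, ?_⟩
    rw [show φ b = _ from Ideal.Quotient.eq.mpr hbm, map_intCast, Int.cast_mul, Int.cast_mul,
      Int.cast_pow, Int.cast_natCast, hpow ℓ hℓ fun h => hℓN (h ▸ dvd_mul_right 3 N), hodd, pow_one]
  obtain ⟨A, hA⟩ := RT.exists_liesOverPrime Nat.prime_three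
  have hnf := noInertiaFixed W hΔ' (hnofix A hA)
  have hcase := isOrdinaryThree_or_supersingular hΔ' (hW 3 Nat.prime_three) hA
    (torsionCoords W hΔ') hnf
  by_cases hold : CuspForm.GoodEigensystemOccursAt g N
  · obtain ⟨g', hg', hcoeff⟩ := hold
    refine false_of_level_prime_to_three hΔ' hirr φ (hflat N h3N) hg'
      (fun ℓ hℓ hgood hℓN => ?_) hA hnf hcase
    obtain ⟨b, hb, hbφ⟩ := hφ ℓ hℓ hgood hℓN
    exact ⟨b, hb.trans (hcoeff ℓ hℓ hℓN).symm, hbφ⟩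
  · exact false_of_new_at_three hΔ' hirr φ htoric h3N hg hold hφ hA hnf hcase

end FermatAgent.Descent3
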